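import Mathlib

set_option autoImplicit false

namespace Fermat.Agent.S22

open Matrix

open scoped MatrixGroups

/-- Bezout data for a pair of integers, not both zero. -/
theorem exists_bezout_data (x y : ℤ) (hxy : ¬ (x = 0 ∧ y = 0)) :
    ∃ e x' y' u v : ℤ, 0 < e ∧ x = e * x' ∧ y = e * y' ∧ x' * u + y' * v = 1 := by
  have he_pos : (0 : ℤ) < ((Int.gcd x y : ℕ) : ℤ) := by
    have : 0 < Int.gcd x y := Int.gcd_pos_iff.mpr (by tauto)
    exact_mod_cast this
  obtain ⟨x', hx'⟩ : ((Int.gcd x y : ℕ) : ℤ) ∣ x := Int.gcd_dvd_left x y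
  obtain ⟨y', hy'⟩ : ((Int.gcd x y : ℕ) : ℤ) ∣ y := Int.gcd_dvd_right x y
  have hbez : ((Int.gcd x y : ℕ) : ℤ) = x * Int.gcdA x y + y * Int.gcdB x y :=
    Int.gcd_eq_gcd_ab x y
  refine ⟨_, x', y', Int.gcdA x y, Int.gcdB x y, he_pos, hx', hy', ?_⟩
  have h2 : ((Int.gcd x y : ℕ) : ℤ) * (x' * Int.gcdA x y + y' * Int.gcdB x y) =
      ((Int.gcd x y : ℕ) : ℤ) * 1 := by
    rw [mul_one]
    calc ((Int.gcd x y : ℕ) : ℤ) * (x' * Int.gcdA x y + y' * Int.gcdB x y)
        = (((Int.gcd x y : ℕ) : ℤ) * x') * Int.gcdA x y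
          + (((Int.gcd x y : ℕ) : ℤ) * y') * Int.gcdB x y := by ring
      _ = x * Int.gcdA x y + y * Int.gcdB x y := by rw [← hx', ← hy']
      _ = _ := hbez.symm
  exact mul_left_cancel₀ he_pos.ne' h2

/-- Hermite normal form for a nonsingular integer `2 × 2` matrix: it is the product of an element
of `SL(2, ℤ)` and an upper triangular integer matrix with positive top-left entry. -/
theorem exists_SL2_mul_upper (M : Matrix (Fin 2) (Fin 2) ℤ) (hM : M.det ≠ 0) :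
    ∃ (g : SL(2, ℤ)) (a b d : ℤ), 0 < a ∧ a * d = M.det ∧
      M = (g : Matrix (Fin 2) (Fin 2) ℤ) * !![a, b; 0, d] := by
  have hxy : ¬ (M 0 0 = 0 ∧ M 1 0 = 0) := by
    rintro ⟨h0, h1⟩
    apply hM
    rw [Matrix.det_fin_two, h0, h1]
    ring
  obtain ⟨e, x', y', u, v, he_pos, hx', hy', hcop⟩ := exists_bezout_data _ _ hxy
  refine ⟨⟨!![x', -v; y', u], by rw [Matrix.det_fin_two_of]; linarith⟩, e,
    u * M 0 1 + v * M 1 1, x' * M 1 1 - y' * M 0 1, he_pos, ?_, ?_⟩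
  · rw [Matrix.det_fin_two, hx', hy']; ring
  · show M = !![x', -v; y', u] * !![e, u * M 0 1 + v * M 1 1; 0, x' * M 1 1 - y' * M 0 1]
    rw [Matrix.mul_fin_two]
    conv_lhs => rw [Matrix.eta_fin_two M]
    congr 1
    ext i j
    fin_cases i <;> fin_cases j
    · show M 0 0 = x' * e + -v * 0
      rw [hx']; ring
    · show M 0 1 = x' * (u * M 0 1 + v * M 1 1) + -v * (x' * M 1 1 - y' * M 0 1)
      linear_combination (-(M 0 1)) * hcop
    · show M 1 0 = y' * e + u * 0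
      rw [hy']; ring
    · show M 1 1 = y' * (u * M 0 1 + v * M 1 1) + u * (x' * M 1 1 - y' * M 0 1)
      linear_combination (-(M 1 1)) * hcop

end Fermat.Agent.S22
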