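import Mathlib

/-!
# Functions on `ℍ` killed by `D^[n+1]` are polynomials of degree `≤ n` (helper20, for S22)
-/

open UpperHalfPlane hiding I
open Real Complex
open scoped Manifold MatrixGroups ModularForm Topology
open Derivative

namespace Fermat.Agent.S22

noncomputable section

/-- the function on `ℍ` attached to a polynomial -/
def h20_polyFun (p : Polynomial ℂ) : ℍ → ℂ := fun z => p.eval (z : ℂ)

@[simp] theorem h20_polyFun_apply (p : Polynomial ℂ) (z : ℍ) :
    h20_polyFun p z = p.eval (z : ℂ) := rfl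

theorem h20_polyFun_add (p q : Polynomial ℂ) :
    h20_polyFun (p + q) = h20_polyFun p + h20_polyFun q := by
  ext z; simp

theorem h20_polyFun_sub (p q : Polynomial ℂ) :
    h20_polyFun (p - q) = h20_polyFun p - h20_polyFun q := by
  ext z; simp

theorem h20_polyFun_smul (c : ℂ) (p : Polynomial ℂ) :
    h20_polyFun (c • p) = c • h20_polyFun p := by
  ext z; simp

theorem h20_polyFun_injective : Function.Injective h20_polyFun := by
  intro p q h
  refine Polynomial.eq_of_infinite_eval_eq p q ?_
  have hsub : (Set.range fun t : ℕ => ((t : ℂ) + I)) ⊆ {x | p.eval x = q.eval x} := by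
    rintro _ ⟨t, rfl⟩
    have hpos : 0 < ((t : ℂ) + I).im := by simp
    have := congrFun h ⟨(t : ℂ) + I, hpos⟩
    simpa using this
  refine Set.Infinite.mono hsub (Set.infinite_range_of_injective ?_)
  intro a b hab
  have : (a : ℂ) = b := by simpa using hab
  exact_mod_cast this

theorem h20_mdiff_polyFun (p : Polynomial ℂ) : MDiff (h20_polyFun p) := by
  rw [UpperHalfPlane.mdifferentiable_iff]
  have : DifferentiableOn ℂ (fun z : ℂ => p.eval z) upperHalfPlaneSet :=
    p.differentiable.differentiableOn
  refine this.congr ?_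
  intro z hz
  simp [h20_polyFun, Function.comp_apply, ofComplex_apply_of_im_pos hz]

theorem h20_D_polyFun (p : Polynomial ℂ) :
    D (h20_polyFun p) = h20_polyFun (Polynomial.C ((2 * π * I)⁻¹) * Polynomial.derivative p) := by
  ext z
  have hev : (h20_polyFun p ∘ ofComplex) =ᶠ[𝓝 (z : ℂ)] fun w : ℂ => p.eval w := by
    filter_upwards [isOpen_upperHalfPlaneSet.mem_nhds z.im_pos] with w hw
    simp [h20_polyFun, Function.comp_apply, ofComplex_apply_of_im_pos hw]
  simp only [normalizedDerivOfComplex, h20_polyFun_apply, Polynomial.eval_mul, Polynomial.eval_C]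
  rw [hev.deriv_eq, Polynomial.deriv]

/-- `D G = 0` implies `G` constant. -/
theorem h20_const_of_D_eq_zero {G : ℍ → ℂ} (hG : MDiff G) (h : D G = 0) :
    ∃ c : ℂ, G = fun _ => c := by
  have hd : DifferentiableOn ℂ (G ∘ ofComplex) upperHalfPlaneSet :=
    UpperHalfPlane.mdifferentiable_iff.mp hG
  have h2 : (2 * π * I : ℂ)⁻¹ ≠ 0 := by
    simp [Real.pi_ne_zero]
  have hz : Set.EqOn (deriv (G ∘ ofComplex)) 0 upperHalfPlaneSet := by
    intro w hw
    have := congrFun h ⟨w, hw⟩
    simp only [normalizedDerivOfComplex, Pi.zero_apply, mul_eq_zero] at this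
    rcases this with h' | h'
    · exact absurd h' h2
    · simpa using h'
  have hconv : Convex ℝ upperHalfPlaneSet := convex_halfSpace_im_gt 0
  refine ⟨G UpperHalfPlane.I, ?_⟩
  ext z
  have := isOpen_upperHalfPlaneSet.is_const_of_deriv_eq_zero hconv.isPreconnected hd hz
    (x := (z : ℂ)) (y := ((UpperHalfPlane.I : ℍ) : ℂ)) z.im_pos UpperHalfPlane.I.im_pos
  have e1 : ofComplex ((z : ℍ) : ℂ) = z := ofComplex_apply z
  have e2 : ofComplex ((UpperHalfPlane.I : ℍ) : ℂ) = UpperHalfPlane.I := ofComplex_apply _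
  simpa only [Function.comp_apply, e1, e2] using this

/-- polynomial antiderivative -/
theorem h20_exists_antiderivative (n : ℕ) (p : Polynomial ℂ) (hp : p.natDegree ≤ n) :
    ∃ P : Polynomial ℂ, P.natDegree ≤ n + 1 ∧ Polynomial.derivative P = p := by
  refine ⟨∑ i ∈ Finset.range (n + 1), Polynomial.monomial (i + 1) (p.coeff i / ((i : ℂ) + 1)),
    ?_, ?_⟩
  · refine Polynomial.natDegree_sum_le_of_forall_le _ _ ?_
    intro i hi
    have : i + 1 ≤ n + 1 := by
      have := Finset.mem_range.mp hi
      omega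
    exact (Polynomial.natDegree_monomial_le _).trans this
  · rw [Polynomial.derivative_sum]
    conv_rhs => rw [p.as_sum_range' (n + 1) (by omega)]
    refine Finset.sum_congr rfl ?_
    intro i _
    rw [Polynomial.derivative_monomial]
    have : ((i : ℂ) + 1) ≠ 0 := by
      have : ((i : ℂ) + 1) = ((i + 1 : ℕ) : ℂ) := by push_cast; ring
      rw [this]
      exact_mod_cast Nat.succ_ne_zero i
    congr 1
    · push_cast
      field_simp

/-- A holomorphic function on `ℍ` killed by `D^[n+1]` is a polynomial of degree `≤ n`. -/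
theorem h20_exists_polynomial (n : ℕ) {G : ℍ → ℂ} (hG : MDiff G) (h : D^[n + 1] G = 0) :
    ∃ p : Polynomial ℂ, p.natDegree ≤ n ∧ G = h20_polyFun p := by
  induction n generalizing G with
  | zero =>
    obtain ⟨c, hc⟩ := h20_const_of_D_eq_zero hG (by simpa using h)
    refine ⟨Polynomial.C c, by simp, ?_⟩
    rw [hc]; ext z; simp
  | succ n ih =>
    have hDG : MDiff (D G) := normalizedDerivOfComplex_mdifferentiable hG
    have h' : D^[n + 1] (D G) = 0 := by
      rw [← Function.iterate_succ_apply]; exact h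
    obtain ⟨p, hp, hpG⟩ := ih hDG h'
    have h2 : (2 * π * I : ℂ) ≠ 0 := by
      simp [Real.pi_ne_zero]
    obtain ⟨P, hP, hPd⟩ := h20_exists_antiderivative n (Polynomial.C (2 * π * I) * p)
      ((Polynomial.natDegree_C_mul_le _ _).trans hp)
    have hH : D (G - h20_polyFun P) = 0 := by
      rw [normalizedDerivOfComplex_sub _ _ hG (h20_mdiff_polyFun P), h20_D_polyFun, hPd, hpG,
        ← mul_assoc, ← Polynomial.C_mul, inv_mul_cancel₀ h2, Polynomial.C_1, one_mul, sub_self]
    obtain ⟨c, hc⟩ := h20_const_of_D_eq_zero (hG.sub (h20_mdiff_polyFun P)) hH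
    refine ⟨P + Polynomial.C c, ?_, ?_⟩
    · refine (Polynomial.natDegree_add_le _ _).trans ?_
      simp [hP]
    · ext z
      have := congrFun hc z
      simp only [Pi.sub_apply, h20_polyFun_apply] at this
      simp only [h20_polyFun_apply, Polynomial.eval_add, Polynomial.eval_C]
      rw [← this]; ring

end

end Fermat.Agent.S22
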