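import Mathlib

set_option autoImplicit false

open UpperHalfPlane hiding I
open Complex Filter Function Topology
open scoped Manifold MatrixGroups ModularForm Real

namespace Fermat.Agent.S22

noncomputable section

local notation "𝔻" => Derivative.normalizedDerivOfComplex

/-- Holomorphic on the upper half plane, periodic, and tending to zero at `i∞`. -/
structure IsCuspLike (φ : ℍ → ℂ) : Prop where
  holo : MDiff φ
  zero : IsZeroAtImInfty φ
  per : ∃ n : ℕ, 0 < n ∧ Periodic (φ ∘ ofComplex) ((n : ℝ) : ℂ)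

lemma two_pi_I_ne_zero' : (2 * (π : ℂ) * I) ≠ 0 := Complex.two_pi_I_ne_zero

lemma hasDerivAt_of_mdiff {F : ℍ → ℂ} (hF : MDiff F) (z : ℍ) :
    HasDerivAt (F ∘ ofComplex) (2 * π * I * 𝔻 F z) (z : ℂ) := by
  have h := (UpperHalfPlane.mdifferentiableAt_iff.mp (hF z)).hasDerivAt
  have e : 2 * π * I * 𝔻 F z = deriv (F ∘ ofComplex) (z : ℂ) := by
    simp only [Derivative.normalizedDerivOfComplex]
    field_simp
  rw [e]
  exact h

lemma normalizedDeriv_eq_of_hasDerivAt {F : ℍ → ℂ} {z : ℍ} {d : ℂ}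
    (h : HasDerivAt (F ∘ ofComplex) d (z : ℂ)) : 𝔻 F z = (2 * π * I)⁻¹ * d := by
  simp only [Derivative.normalizedDerivOfComplex, h.deriv]

/-- A holomorphic function on `ℍ` with vanishing derivative is constant. -/
lemma exists_const_of_normalizedDeriv_eq_zero {H : ℍ → ℂ} (hH : MDiff H) (hD : 𝔻 H = 0) :
    ∃ a : ℂ, ∀ z : ℍ, H z = a := by
  have hdiff : DifferentiableOn ℂ (H ∘ ofComplex) upperHalfPlaneSet :=
    UpperHalfPlane.mdifferentiable_iff.mp hH
  have hderiv : upperHalfPlaneSet.EqOn (deriv (H ∘ ofComplex)) 0 := by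
    intro z hz
    have := congrFun hD ⟨z, hz⟩
    simp only [Derivative.normalizedDerivOfComplex, Pi.zero_apply] at this
    rcases mul_eq_zero.mp this with h | h
    · exact absurd (inv_eq_zero.mp h) two_pi_I_ne_zero'
    · simpa using h
  obtain ⟨a, ha⟩ := isOpen_upperHalfPlaneSet.exists_is_const_of_deriv_eq_zero
    (Convex.isPreconnected (convex_halfSpace_im_gt 0)) hdiff hderiv
  refine ⟨a, fun z => ?_⟩
  have := ha (z : ℂ) z.im_pos
  simpa using this

/-- Uniqueness of primitives vanishing at `i∞`. -/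
lemma eq_of_normalizedDeriv_eq {F G : ℍ → ℂ} (hF : MDiff F) (hG : MDiff G)
    (hFG : 𝔻 F = 𝔻 G) (hF0 : IsZeroAtImInfty F) (hG0 : IsZeroAtImInfty G) : F = G := by
  have hD : 𝔻 (F - G) = 0 := by
    rw [Derivative.normalizedDerivOfComplex_sub F G hF hG, hFG, sub_self]
  obtain ⟨a, ha⟩ := exists_const_of_normalizedDeriv_eq_zero (hF.sub hG) hD
  have h0 : Tendsto (F - G) atImInfty (𝓝 0) := by
    have := Filter.Tendsto.sub hF0 hG0
    simpa [Pi.sub_def] using this
  have ha' : Tendsto (F - G) atImInfty (𝓝 a) := by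
    have : (F - G) = fun _ => a := funext ha
    rw [this]
    exact tendsto_const_nhds
  have : a = 0 := tendsto_nhds_unique ha' h0
  ext z
  have hz := ha z
  rw [this] at hz
  simpa [sub_eq_zero] using hz


lemma hasDerivAt_qParam (h : ℝ) (z : ℂ) :
    HasDerivAt (Periodic.qParam h) (Periodic.qParam h z * (2 * π * I / h)) z := by
  unfold Periodic.qParam
  have h1 : HasDerivAt (fun w : ℂ => 2 * π * I * w / h) (2 * π * I / h) z := by
    have := ((hasDerivAt_id z).const_mul (2 * π * I)).div_const (h : ℂ)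
    simpa using this
  exact (Complex.hasDerivAt_exp _).comp z h1

lemma qParam_add_period {h : ℝ} (hh : h ≠ 0) (w : ℂ) :
    Periodic.qParam h (w + h) = Periodic.qParam h w := by
  have hh0 : (h : ℂ) ≠ 0 := by exact_mod_cast hh
  unfold Periodic.qParam
  have : 2 * π * I * (w + h) / h = 2 * π * I * w / h + 2 * π * I := by
    field_simp
  rw [this, Complex.exp_add, Complex.exp_two_pi_mul_I, mul_one]

/-- Existence of a cusp-like primitive. -/
lemma exists_prim {φ : ℍ → ℂ} (hφ : IsCuspLike φ) : ∃ F, IsCuspLike F ∧ 𝔻 F = φ := by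
  obtain ⟨n, hn, hper⟩ := hφ.per
  obtain ⟨h, hh_eq⟩ : ∃ h : ℝ, (n : ℝ) = h := ⟨_, rfl⟩
  rw [hh_eq] at hper
  have hh : 0 < h := by rw [← hh_eq]; exact_mod_cast hn
  have hh0 : (h : ℂ) ≠ 0 := by exact_mod_cast hh.ne'
  set c := cuspFunction h φ with hc_def
  have hc : DifferentiableOn ℂ c (Metric.ball 0 1) :=
    differentiableOn_cuspFunction_ball hh hper hφ.holo hφ.zero.isBoundedAtImInfty
  have hc0 : c 0 = 0 := hφ.zero.cuspFunction_apply_zero hh
  have hc1 : DifferentiableOn ℂ (dslope c 0) (Metric.ball 0 1) :=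
    (Complex.differentiableOn_dslope (Metric.ball_mem_nhds 0 one_pos)).mpr hc
  obtain ⟨C, hC0, hC⟩ := (hc1.isExactOn_ball).with_val_at 0 0
  have hq : ∀ z : ℂ, 0 < z.im → Periodic.qParam h z ∈ Metric.ball (0 : ℂ) 1 := by
    intro z hz
    simpa using Periodic.norm_qParam_lt_one hh hz
  -- the derivative computation
  have hder : ∀ (z : ℂ) (hz : 0 < z.im), HasDerivAt (fun w : ℂ => (h : ℂ) * C (Periodic.qParam h w))
      (2 * π * I * φ ⟨z, hz⟩) z := by
    intro z hz
    have h1 := (hC _ (hq z hz)).comp z (hasDerivAt_qParam h z)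
    have h2 := h1.const_mul (h : ℂ)
    have e : (h : ℂ) * (dslope c 0 (Periodic.qParam h z) * (Periodic.qParam h z * (2 * π * I / h)))
        = 2 * π * I * φ ⟨z, hz⟩ := by
      have e1 : (Periodic.qParam h z) * dslope c 0 (Periodic.qParam h z) = φ ⟨z, hz⟩ := by
        have := sub_smul_dslope c 0 (Periodic.qParam h z)
        simp only [sub_zero, smul_eq_mul, hc0] at this
        rw [this, hc_def]
        exact eq_cuspFunction (⟨z, hz⟩ : ℍ) hh.ne' hper
      rw [← e1]
      field_simp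
    rw [e] at h2
    exact h2
  set F : ℍ → ℂ := fun τ => (h : ℂ) * C (Periodic.qParam h τ) with hF_def
  have hFcomp : ∀ z : ℂ, 0 < z.im →
      (F ∘ ofComplex) =ᶠ[𝓝 z] fun w : ℂ => (h : ℂ) * C (Periodic.qParam h w) := by
    intro z hz
    filter_upwards [isOpen_upperHalfPlaneSet.mem_nhds hz] with w hw
    simp [hF_def, Function.comp_apply, ofComplex_apply_of_im_pos hw]
  have hFder : ∀ τ : ℍ, HasDerivAt (F ∘ ofComplex) (2 * π * I * φ τ) (τ : ℂ) := by
    intro τ
    exact (hder τ τ.im_pos).congr_of_eventuallyEq (hFcomp τ τ.im_pos)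
  have hFholo : MDiff F := by
    intro τ
    exact UpperHalfPlane.mdifferentiableAt_iff.mpr (hFder τ).differentiableAt
  refine ⟨F, ⟨hFholo, ?_, ⟨n, hn, ?_⟩⟩, ?_⟩
  · -- zero at i∞
    have hCcont : ContinuousAt C 0 := (hC 0 (by simp)).continuousAt
    have h1 : Tendsto (fun τ : ℍ => C (Periodic.qParam h τ)) atImInfty (𝓝 (C 0)) :=
      hCcont.tendsto.comp (qParam_tendsto_atImInfty hh)
    have h2 := h1.const_mul (h : ℂ)
    rw [hC0, mul_zero] at h2
    exact h2
  · -- periodic
    rw [hh_eq]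
    intro w
    by_cases hw : 0 < w.im
    · have hw' : 0 < (w + h).im := by simpa using hw
      simp only [Function.comp_apply, hF_def, ofComplex_apply_of_im_pos hw,
        ofComplex_apply_of_im_pos hw']
      rw [qParam_add_period hh.ne']
    · have hw1 : w.im ≤ 0 := not_lt.mp hw
      have hw' : (w + h).im ≤ 0 := by simpa using hw1
      simp [Function.comp_apply, ofComplex_apply_of_im_nonpos hw1,
        ofComplex_apply_of_im_nonpos hw']
  · ext τ
    rw [normalizedDeriv_eq_of_hasDerivAt (hFder τ)]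
    field_simp

/-- The primitive operator: the unique cusp-like primitive (or `0` if none exists). -/
def prim (φ : ℍ → ℂ) : ℍ → ℂ :=
  open scoped Classical in
  if h : ∃ F, IsCuspLike F ∧ 𝔻 F = φ then h.choose else 0

lemma prim_isCuspLike {φ : ℍ → ℂ} (hφ : IsCuspLike φ) : IsCuspLike (prim φ) := by
  have h := exists_prim hφ
  unfold prim
  rw [dif_pos h]
  exact h.choose_spec.1

lemma normalizedDeriv_prim {φ : ℍ → ℂ} (hφ : IsCuspLike φ) : 𝔻 (prim φ) = φ := by
  have h := exists_prim hφ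
  unfold prim
  rw [dif_pos h]
  exact h.choose_spec.2

lemma prim_eq_of {φ F : ℍ → ℂ} (hF : MDiff F) (hF0 : IsZeroAtImInfty F) (hFφ : 𝔻 F = φ)
    (hφ : IsCuspLike φ) : prim φ = F :=
  eq_of_normalizedDeriv_eq (prim_isCuspLike hφ).holo hF
    ((normalizedDeriv_prim hφ).trans hFφ.symm) (prim_isCuspLike hφ).zero hF0


/-! ### Closure properties of cusp-like functions -/

lemma IsCuspLike.zero_fun : IsCuspLike (0 : ℍ → ℂ) where
  holo := mdifferentiable_const
  zero := by
    show Tendsto (0 : ℍ → ℂ) atImInfty (𝓝 0)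
    exact tendsto_const_nhds
  per := ⟨1, one_pos, fun _ => rfl⟩

lemma periodic_nat_mul_of_periodic {f : ℂ → ℂ} {n : ℕ} (hper : Periodic f ((n : ℝ) : ℂ))
    (m : ℕ) : Periodic f (((n * m : ℕ) : ℝ) : ℂ) := by
  have e : (((n * m : ℕ) : ℝ) : ℂ) = (m : ℂ) * ((n : ℝ) : ℂ) := by push_cast; ring
  rw [e]
  exact hper.nat_mul m

lemma IsCuspLike.add {φ ψ : ℍ → ℂ} (hφ : IsCuspLike φ) (hψ : IsCuspLike ψ) :
    IsCuspLike (φ + ψ) where
  holo := hφ.holo.add hψ.holo
  zero := by
    have := Filter.Tendsto.add hφ.zero hψ.zero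
    simpa [IsZeroAtImInfty, ZeroAtFilter, Pi.add_def] using this
  per := by
    obtain ⟨n₁, hn₁, hp₁⟩ := hφ.per
    obtain ⟨n₂, hn₂, hp₂⟩ := hψ.per
    refine ⟨n₁ * n₂, Nat.mul_pos hn₁ hn₂, ?_⟩
    have h1 := periodic_nat_mul_of_periodic hp₁ n₂
    have h2 := periodic_nat_mul_of_periodic hp₂ n₁
    rw [Nat.mul_comm n₂ n₁] at h2
    intro w
    have e1 := h1 w
    have e2 := h2 w
    simp only [Function.comp_apply, Pi.add_apply] at e1 e2 ⊢
    rw [e1, e2]

lemma IsCuspLike.smul {φ : ℍ → ℂ} (hφ : IsCuspLike φ) (c : ℂ) : IsCuspLike (c • φ) where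
  holo := hφ.holo.const_smul c
  zero := by
    have := Filter.Tendsto.const_mul c hφ.zero
    simpa [IsZeroAtImInfty, ZeroAtFilter, Pi.smul_def] using this
  per := by
    obtain ⟨n₁, hn₁, hp₁⟩ := hφ.per
    refine ⟨n₁, hn₁, fun w => ?_⟩
    have e1 := hp₁ w
    simp only [Function.comp_apply, Pi.smul_apply] at e1 ⊢
    rw [e1]

lemma IsCuspLike.neg {φ : ℍ → ℂ} (hφ : IsCuspLike φ) : IsCuspLike (-φ) := by
  have := hφ.smul (-1)
  simpa using this

lemma IsCuspLike.sub {φ ψ : ℍ → ℂ} (hφ : IsCuspLike φ) (hψ : IsCuspLike ψ) :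
    IsCuspLike (φ - ψ) := by
  have := hφ.add hψ.neg
  simpa [sub_eq_add_neg] using this

lemma IsCuspLike.sum {ι : Type*} (s : Finset ι) {φ : ι → ℍ → ℂ}
    (hφ : ∀ i ∈ s, IsCuspLike (φ i)) : IsCuspLike (∑ i ∈ s, φ i) := by
  classical
  induction s using Finset.induction_on with
  | empty => simpa using IsCuspLike.zero_fun
  | insert i t hi IH =>
    rw [Finset.sum_insert hi]
    exact (hφ i (Finset.mem_insert_self i t)).add
      (IH fun j hj => hφ j (Finset.mem_insert_of_mem hj))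

/-! ### Linearity of `prim` -/

lemma prim_zero : prim (0 : ℍ → ℂ) = 0 :=
  prim_eq_of mdifferentiable_const IsCuspLike.zero_fun.zero
    (Derivative.normalizedDerivOfComplex_const 0) IsCuspLike.zero_fun

lemma prim_add {φ ψ : ℍ → ℂ} (hφ : IsCuspLike φ) (hψ : IsCuspLike ψ) :
    prim (φ + ψ) = prim φ + prim ψ := by
  have h1 := prim_isCuspLike hφ
  have h2 := prim_isCuspLike hψ
  refine prim_eq_of (h1.add h2).holo (h1.add h2).zero ?_ (hφ.add hψ)
  rw [Derivative.normalizedDerivOfComplex_add _ _ h1.holo h2.holo, normalizedDeriv_prim hφ,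
    normalizedDeriv_prim hψ]

lemma prim_smul {φ : ℍ → ℂ} (hφ : IsCuspLike φ) (c : ℂ) :
    prim (c • φ) = c • prim φ := by
  have h1 := prim_isCuspLike hφ
  refine prim_eq_of (h1.smul c).holo (h1.smul c).zero ?_ (hφ.smul c)
  rw [Derivative.normalizedDerivOfComplex_smul _ _ h1.holo, normalizedDeriv_prim hφ]

lemma prim_neg {φ : ℍ → ℂ} (hφ : IsCuspLike φ) : prim (-φ) = -prim φ := by
  have := prim_smul hφ (-1)
  simpa using this

lemma prim_sub {φ ψ : ℍ → ℂ} (hφ : IsCuspLike φ) (hψ : IsCuspLike ψ) :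
    prim (φ - ψ) = prim φ - prim ψ := by
  rw [sub_eq_add_neg, prim_add hφ hψ.neg, prim_neg hψ, sub_eq_add_neg]

lemma prim_sum {ι : Type*} (s : Finset ι) {φ : ι → ℍ → ℂ}
    (hφ : ∀ i ∈ s, IsCuspLike (φ i)) : prim (∑ i ∈ s, φ i) = ∑ i ∈ s, prim (φ i) := by
  classical
  induction s using Finset.induction_on with
  | empty => simpa using prim_zero
  | insert i t hi IH =>
    rw [Finset.sum_insert hi, Finset.sum_insert hi,
      prim_add (hφ i (Finset.mem_insert_self i t))
        (IsCuspLike.sum t fun j hj => hφ j (Finset.mem_insert_of_mem hj)),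
      IH fun j hj => hφ j (Finset.mem_insert_of_mem hj)]

/-! ### Iterated primitives and derivatives -/

lemma iterate_prim_isCuspLike {φ : ℍ → ℂ} (hφ : IsCuspLike φ) (m : ℕ) :
    IsCuspLike (prim^[m] φ) := by
  induction m with
  | zero => simpa using hφ
  | succ m ih =>
    rw [Function.iterate_succ_apply']
    exact prim_isCuspLike ih

lemma iterate_normalizedDeriv_mdiff {F : ℍ → ℂ} (hF : MDiff F) (m : ℕ) :
    MDiff (𝔻^[m] F) := by
  induction m with
  | zero => simpa using hF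
  | succ m ih =>
    rw [Function.iterate_succ_apply']
    exact Derivative.normalizedDerivOfComplex_mdifferentiable ih

lemma iterate_normalizedDeriv_iterate_prim {φ : ℍ → ℂ} (hφ : IsCuspLike φ) (m : ℕ) :
    𝔻^[m] (prim^[m] φ) = φ := by
  induction m with
  | zero => rfl
  | succ m ih =>
    rw [Function.iterate_succ_apply' prim, Function.iterate_succ_apply 𝔻,
      normalizedDeriv_prim (iterate_prim_isCuspLike hφ m), ih]

lemma iterate_prim_add {φ ψ : ℍ → ℂ} (hφ : IsCuspLike φ) (hψ : IsCuspLike ψ) (m : ℕ) :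
    prim^[m] (φ + ψ) = prim^[m] φ + prim^[m] ψ := by
  induction m with
  | zero => rfl
  | succ m ih =>
    rw [Function.iterate_succ_apply', Function.iterate_succ_apply', Function.iterate_succ_apply',
      ih, prim_add (iterate_prim_isCuspLike hφ m) (iterate_prim_isCuspLike hψ m)]

lemma iterate_prim_smul {φ : ℍ → ℂ} (hφ : IsCuspLike φ) (c : ℂ) (m : ℕ) :
    prim^[m] (c • φ) = c • prim^[m] φ := by
  induction m with
  | zero => rfl
  | succ m ih =>
    rw [Function.iterate_succ_apply', Function.iterate_succ_apply', ih,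
      prim_smul (iterate_prim_isCuspLike hφ m)]

lemma iterate_prim_sum {ι : Type*} (s : Finset ι) {φ : ι → ℍ → ℂ}
    (hφ : ∀ i ∈ s, IsCuspLike (φ i)) (m : ℕ) :
    prim^[m] (∑ i ∈ s, φ i) = ∑ i ∈ s, prim^[m] (φ i) := by
  induction m with
  | zero => rfl
  | succ m ih =>
    simp only [Function.iterate_succ_apply']
    rw [ih, prim_sum s fun i hi => iterate_prim_isCuspLike (hφ i hi) m]

end

end Fermat.Agent.S22
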