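import Mathlib
import Fermat.Agent.S22.Prim

set_option autoImplicit false

open UpperHalfPlane hiding I
open Complex Filter Function Topology
open scoped Manifold MatrixGroups ModularForm Real

namespace Fermat.Agent.S22

noncomputable section

local notation "𝔻" => Derivative.normalizedDerivOfComplex

/-- Real invertible matrices with integer entries and positive determinant. -/
def IsIntPos (g : GL (Fin 2) ℝ) : Prop :=
  0 < g.val.det ∧ ∀ i j, ∃ m : ℤ, g.val i j = m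

lemma IsIntPos.det_pos {g : GL (Fin 2) ℝ} (hg : IsIntPos g) : 0 < g.val.det := hg.1

lemma IsIntPos.det_pos' {g : GL (Fin 2) ℝ} (hg : IsIntPos g) : 0 < (g.det : ℝ) := by
  rw [Matrix.GeneralLinearGroup.val_det_apply]; exact hg.1

lemma IsIntPos.one : IsIntPos (1 : GL (Fin 2) ℝ) := by
  refine ⟨by simp, fun i j => ?_⟩
  by_cases h : i = j
  · exact ⟨1, by simp [h]⟩
  · exact ⟨0, by simp [h]⟩

lemma IsIntPos.mul {g h : GL (Fin 2) ℝ} (hg : IsIntPos g) (hh : IsIntPos h) :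
    IsIntPos (g * h) := by
  refine ⟨?_, fun i j => ?_⟩
  · rw [Units.val_mul, Matrix.det_mul]
    exact mul_pos hg.1 hh.1
  · choose a ha using hg.2
    choose b hb using hh.2
    refine ⟨∑ l, a i l * b l j, ?_⟩
    rw [Units.val_mul, Matrix.mul_apply]
    push_cast
    exact Finset.sum_congr rfl fun l _ => by rw [ha, hb]

lemma IsIntPos.mapGL (γ : SL(2, ℤ)) : IsIntPos (Matrix.SpecialLinearGroup.mapGL ℝ γ) := by
  refine ⟨?_, fun i j => ⟨γ i j, ?_⟩⟩
  · have : ((Matrix.SpecialLinearGroup.mapGL ℝ γ : GL (Fin 2) ℝ) : Matrix (Fin 2) (Fin 2) ℝ).det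
        = 1 := by
      rw [← Matrix.GeneralLinearGroup.val_det_apply]; simp
    rw [this]; exact one_pos
  · simp

lemma σ_eq_of_det_pos {g : GL (Fin 2) ℝ} (hg : 0 < g.val.det) (x : ℂ) : σ g x = x := by
  simp [σ, hg]

lemma eq_of_coe_eq_add_int_mul {φ : ℍ → ℂ} {n : ℕ}
    (hper : Periodic (φ ∘ ofComplex) ((n : ℝ) : ℂ))
    {τ τ' : ℍ} (m : ℤ) (h : (τ' : ℂ) = τ + m * ((n : ℝ) : ℂ)) : φ τ' = φ τ := by
  have := (hper.int_mul m) (τ : ℂ)
  simp only [Function.comp_apply] at this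
  rw [← h, ofComplex_apply, ofComplex_apply] at this
  exact this

/-- Slash by an upper triangular integral matrix preserves cusp-likeness. -/
lemma IsCuspLike.slash_upper {φ : ℍ → ℂ} (hφ : IsCuspLike φ) (κ : ℤ) {u : GL (Fin 2) ℝ}
    (hu : IsIntPos u) (hu0 : u 1 0 = 0) : IsCuspLike (φ ∣[κ] u) where
  holo := hφ.holo.slash κ u
  zero := hφ.zero.slash κ hu0
  per := by
    obtain ⟨n, hn, hper⟩ := hφ.per
    obtain ⟨a, ha⟩ := hu.2 0 0
    obtain ⟨d, hd⟩ := hu.2 1 1
    have hdet : u.val.det = u.val 0 0 * u.val 1 1 := by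
      rw [Matrix.det_fin_two]
      have : u.val 1 0 = 0 := hu0
      rw [this]; ring
    have hd0 : d ≠ 0 := by
      rintro rfl
      have := hu.1
      rw [hdet, hd] at this
      simp at this
    have hdR : (u.val 1 1 : ℝ) ≠ 0 := by rw [hd]; exact_mod_cast hd0
    refine ⟨n * d.natAbs, Nat.mul_pos hn (Int.natAbs_pos.mpr hd0), ?_⟩
    intro w
    by_cases hw : 0 < w.im
    · have hw' : 0 < (w + (((n * d.natAbs : ℕ) : ℝ) : ℂ)).im := by simpa using hw
      simp only [Function.comp_apply, ofComplex_apply_of_im_pos hw,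
        ofComplex_apply_of_im_pos hw', ModularForm.slash_apply, σ_eq_of_det_pos hu.1]
      have hden : ∀ z : ℂ, denom u z = (u.val 1 1 : ℝ) := by
        intro z
        have : u.val 1 0 = 0 := hu0
        simp [denom, this]
      rw [hden, hden]
      congr 2
      refine eq_of_coe_eq_add_int_mul hper (a * d.sign) ?_
      rw [coe_smul_of_det_pos hu.det_pos', coe_smul_of_det_pos hu.det_pos', hden, hden]
      simp only [num]
      have hdC : ((u.val 1 1 : ℝ) : ℂ) ≠ 0 := by exact_mod_cast hdR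
      have hsign : ((d.natAbs : ℤ) : ℂ) = (d.sign : ℂ) * (d : ℂ) := by
        have := Int.sign_mul_self_eq_natAbs d
        exact_mod_cast this.symm
      have hd' : ((u.val 1 1 : ℝ) : ℂ) = (d : ℂ) := by rw [hd]; push_cast; rfl
      have ha' : ((u.val 0 0 : ℝ) : ℂ) = (a : ℂ) := by rw [ha]; push_cast; rfl
      have hnat : (((n * d.natAbs : ℕ) : ℝ) : ℂ) = (n : ℂ) * ((d.natAbs : ℤ) : ℂ) := by
        norm_cast
      rw [hnat, hsign, hd', ha']
      have hdC' : (d : ℂ) ≠ 0 := by exact_mod_cast hd0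
      push_cast
      field_simp
      ring
    · have hw1 : w.im ≤ 0 := not_lt.mp hw
      have hw' : (w + (((n * d.natAbs : ℕ) : ℝ) : ℂ)).im ≤ 0 := by simpa using hw1
      rw [Function.comp_apply, Function.comp_apply, ofComplex_apply_of_im_nonpos hw1,
        ofComplex_apply_of_im_nonpos hw']


lemma smul_slash_of_det_pos {g : GL (Fin 2) ℝ} (hg : 0 < g.val.det) (κ : ℤ) (c : ℂ)
    (f : ℍ → ℂ) : (c • f) ∣[κ] g = c • (f ∣[κ] g) := by
  rw [ModularForm.smul_slash, σ_eq_of_det_pos hg]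

lemma normalizedDeriv_slash_upper {F : ℍ → ℂ} (hF : MDiff F) {u : GL (Fin 2) ℝ}
    (hu : 0 < u.val.det) (hu0 : u 1 0 = 0) (κ : ℤ) :
    𝔻 (F ∣[κ] u) = (u.val.det : ℂ)⁻¹ • (𝔻 F ∣[κ + 2] u) := by
  rw [Derivative.normalizedDerivOfComplex_slash hF hu]
  ext z
  have : (u : Matrix (Fin 2) (Fin 2) ℝ) 1 0 = 0 := hu0
  simp [this]

lemma prim_slash_upper {φ : ℍ → ℂ} (hφ : IsCuspLike φ) {u : GL (Fin 2) ℝ}
    (hu : IsIntPos u) (hu0 : u 1 0 = 0) (κ : ℤ) :
    prim (φ ∣[κ + 2] u) = (u.val.det : ℂ) • ((prim φ) ∣[κ] u) := by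
  have h1 := prim_isCuspLike hφ
  have h2 := (h1.slash_upper κ hu hu0).smul (u.val.det : ℂ)
  refine prim_eq_of h2.holo h2.zero ?_ (hφ.slash_upper (κ + 2) hu hu0)
  rw [Derivative.normalizedDerivOfComplex_smul _ _ (h1.slash_upper κ hu hu0).holo,
    normalizedDeriv_slash_upper h1.holo hu.1 hu0, normalizedDeriv_prim hφ, smul_smul,
    mul_inv_cancel₀ (by exact_mod_cast hu.1.ne'), one_smul]

lemma iterate_prim_slash_upper {φ : ℍ → ℂ} (hφ : IsCuspLike φ) {u : GL (Fin 2) ℝ}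
    (hu : IsIntPos u) (hu0 : u 1 0 = 0) (m : ℕ) (κ : ℤ) :
    prim^[m] (φ ∣[κ + 2 * m] u) = ((u.val.det : ℂ) ^ m) • ((prim^[m] φ) ∣[κ] u) := by
  induction m generalizing κ with
  | zero => simp
  | succ m ih =>
    rw [Function.iterate_succ_apply', Function.iterate_succ_apply']
    have e : κ + 2 * ((m + 1 : ℕ) : ℤ) = (κ + 2) + 2 * (m : ℤ) := by push_cast; ring
    rw [e, ih (κ + 2),
      prim_smul ((iterate_prim_isCuspLike hφ m).slash_upper (κ + 2) hu hu0),
      prim_slash_upper (iterate_prim_isCuspLike hφ m) hu hu0, smul_smul, pow_succ]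

end

end Fermat.Agent.S22
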