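import Mathlib
import Fermat.Agent.S22.Upper
import Fermat.Agent.S22.H20Poly

/-!
# Period polynomials: definitions (helper22, S22)

`n : ℕ` is `k - 2`, the weight is `(n : ℤ) + 2`, `prim` is the primitive operator of `Prim.lean`.
-/

set_option autoImplicit false

open UpperHalfPlane hiding I
open Complex Filter Function Topology Polynomial
open scoped Manifold MatrixGroups ModularForm Real

namespace Fermat.Agent.S22

noncomputable section

/-- `f ∣[n+2] g` is cusp-like for every integral matrix `g` of positive determinant. -/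
def IsCuspAll (n : ℕ) (f : ℍ → ℂ) : Prop :=
  ∀ g : GL (Fin 2) ℝ, IsIntPos g → IsCuspLike (f ∣[(n : ℤ) + 2] g)

/-- The unnormalised weight `-n` action `F ↦ (cz+d)^n F(gz)`, written with Mathlib's slash. -/
def wslash (n : ℕ) (F : ℍ → ℂ) (g : GL (Fin 2) ℝ) : ℍ → ℂ :=
  ((g.val.det : ℂ) ^ (n + 1)) • (F ∣[-(n : ℤ)] g)

/-- The period function of `f` along `g`. -/
def periodFun (n : ℕ) (f : ℍ → ℂ) (g : GL (Fin 2) ℝ) : ℍ → ℂ :=
  wslash n (prim^[n + 1] f) g - prim^[n + 1] (f ∣[(n : ℤ) + 2] g)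

/-- The action of the integer matrix `!![a, b; c, d]` on polynomials of degree `≤ n`:
`P ↦ (cX+d)^n P((aX+b)/(cX+d))`. -/
def polyAct (n : ℕ) (a b c d : ℤ) (P : ℂ[X]) : ℂ[X] :=
  ∑ i ∈ Finset.range (n + 1),
    C (P.coeff i) * (C (a : ℂ) * X + C (b : ℂ)) ^ i * (C (c : ℂ) * X + C (d : ℂ)) ^ (n - i)

/-- The period polynomial of `f` along `g` (or `0` if the period function is not a polynomial of
degree `≤ n`). -/
def periodPoly (n : ℕ) (f : ℍ → ℂ) (g : GL (Fin 2) ℝ) : ℂ[X] :=
  open scoped Classical in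
  if h : ∃ P : ℂ[X], P.natDegree ≤ n ∧ periodFun n f g = h20_polyFun P then h.choose else 0

end

end Fermat.Agent.S22
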