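import Mathlib
import Fermat.Agent.S22.PeriodDefs
import Fermat.Agent.S22.HNF

/-!
# Cusp forms on `Γ₀(N)` are cusp-like along every integral matrix (helper58, S22 WP1)

Main results:
* `cuspForm_slash_SL_isCuspLike` : `f ∣[k] γ` is cusp-like (period `N`) for `γ ∈ SL(2, ℤ)`;
* `IsIntPos.exists_SL_mul_upper` : Hermite factorisation `g = γ * u` for `IsIntPos g`;
* `cuspForm_isCuspLike_slash`, `cuspForm_isCuspAll`.
-/

set_option autoImplicit false

open UpperHalfPlane hiding I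
open Complex Filter Function Topology
open scoped Manifold MatrixGroups ModularForm Real

namespace Fermat.Agent.S22

noncomputable section

/-- Every `SL(2, ℤ)`-translate of a cusp form on `Γ₀(N)` tends to zero at `i∞`. -/
lemma cuspForm_slash_SL_isZeroAtImInfty (N : ℕ) [NeZero N] (k : ℤ)
    (f : CuspForm (CongruenceSubgroup.Gamma0 N) k) (γ : SL(2, ℤ)) :
    IsZeroAtImInfty (⇑f ∣[k] γ) := by
  have hc : IsCusp (Matrix.SpecialLinearGroup.mapGL ℝ γ • OnePoint.infty)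
      (CongruenceSubgroup.Gamma0 N : Subgroup (GL (Fin 2) ℝ)) := by
    rw [Subgroup.IsArithmetic.isCusp_iff_isCusp_SL2Z]
    exact isCusp_SL2Z_iff'.mpr ⟨γ, rfl⟩
  exact f.zero_at_cusps' hc (Matrix.SpecialLinearGroup.mapGL ℝ γ) rfl

lemma conj_T_pow_mem_Gamma0 (N : ℕ) (γ : SL(2, ℤ)) :
    γ * ModularGroup.T ^ (N : ℤ) * γ⁻¹ ∈ CongruenceSubgroup.Gamma0 N := by
  have h1 : ModularGroup.T ^ (N : ℤ) ∈ CongruenceSubgroup.Gamma N := by
    simpa using CongruenceSubgroup.ModularGroup_T_pow_mem_Gamma N N dvd_rfl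
  have h2 := (CongruenceSubgroup.Gamma_normal N).conj_mem _ h1 γ
  rw [CongruenceSubgroup.Gamma_mem] at h2
  rw [CongruenceSubgroup.Gamma0_mem]
  exact h2.2.2.1

lemma coe_GL_apply_entry (γ : SL(2, ℤ)) (i j : Fin 2) :
    (γ : GL (Fin 2) ℝ) i j = ((γ i j : ℤ) : ℝ) := rfl

lemma mapGL_val_apply (γ : SL(2, ℤ)) (i j : Fin 2) :
    (Matrix.SpecialLinearGroup.mapGL ℝ γ : GL (Fin 2) ℝ).val i j = ((γ i j : ℤ) : ℝ) := rfl

lemma denom_T_zpow (n : ℤ) (z : ℍ) : denom (ModularGroup.T ^ n : SL(2, ℤ)) z = 1 := by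
  have h10 : ((ModularGroup.T ^ n : SL(2, ℤ)) : GL (Fin 2) ℝ) 1 0 = 0 := by
    rw [coe_GL_apply_entry, ModularGroup.coe_T_zpow]; simp
  have h11 : ((ModularGroup.T ^ n : SL(2, ℤ)) : GL (Fin 2) ℝ) 1 1 = 1 := by
    rw [coe_GL_apply_entry, ModularGroup.coe_T_zpow]; simp
  rw [denom, h10, h11]
  simp

lemma slash_T_zpow_apply (F : ℍ → ℂ) (k : ℤ) (n : ℤ) (z : ℍ) :
    (F ∣[k] (ModularGroup.T ^ n)) z = F ((n : ℝ) +ᵥ z) := by
  rw [ModularForm.SL_slash_apply, UpperHalfPlane.modular_T_zpow_smul, denom_T_zpow, one_zpow,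
    mul_one]

/-- `f ∣[k] γ` is invariant under `T ^ N`. -/
lemma cuspForm_slash_SL_slash_T (N : ℕ) (k : ℤ)
    (f : CuspForm (CongruenceSubgroup.Gamma0 N) k) (γ : SL(2, ℤ)) :
    (⇑f ∣[k] γ) ∣[k] (ModularGroup.T ^ (N : ℤ)) = ⇑f ∣[k] γ := by
  have hmem := conj_T_pow_mem_Gamma0 N γ
  have hinv : ⇑f ∣[k] (γ * ModularGroup.T ^ (N : ℤ) * γ⁻¹) = ⇑f :=
    SlashInvariantFormClass.slash_action_eq f
      (Matrix.SpecialLinearGroup.mapGL ℝ (γ * ModularGroup.T ^ (N : ℤ) * γ⁻¹))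
      (Subgroup.mem_map_of_mem _ hmem)
  calc (⇑f ∣[k] γ) ∣[k] (ModularGroup.T ^ (N : ℤ))
      = ⇑f ∣[k] (γ * ModularGroup.T ^ (N : ℤ)) := by rw [SlashAction.slash_mul]
    _ = ⇑f ∣[k] ((γ * ModularGroup.T ^ (N : ℤ) * γ⁻¹) * γ) := by
        congr 1; group
    _ = (⇑f ∣[k] (γ * ModularGroup.T ^ (N : ℤ) * γ⁻¹)) ∣[k] γ := by rw [SlashAction.slash_mul]
    _ = ⇑f ∣[k] γ := by rw [hinv]

/-- `f ∣[k] γ` has period `N`. -/
lemma cuspForm_slash_SL_periodic (N : ℕ) (k : ℤ)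
    (f : CuspForm (CongruenceSubgroup.Gamma0 N) k) (γ : SL(2, ℤ)) :
    Periodic ((⇑f ∣[k] γ) ∘ ofComplex) ((N : ℝ) : ℂ) := by
  intro w
  by_cases hw : 0 < w.im
  · have hw' : 0 < (w + ((N : ℝ) : ℂ)).im := by simpa using hw
    simp only [Function.comp_apply, ofComplex_apply_of_im_pos hw, ofComplex_apply_of_im_pos hw']
    have h := congrFun (cuspForm_slash_SL_slash_T N k f γ) ⟨w, hw⟩
    rw [slash_T_zpow_apply] at h
    rw [← h]
    refine congrArg _ (UpperHalfPlane.ext ?_)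
    simp [UpperHalfPlane.coe_vadd, add_comm]
  · have hw1 : w.im ≤ 0 := not_lt.mp hw
    have hw' : (w + ((N : ℝ) : ℂ)).im ≤ 0 := by simpa using hw1
    rw [Function.comp_apply, Function.comp_apply, ofComplex_apply_of_im_nonpos hw1,
      ofComplex_apply_of_im_nonpos hw']

/-- Every `SL(2, ℤ)`-translate of a cusp form on `Γ₀(N)` is cusp-like (with period `N`). -/
lemma cuspForm_slash_SL_isCuspLike (N : ℕ) [NeZero N] (k : ℤ)
    (f : CuspForm (CongruenceSubgroup.Gamma0 N) k) (γ : SL(2, ℤ)) :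
    IsCuspLike (⇑f ∣[k] γ) where
  holo := (CuspFormClass.holo f).slash k _
  zero := cuspForm_slash_SL_isZeroAtImInfty N k f γ
  per := ⟨N, Nat.pos_of_ne_zero (NeZero.ne N), cuspForm_slash_SL_periodic N k f γ⟩

/-- Hermite factorisation for `IsIntPos` matrices: `g = γ * u` with `γ ∈ SL(2, ℤ)` and `u`
integral upper triangular of positive determinant. -/
lemma IsIntPos.exists_SL_mul_upper {g : GL (Fin 2) ℝ} (hg : IsIntPos g) :
    ∃ (γ : SL(2, ℤ)) (u : GL (Fin 2) ℝ), IsIntPos u ∧ u 1 0 = 0 ∧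
      g = Matrix.SpecialLinearGroup.mapGL ℝ γ * u := by
  obtain ⟨hdet, hint⟩ := hg
  choose M hM using hint
  set Mz : Matrix (Fin 2) (Fin 2) ℤ := Matrix.of M with hMz
  have hval : g.val = Mz.map (Int.castRingHom ℝ) := by
    ext i j
    simp [hMz, hM]
  have hdetM : g.val.det = ((Mz.det : ℤ) : ℝ) := by
    rw [hval, ← RingHom.mapMatrix_apply, ← RingHom.map_det]; rfl
  have hMz_pos : 0 < Mz.det := by
    rw [hdetM] at hdet; exact_mod_cast hdet
  obtain ⟨γ, a, b, d, ha, had, hγ⟩ := exists_SL2_mul_upper Mz hMz_pos.ne'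
  have hd : 0 < d := by
    rw [← had] at hMz_pos
    exact (pos_iff_pos_of_mul_pos hMz_pos).mp ha
  have hadR : (0 : ℝ) < (a : ℝ) * (d : ℝ) := by
    have := mul_pos ha hd
    exact_mod_cast this
  have hdetu : (!![(a : ℝ), (b : ℝ); 0, (d : ℝ)] : Matrix (Fin 2) (Fin 2) ℝ).det ≠ 0 := by
    rw [Matrix.det_fin_two_of]
    simpa using hadR.ne'
  refine ⟨γ, Matrix.GeneralLinearGroup.mkOfDetNeZero _ hdetu, ⟨?_, ?_⟩, ?_, ?_⟩
  · show 0 < (!![(a : ℝ), (b : ℝ); 0, (d : ℝ)] : Matrix (Fin 2) (Fin 2) ℝ).det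
    rw [Matrix.det_fin_two_of]
    simpa using hadR
  · intro i j
    show ∃ m : ℤ, (!![(a : ℝ), (b : ℝ); 0, (d : ℝ)] : Matrix (Fin 2) (Fin 2) ℝ) i j = m
    fin_cases i <;> fin_cases j
    · exact ⟨a, by simp⟩
    · exact ⟨b, by simp⟩
    · exact ⟨0, by simp⟩
    · exact ⟨d, by simp⟩
  · show (!![(a : ℝ), (b : ℝ); 0, (d : ℝ)] : Matrix (Fin 2) (Fin 2) ℝ) 1 0 = 0
    simp
  · apply Matrix.GeneralLinearGroup.ext
    intro i j
    have h1 : g.val i j = ((Mz i j : ℤ) : ℝ) := by rw [hval]; rfl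
    have h2 : ∀ i j, (Matrix.GeneralLinearGroup.mkOfDetNeZero _ hdetu : GL (Fin 2) ℝ).val i j
        = (!![(a : ℝ), (b : ℝ); 0, (d : ℝ)] : Matrix (Fin 2) (Fin 2) ℝ) i j := fun _ _ => rfl
    show g.val i j = _
    rw [h1, hγ, Units.val_mul, Matrix.mul_apply, Matrix.mul_apply]
    simp only [Fin.sum_univ_two, mapGL_val_apply, h2]
    push_cast
    fin_cases i <;> fin_cases j <;> simp

/-- **WP1.** A cusp form on `Γ₀(N)`, slashed by an integral matrix of positive determinant,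
is cusp-like. -/
theorem cuspForm_isCuspLike_slash (N : ℕ) [NeZero N] (k : ℤ)
    (f : CuspForm (CongruenceSubgroup.Gamma0 N) k) (g : GL (Fin 2) ℝ) (hg : IsIntPos g) :
    IsCuspLike (⇑f ∣[k] g) := by
  obtain ⟨γ, u, hu, hu0, rfl⟩ := hg.exists_SL_mul_upper
  rw [SlashAction.slash_mul]
  exact (cuspForm_slash_SL_isCuspLike N k f γ).slash_upper k hu hu0

/-- **WP1.** A cusp form on `Γ₀(N)` of weight `n + 2` satisfies `IsCuspAll n`. -/
theorem cuspForm_isCuspAll (N : ℕ) [NeZero N] (n : ℕ)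
    (f : CuspForm (CongruenceSubgroup.Gamma0 N) ((n : ℤ) + 2)) : IsCuspAll n ⇑f :=
  fun g hg => cuspForm_isCuspLike_slash N ((n : ℤ) + 2) f g hg

end

end Fermat.Agent.S22
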