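import Mathlib

/-!
# Bol's identity (helper20, for S22)

For `F : ℍ → ℂ` holomorphic, `n : ℕ`, and `g ∈ GL₂(ℝ)` with positive determinant:
`D^[n+1] (F ∣[-n] g) = ((det g)⁻¹) ^ (n+1) • (D^[n+1] F) ∣[n+2] g`
where `D = (2πi)⁻¹ d/dz` is Mathlib's `Derivative.normalizedDerivOfComplex`.
-/

open UpperHalfPlane hiding I
open Real Complex
open scoped Manifold MatrixGroups ModularForm Topology
open Derivative

namespace Fermat.Agent.S22

noncomputable section

/-- iterating `D` preserves holomorphy -/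
theorem h20_mdiff_iterate_D {F : ℍ → ℂ} (hF : MDiff F) (m : ℕ) : MDiff (D^[m] F) := by
  induction m with
  | zero => simpa using hF
  | succ m ih =>
    rw [Function.iterate_succ_apply']
    exact normalizedDerivOfComplex_mdifferentiable ih

theorem h20_iterate_D_smul (c : ℂ) {F : ℍ → ℂ} (hF : MDiff F) (m : ℕ) :
    D^[m] (c • F) = c • D^[m] F := by
  induction m with
  | zero => rfl
  | succ m ih =>
    rw [Function.iterate_succ_apply', Function.iterate_succ_apply', ih,
      normalizedDerivOfComplex_smul _ _ (h20_mdiff_iterate_D hF m)]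

theorem h20_iterate_D_add {F G : ℍ → ℂ} (hF : MDiff F) (hG : MDiff G) (m : ℕ) :
    D^[m] (F + G) = D^[m] F + D^[m] G := by
  induction m with
  | zero => rfl
  | succ m ih =>
    rw [Function.iterate_succ_apply', Function.iterate_succ_apply', Function.iterate_succ_apply',
      ih, normalizedDerivOfComplex_add _ _ (h20_mdiff_iterate_D hF m) (h20_mdiff_iterate_D hG m)]

theorem h20_iterate_D_sub {F G : ℍ → ℂ} (hF : MDiff F) (hG : MDiff G) (m : ℕ) :
    D^[m] (F - G) = D^[m] F - D^[m] G := by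
  induction m with
  | zero => rfl
  | succ m ih =>
    rw [Function.iterate_succ_apply', Function.iterate_succ_apply', Function.iterate_succ_apply',
      ih, normalizedDerivOfComplex_sub _ _ (h20_mdiff_iterate_D hF m) (h20_mdiff_iterate_D hG m)]

/-- the function `z ↦ denom g z` on `ℍ` -/
def h20_jfun (g : GL (Fin 2) ℝ) : ℍ → ℂ := fun z => denom g z

theorem h20_mdiff_jfun (g : GL (Fin 2) ℝ) : MDiff (h20_jfun g) :=
  mdifferentiable_denom g

theorem h20_D_jfun (g : GL (Fin 2) ℝ) :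
    D (h20_jfun g) = fun _ => (2 * π * I)⁻¹ * (g 1 0 : ℂ) := by
  ext z
  have h : HasDerivAt (fun w : ℂ => ((g 1 0 : ℝ) : ℂ) * w + ((g 1 1 : ℝ) : ℂ)) ((g 1 0 : ℝ) : ℂ)
      (z : ℂ) := by
    simpa using ((hasDerivAt_id (z : ℂ)).const_mul ((g 1 0 : ℝ) : ℂ)).add_const ((g 1 1 : ℝ) : ℂ)
  have hev : (h20_jfun g ∘ ofComplex) =ᶠ[𝓝 (z : ℂ)]
      fun w : ℂ => ((g 1 0 : ℝ) : ℂ) * w + ((g 1 1 : ℝ) : ℂ) := by
    filter_upwards [isOpen_upperHalfPlaneSet.mem_nhds z.im_pos] with w hw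
    simp [h20_jfun, Function.comp_apply, ofComplex_apply_of_im_pos hw, denom]
  simp only [normalizedDerivOfComplex]
  rw [hev.deriv_eq, h.deriv]

/-- Leibniz rule for multiplication by the linear function `denom g`. -/
theorem h20_iterate_D_jfun_mul (g : GL (Fin 2) ℝ) {H : ℍ → ℂ} (hH : MDiff H) (m : ℕ) :
    D^[m + 1] (h20_jfun g * H) =
      h20_jfun g * D^[m + 1] H + (((m : ℂ) + 1) * ((2 * π * I)⁻¹ * (g 1 0 : ℂ))) • D^[m] H := by
  induction m with
  | zero =>
    simp only [Function.iterate_succ, Function.iterate_zero, Function.comp_apply, id_eq]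
    rw [normalizedDerivOfComplex_mul _ _ (h20_mdiff_jfun g) hH, h20_D_jfun]
    ext z
    simp [Pi.add_apply, Pi.mul_apply, Pi.smul_apply]
    ring
  | succ m ih =>
    rw [Function.iterate_succ_apply' (f := D) (n := m + 1), ih]
    have h1 : MDiff (h20_jfun g * D^[m + 1] H) :=
      (h20_mdiff_jfun g).mul (h20_mdiff_iterate_D hH (m + 1))
    have h2 : MDiff ((((m : ℂ) + 1) * ((2 * π * I)⁻¹ * (g 1 0 : ℂ))) • D^[m] H) :=
      (h20_mdiff_iterate_D hH m).const_smul _
    rw [normalizedDerivOfComplex_add _ _ h1 h2,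
      normalizedDerivOfComplex_mul _ _ (h20_mdiff_jfun g) (h20_mdiff_iterate_D hH (m + 1)),
      normalizedDerivOfComplex_smul _ _ (h20_mdiff_iterate_D hH m), h20_D_jfun,
      ← Function.iterate_succ_apply' (f := D) (n := m + 1),
      ← Function.iterate_succ_apply' (f := D) (n := m)]
    ext z
    simp only [Pi.add_apply, Pi.mul_apply, Pi.smul_apply, smul_eq_mul]
    push_cast
    ring

end

end Fermat.Agent.S22

namespace Fermat.Agent.S22

noncomputable section

theorem h20_slash_apply_of_det_pos (k : ℤ) (F : ℍ → ℂ) {g : GL (Fin 2) ℝ} (hg : 0 < g.val.det)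
    (z : ℍ) :
    (F ∣[k] g) z = F (g • z) * ((g.val.det : ℝ) : ℂ) ^ (k - 1) * denom g z ^ (-k) := by
  have hdet : g.det.val = g.val.det := Matrix.GeneralLinearGroup.val_det_apply g
  have hσ (x) : σ g x = x := by grind [σ, ContinuousAlgEquiv.refl_apply]
  rw [ModularForm.slash_apply, hσ, hdet, abs_of_pos hg]

theorem h20_mdiff_slash (k : ℤ) {F : ℍ → ℂ} (hF : MDiff F) {g : GL (Fin 2) ℝ}
    (hg : 0 < g.val.det) : MDiff (F ∣[k] g) := by
  have h := normalizedDerivOfComplex_mdifferentiable (F := F) hF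
  have hdet : g.det.val = g.val.det := Matrix.GeneralLinearGroup.val_det_apply g
  have : (F ∣[k] g) = fun z : ℍ => F (g • z) * ((g.val.det : ℝ) : ℂ) ^ (k - 1) * denom g z ^ (-k) := by
    ext z; exact h20_slash_apply_of_det_pos k F hg z
  rw [this]
  refine .mul (.mul ?_ mdifferentiable_const) (mdifferentiable_denom_zpow g _)
  exact hF.comp (mdifferentiable_smul (by rwa [hdet]))

/-- **Bol's identity**. -/
theorem h20_bol (n : ℕ) {F : ℍ → ℂ} (hF : MDiff F) {g : GL (Fin 2) ℝ} (hg : 0 < g.val.det) :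
    D^[n + 1] (F ∣[-(n : ℤ)] g) =
      (((g.val.det : ℝ) : ℂ)⁻¹ ^ (n + 1)) • ((D^[n + 1] F) ∣[(n : ℤ) + 2] g) := by
  have hdetℂ : ((g.val.det : ℝ) : ℂ) ≠ 0 := Complex.ofReal_ne_zero.mpr hg.ne'
  induction n generalizing F with
  | zero =>
    simp only [Function.iterate_succ, Function.iterate_zero, Function.comp_apply, id_eq,
      Nat.cast_zero, neg_zero, zero_add, pow_one]
    rw [normalizedDerivOfComplex_slash hF hg]
    ext z
    simp
  | succ n ih =>
    -- H = F ∣[-n] g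
    set H : ℍ → ℂ := F ∣[-(n : ℤ)] g with hH
    have hHm : MDiff H := h20_mdiff_slash _ hF hg
    have e1 : F ∣[-((n + 1 : ℕ) : ℤ)] g = (((g.val.det : ℝ) : ℂ)⁻¹) • (h20_jfun g * H) := by
      ext z
      have hz := denom_ne_zero g z
      simp only [Pi.smul_apply, Pi.mul_apply, smul_eq_mul, h20_jfun, hH,
        h20_slash_apply_of_det_pos _ _ hg]
      have : (-(((n + 1 : ℕ) : ℤ)) - 1 : ℤ) = (-(n : ℤ) - 1) - 1 := by push_cast; ring
      rw [this, zpow_sub_one₀ hdetℂ]
      have : (- -(((n + 1 : ℕ) : ℤ)) : ℤ) = (- -(n : ℤ)) + 1 := by push_cast; ring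
      rw [this, zpow_add_one₀ hz]
      ring
    rw [e1, h20_iterate_D_smul _ ((h20_mdiff_jfun g).mul hHm), h20_iterate_D_jfun_mul g hHm (n + 1)]
    have ih' := ih hF
    rw [← hH] at ih'
    have hK : MDiff ((D^[n + 1] F) ∣[(n : ℤ) + 2] g) :=
      h20_mdiff_slash _ (h20_mdiff_iterate_D hF _) hg
    rw [Function.iterate_succ_apply' (f := D) (n := n + 1) (x := H), ih',
      normalizedDerivOfComplex_smul _ _ hK,
      normalizedDerivOfComplex_slash (h20_mdiff_iterate_D hF _) hg,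
      ← Function.iterate_succ_apply' (f := D) (n := n + 1) (x := F)]
    ext z
    have hz := denom_ne_zero g z
    simp only [Pi.smul_apply, Pi.mul_apply, Pi.add_apply, smul_eq_mul, h20_jfun,
      h20_slash_apply_of_det_pos _ _ hg]
    have w1 : ((n : ℤ) + 2 + 2 - 1 : ℤ) = ((n : ℤ) + 2 - 1) + 1 + 1 := by ring
    have w2 : (-((n : ℤ) + 2 + 2) : ℤ) = (-((n : ℤ) + 2)) - 1 - 1 := by ring
    have w3 : ((((n + 1 : ℕ) : ℤ)) + 2 - 1 : ℤ) = ((n : ℤ) + 2 - 1) + 1 := by push_cast; ring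
    have w4 : (-((((n + 1 : ℕ) : ℤ)) + 2) : ℤ) = (-((n : ℤ) + 2)) - 1 := by push_cast; ring
    rw [w1, w2, w3, w4, zpow_add_one₀ hdetℂ, zpow_add_one₀ hdetℂ, zpow_sub_one₀ hz,
      zpow_sub_one₀ hz]
    push_cast
    simp only [inv_pow]
    field_simp
    ring

end

end Fermat.Agent.S22
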