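import Mathlib
import Fermat.Agent.S22.PeriodDefs
import Fermat.Agent.S22.H20Bol

/-!
# Period polynomials: basic properties (helper22, S22)
-/

set_option autoImplicit false

open UpperHalfPlane hiding I
open Complex Filter Function Topology Polynomial
open scoped Manifold MatrixGroups ModularForm Real

namespace Fermat.Agent.S22

noncomputable section

local notation "𝔻" => Derivative.normalizedDerivOfComplex

variable {n : ℕ}

/-! ### The unnormalised action `wslash` -/

lemma wslash_add (n : ℕ) (F G : ℍ → ℂ) (g : GL (Fin 2) ℝ) :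
    wslash n (F + G) g = wslash n F g + wslash n G g := by
  simp only [wslash, SlashAction.add_slash, smul_add]

lemma wslash_zero (n : ℕ) (g : GL (Fin 2) ℝ) : wslash n 0 g = 0 := by
  simp only [wslash, SlashAction.zero_slash, smul_zero]

lemma wslash_smul (n : ℕ) (c : ℂ) (F : ℍ → ℂ) {g : GL (Fin 2) ℝ} (hg : 0 < g.val.det) :
    wslash n (c • F) g = c • wslash n F g := by
  simp only [wslash, smul_slash_of_det_pos hg, smul_comm c]

lemma wslash_sub (n : ℕ) (F G : ℍ → ℂ) {g : GL (Fin 2) ℝ} (hg : 0 < g.val.det) :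
    wslash n (F - G) g = wslash n F g - wslash n G g := by
  have : F - G = F + (-1 : ℂ) • G := by ext z; simp [sub_eq_add_neg]
  rw [this, wslash_add, wslash_smul n _ _ hg]
  ext z; simp [sub_eq_add_neg]

lemma wslash_one (n : ℕ) (F : ℍ → ℂ) : wslash n F 1 = F := by
  simp [wslash]

lemma wslash_mul (n : ℕ) (F : ℍ → ℂ) {g h : GL (Fin 2) ℝ} (hh : 0 < h.val.det) :
    wslash n F (g * h) = wslash n (wslash n F g) h := by
  simp only [wslash, SlashAction.slash_mul, smul_slash_of_det_pos hh, Units.val_mul,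
    Matrix.det_mul, smul_smul]
  congr 1
  push_cast
  ring

lemma wslash_mdiff (n : ℕ) {F : ℍ → ℂ} (hF : MDiff F) (g : GL (Fin 2) ℝ) :
    MDiff (wslash n F g) :=
  (hF.slash _ g).const_smul _

/-- Bol's identity for `wslash`. -/
lemma iterate_normalizedDeriv_wslash (n : ℕ) {F : ℍ → ℂ} (hF : MDiff F) {g : GL (Fin 2) ℝ}
    (hg : 0 < g.val.det) :
    𝔻^[n + 1] (wslash n F g) = (𝔻^[n + 1] F) ∣[(n : ℤ) + 2] g := by
  have hd0 : ((g.val.det : ℝ) : ℂ) ≠ 0 := by exact_mod_cast hg.ne'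
  unfold wslash
  rw [h20_iterate_D_smul _ (hF.slash _ g), h20_bol n hF hg, smul_smul, ← mul_pow,
    mul_inv_cancel₀ hd0, one_pow, one_smul]

/-! ### The period function -/

lemma IsCuspAll.isCuspLike {f : ℍ → ℂ} (hf : IsCuspAll n f) : IsCuspLike f := by
  have := hf 1 IsIntPos.one
  simpa using this

lemma IsCuspAll.slash {f : ℍ → ℂ} (hf : IsCuspAll n f) {g : GL (Fin 2) ℝ} (hg : IsIntPos g) :
    IsCuspAll n (f ∣[(n : ℤ) + 2] g) := by
  intro h hh
  rw [← SlashAction.slash_mul]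
  exact hf _ (hg.mul hh)

lemma IsCuspAll.add {f₁ f₂ : ℍ → ℂ} (h₁ : IsCuspAll n f₁) (h₂ : IsCuspAll n f₂) :
    IsCuspAll n (f₁ + f₂) := by
  intro g hg
  rw [SlashAction.add_slash]
  exact (h₁ g hg).add (h₂ g hg)

lemma IsCuspAll.smul {f : ℍ → ℂ} (hf : IsCuspAll n f) (c : ℂ) : IsCuspAll n (c • f) := by
  intro g hg
  rw [smul_slash_of_det_pos hg.1]
  exact (hf g hg).smul c

lemma IsCuspAll.zero_fun : IsCuspAll n (0 : ℍ → ℂ) := by
  intro g hg
  rw [SlashAction.zero_slash]
  exact IsCuspLike.zero_fun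

lemma IsCuspAll.sum {ι : Type*} (s : Finset ι) {f : ι → ℍ → ℂ}
    (hf : ∀ i ∈ s, IsCuspAll n (f i)) : IsCuspAll n (∑ i ∈ s, f i) := by
  classical
  induction s using Finset.induction_on with
  | empty => simpa using IsCuspAll.zero_fun
  | insert i t hi IH =>
    rw [Finset.sum_insert hi]
    exact (hf i (Finset.mem_insert_self i t)).add
      (IH fun j hj => hf j (Finset.mem_insert_of_mem hj))

lemma periodFun_mdiff {f : ℍ → ℂ} (hf : IsCuspAll n f) {g : GL (Fin 2) ℝ} (hg : IsIntPos g) :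
    MDiff (periodFun n f g) :=
  (wslash_mdiff n (iterate_prim_isCuspLike hf.isCuspLike (n + 1)).holo g).sub
    (iterate_prim_isCuspLike (hf g hg) (n + 1)).holo

lemma iterate_normalizedDeriv_periodFun {f : ℍ → ℂ} (hf : IsCuspAll n f) {g : GL (Fin 2) ℝ}
    (hg : IsIntPos g) : 𝔻^[n + 1] (periodFun n f g) = 0 := by
  unfold periodFun
  rw [h20_iterate_D_sub (wslash_mdiff n (iterate_prim_isCuspLike hf.isCuspLike (n + 1)).holo g)
      (iterate_prim_isCuspLike (hf g hg) (n + 1)).holo,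
    iterate_normalizedDeriv_wslash n (iterate_prim_isCuspLike hf.isCuspLike (n + 1)).holo hg.1,
    iterate_normalizedDeriv_iterate_prim hf.isCuspLike,
    iterate_normalizedDeriv_iterate_prim (hf g hg), sub_self]

lemma exists_periodPoly {f : ℍ → ℂ} (hf : IsCuspAll n f) {g : GL (Fin 2) ℝ} (hg : IsIntPos g) :
    ∃ P : ℂ[X], P.natDegree ≤ n ∧ periodFun n f g = h20_polyFun P :=
  h20_exists_polynomial n (periodFun_mdiff hf hg) (iterate_normalizedDeriv_periodFun hf hg)

theorem periodPoly_spec {f : ℍ → ℂ} (hf : IsCuspAll n f) {g : GL (Fin 2) ℝ} (hg : IsIntPos g) :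
    (periodPoly n f g).natDegree ≤ n ∧ periodFun n f g = h20_polyFun (periodPoly n f g) := by
  have h := exists_periodPoly hf hg
  unfold periodPoly
  rw [dif_pos h]
  exact h.choose_spec

theorem periodPoly_natDegree_le {f : ℍ → ℂ} (hf : IsCuspAll n f) {g : GL (Fin 2) ℝ}
    (hg : IsIntPos g) : (periodPoly n f g).natDegree ≤ n := (periodPoly_spec hf hg).1

theorem polyFun_periodPoly {f : ℍ → ℂ} (hf : IsCuspAll n f) {g : GL (Fin 2) ℝ}
    (hg : IsIntPos g) : h20_polyFun (periodPoly n f g) = periodFun n f g :=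
  (periodPoly_spec hf hg).2.symm

/-- Characterisation: to identify the period polynomial it suffices to match the functions. -/
theorem periodPoly_eq_of {f : ℍ → ℂ} (hf : IsCuspAll n f) {g : GL (Fin 2) ℝ} (hg : IsIntPos g)
    {P : ℂ[X]} (hP : periodFun n f g = h20_polyFun P) : periodPoly n f g = P :=
  h20_polyFun_injective ((polyFun_periodPoly hf hg).trans hP)

/-! ### Linearity in `f` -/

lemma periodFun_add {f₁ f₂ : ℍ → ℂ} (h₁ : IsCuspAll n f₁) (h₂ : IsCuspAll n f₂)
    {g : GL (Fin 2) ℝ} (hg : IsIntPos g) :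
    periodFun n (f₁ + f₂) g = periodFun n f₁ g + periodFun n f₂ g := by
  unfold periodFun
  rw [iterate_prim_add h₁.isCuspLike h₂.isCuspLike, wslash_add, SlashAction.add_slash,
    iterate_prim_add (h₁ g hg) (h₂ g hg)]
  abel

lemma periodFun_smul {f : ℍ → ℂ} (hf : IsCuspAll n f) (c : ℂ)
    {g : GL (Fin 2) ℝ} (hg : IsIntPos g) :
    periodFun n (c • f) g = c • periodFun n f g := by
  unfold periodFun
  rw [iterate_prim_smul hf.isCuspLike, wslash_smul n _ _ hg.1, smul_slash_of_det_pos hg.1,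
    iterate_prim_smul (hf g hg), smul_sub]

theorem periodPoly_add {f₁ f₂ : ℍ → ℂ} (h₁ : IsCuspAll n f₁) (h₂ : IsCuspAll n f₂)
    {g : GL (Fin 2) ℝ} (hg : IsIntPos g) :
    periodPoly n (f₁ + f₂) g = periodPoly n f₁ g + periodPoly n f₂ g := by
  refine periodPoly_eq_of (h₁.add h₂) hg ?_
  rw [periodFun_add h₁ h₂ hg, h20_polyFun_add, polyFun_periodPoly h₁ hg,
    polyFun_periodPoly h₂ hg]

theorem periodPoly_smul {f : ℍ → ℂ} (hf : IsCuspAll n f) (c : ℂ)
    {g : GL (Fin 2) ℝ} (hg : IsIntPos g) :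
    periodPoly n (c • f) g = c • periodPoly n f g := by
  refine periodPoly_eq_of (hf.smul c) hg ?_
  rw [periodFun_smul hf c hg, h20_polyFun_smul, polyFun_periodPoly hf hg]

theorem periodPoly_zero {g : GL (Fin 2) ℝ} (hg : IsIntPos g) :
    periodPoly n (0 : ℍ → ℂ) g = 0 := by
  have := periodPoly_smul (n := n) IsCuspAll.zero_fun 0 hg
  simpa using this

theorem periodPoly_sum {ι : Type*} (s : Finset ι) {f : ι → ℍ → ℂ}
    (hf : ∀ i ∈ s, IsCuspAll n (f i)) {g : GL (Fin 2) ℝ} (hg : IsIntPos g) :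
    periodPoly n (∑ i ∈ s, f i) g = ∑ i ∈ s, periodPoly n (f i) g := by
  classical
  induction s using Finset.induction_on with
  | empty => simpa using periodPoly_zero hg
  | insert i t hi IH =>
    rw [Finset.sum_insert hi, Finset.sum_insert hi,
      periodPoly_add (hf i (Finset.mem_insert_self i t))
        (IsCuspAll.sum t fun j hj => hf j (Finset.mem_insert_of_mem hj)) hg,
      IH fun j hj => hf j (Finset.mem_insert_of_mem hj)]

/-! ### Upper triangular matrices have trivial periods -/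

lemma periodFun_upper {f : ℍ → ℂ} (hf : IsCuspAll n f) {u : GL (Fin 2) ℝ} (hu : IsIntPos u)
    (hu0 : u 1 0 = 0) : periodFun n f u = 0 := by
  unfold periodFun wslash
  have e : ((n : ℤ) + 2) = -(n : ℤ) + 2 * ((n + 1 : ℕ) : ℤ) := by push_cast; ring
  rw [e, iterate_prim_slash_upper hf.isCuspLike hu hu0 (n + 1) (-(n : ℤ)), sub_self]

theorem periodPoly_upper {f : ℍ → ℂ} (hf : IsCuspAll n f) {u : GL (Fin 2) ℝ} (hu : IsIntPos u)
    (hu0 : u 1 0 = 0) : periodPoly n f u = 0 := by
  refine periodPoly_eq_of hf hu ?_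
  rw [periodFun_upper hf hu hu0]
  ext z; simp

/-! ### The cocycle relation -/

lemma periodFun_mul {f : ℍ → ℂ} (hf : IsCuspAll n f) {g h : GL (Fin 2) ℝ} (hg : IsIntPos g)
    (hh : IsIntPos h) :
    periodFun n f (g * h) = wslash n (periodFun n f g) h + periodFun n (f ∣[(n : ℤ) + 2] g) h := by
  unfold periodFun
  rw [wslash_sub n _ _ hh.1, wslash_mul n _ hh.1, SlashAction.slash_mul]
  abel

end

end Fermat.Agent.S22
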