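import Mathlib
import Fermat.Prelude.Def_CuspForm_HeckeAlgebra
import Fermat.Prelude.Thm_ModularForm_sturm_bound_Gamma0
import Fermat.Prelude.Thm_CongruenceSubgroup_one_mem_strictPeriods_Gamma0

/-!
# S22, pure algebra steps

* `moduleFinite_adjoin_of_lattice`: if `Λ` is a finitely generated `ℤ`-submodule of the dual of a
  `ℂ`-vector space `V`, stable under precomposition with a set `G` of endomorphisms of `V` and
  separating the points of `V`, then `Algebra.adjoin ℤ G` is a finitely generated `ℤ`-module.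
* `moduleFinite_adjoin_of_subsingleton`: the trivial case `V = 0`.
* `cuspForm_eq_zero_of_weight_le_one`: cusp forms of weight `≤ 1` on `Γ₀(N)` vanish.
* `span_cocycle_fg`: finite generation of the span of the values of a cocycle.
-/

set_option autoImplicit false

namespace Fermat.Agent.S22

open Module

/-- Stability of a `ℤ`-lattice of functionals under precomposition extends from generators to the
adjoined `ℤ`-algebra. -/
theorem comp_mem_of_mem_adjoin {V : Type} [AddCommGroup V] [Module ℂ V]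
    {G : Set (Module.End ℂ V)} (Λ : Submodule ℤ (Module.Dual ℂ V))
    (hstab : ∀ t ∈ G, ∀ ξ ∈ Λ, ξ ∘ₗ t ∈ Λ) {t : Module.End ℂ V}
    (ht : t ∈ Algebra.adjoin ℤ G) {ξ : Module.Dual ℂ V} (hξ : ξ ∈ Λ) : ξ ∘ₗ t ∈ Λ := by
  revert ξ
  refine Algebra.adjoin_induction (p := fun t _ => ∀ {ξ}, ξ ∈ Λ → ξ ∘ₗ t ∈ Λ) ?_ ?_ ?_ ?_ ht
  · intro g hg y hy
    exact hstab g hg y hy
  · intro r y hy
    have : y ∘ₗ (algebraMap ℤ (Module.End ℂ V) r) = r • y := by
      ext v
      simp
    rw [this]
    exact Λ.smul_mem r hy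
  · intro a b _ _ ha hb y hy
    rw [LinearMap.comp_add]
    exact Λ.add_mem (ha hy) (hb hy)
  · intro a b _ _ ha hb y hy
    have : y ∘ₗ (a * b) = (y ∘ₗ a) ∘ₗ b := rfl
    rw [this]
    exact hb (ha hy)

/-- The pure algebra step: a finitely generated, stable, separating `ℤ`-lattice of functionals
forces the adjoined `ℤ`-algebra to be a finite `ℤ`-module. -/
theorem moduleFinite_adjoin_of_lattice {V : Type} [AddCommGroup V] [Module ℂ V]
    (G : Set (Module.End ℂ V)) (Λ : Submodule ℤ (Module.Dual ℂ V)) (hfg : Λ.FG)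
    (hstab : ∀ t ∈ G, ∀ ξ ∈ Λ, ξ ∘ₗ t ∈ Λ)
    (hnd : ∀ f : V, (∀ ξ ∈ Λ, ξ f = 0) → f = 0) :
    Module.Finite ℤ (Algebra.adjoin ℤ G) := by
  classical
  have hfin : Module.Finite ℤ Λ := Module.Finite.iff_fg.mpr hfg
  have hnoeth : IsNoetherian ℤ Λ := isNoetherian_of_isNoetherianRing_of_finite ℤ _
  -- the transpose action
  let Ψ : (Algebra.adjoin ℤ G) →ₗ[ℤ] (Λ →ₗ[ℤ] Λ) :=
    { toFun := fun t =>
        { toFun := fun y => ⟨(y : Module.Dual ℂ V) ∘ₗ (t : Module.End ℂ V),
            comp_mem_of_mem_adjoin Λ hstab t.2 y.2⟩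
          map_add' := by
            intro y z
            apply Subtype.ext
            simp [LinearMap.add_comp]
          map_smul' := by
            intro r y
            apply Subtype.ext
            simp [LinearMap.smul_comp] }
      map_add' := by
        intro s t
        ext y v
        simp [LinearMap.comp_add]
      map_smul' := by
        intro r t
        ext y v
        simp }
  have hΨ : Function.Injective Ψ := by
    rw [injective_iff_map_eq_zero]
    intro t ht
    apply Subtype.ext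
    ext v
    apply hnd
    intro y hy
    have := congrArg (fun φ : Λ →ₗ[ℤ] Λ => ((φ ⟨y, hy⟩ : Λ) : Module.Dual ℂ V) v) ht
    simpa [Ψ] using this
  have hN : IsNoetherian ℤ (Λ →ₗ[ℤ] Λ) := isNoetherian_linearMap ℤ Λ Λ
  have hN' : IsNoetherian ℤ (Algebra.adjoin ℤ G) := isNoetherian_of_injective Ψ hΨ
  infer_instance

/-- The trivial case: over the zero space every algebra of endomorphisms is finite. -/
theorem moduleFinite_adjoin_of_subsingleton {V : Type} [AddCommGroup V] [Module ℂ V]
    [Subsingleton V] (G : Set (Module.End ℂ V)) : Module.Finite ℤ (Algebra.adjoin ℤ G) := by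
  have : Subsingleton (Module.End ℂ V) := ⟨fun a b => LinearMap.ext fun v => Subsingleton.elim _ _⟩
  have : Subsingleton (Algebra.adjoin ℤ G) := ⟨fun a b => Subtype.ext (Subsingleton.elim _ _)⟩
  infer_instance

/-- `-1 ∈ Γ₀(N)` (as a subgroup of `GL(2, ℝ)`). -/
theorem neg_one_mem_Gamma0_GL (N : ℕ) :
    (-1 : GL (Fin 2) ℝ) ∈
      ((CongruenceSubgroup.Gamma0 N : Subgroup (Matrix.SpecialLinearGroup (Fin 2) ℤ)) :
        Subgroup (GL (Fin 2) ℝ)) := by
  refine ⟨-1, ?_, ?_⟩
  · simp [CongruenceSubgroup.Gamma0_mem]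
  · ext i j
    simp

/-- Cusp forms of weight `≤ 1` on `Γ₀(N)` vanish. -/
theorem cuspForm_eq_zero_of_weight_le_one (N : ℕ) [NeZero N] (k : ℤ) (hk : k ≤ 1)
    (f : CuspForm (CongruenceSubgroup.Gamma0 N) k) : f = 0 := by
  apply CuspForm.toModularFormₗ_injective
  rw [_root_.map_zero]
  rcases eq_or_lt_of_le hk with rfl | hk'
  · exact ModularForm.eq_zero_of_neg_one_mem (neg_one_mem_Gamma0_GL N) (by decide) _
  · apply ModularForm.sturm_bound_Gamma0 N
    intro n hn
    have hk0 : k ≤ 0 := by omega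
    have h0 : (k * ((CongruenceSubgroup.Gamma0 N).index : ℤ)).toNat = 0 := by
      apply Int.toNat_eq_zero.mpr
      exact mul_nonpos_of_nonpos_of_nonneg hk0 (by positivity)
    have hn0 : n = 0 := by
      rw [h0] at hn
      simpa using hn
    subst hn0
    exact CuspFormClass.qExpansion_coeff_zero f one_pos
      (CongruenceSubgroup.one_mem_strictPeriods_Gamma0 N)

/-- Finite generation of the span of the values of a "cocycle" `ξ : G → W →+ M` which satisfies
the cocycle relation for left multiplication by elements of a finite index subgroup `Γ` of a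
finitely generated group `G`, where `W` is a finitely generated abelian group. -/
theorem span_cocycle_fg {G : Type} [Group G] [Group.FG G] (Γ : Subgroup G) [Γ.FiniteIndex]
    {W M : Type} [AddCommGroup W] [Module.Finite ℤ W] [AddCommGroup M] [DistribMulAction G W]
    (ξ : G → W →+ M)
    (hξ : ∀ γ ∈ Γ, ∀ h : G, ∀ w : W, ξ (γ * h) w = ξ γ (h • w) + ξ h w) :
    (Submodule.span ℤ {m : M | ∃ g w, m = ξ g w}).FG := by
  classical
  -- `ξ 1 = 0`
  have h1 : ∀ w : W, ξ 1 w = 0 := by
    intro w
    have := hξ 1 Γ.one_mem 1 w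
    rw [one_mul, one_smul] at this
    exact left_eq_add.mp this
  -- `Γ` is finitely generated
  have hΓfg : Group.FG Γ := Subgroup.fg_of_index_ne_zero Γ
  obtain ⟨S, hS⟩ := (Group.fg_iff_subgroup_fg Γ).mp hΓfg
  -- the finitely generated submodule receiving everything
  have hfinq : Finite (G ⧸ Γ) := Subgroup.finite_quotient_of_finiteIndex
  let rep : G ⧸ Γ → G := fun q => (Quotient.out q)⁻¹
  let Y₁ : Submodule ℤ M := ⨆ a ∈ S, LinearMap.range (ξ a).toIntLinearMap
  let Y₂ : Submodule ℤ M := ⨆ q : G ⧸ Γ, LinearMap.range (ξ (rep q)).toIntLinearMap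
  have hrange : ∀ g : G, (LinearMap.range (ξ g).toIntLinearMap).FG := by
    intro g
    rw [LinearMap.range_eq_map]
    exact Submodule.FG.map _ Module.Finite.fg_top
  have hY₁ : Y₁.FG := by
    have : Y₁ = ⨆ a ∈ S, LinearMap.range (ξ a).toIntLinearMap := rfl
    rw [this]
    exact Submodule.fg_biSup S _ fun a _ => hrange a
  have hY₂ : Y₂.FG := by
    have : Y₂ = ⨆ q : G ⧸ Γ, LinearMap.range (ξ (rep q)).toIntLinearMap := rfl
    rw [this]
    exact Submodule.fg_iSup _ fun q => hrange _
  have hY : (Y₁ ⊔ Y₂).FG := hY₁.sup hY₂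
  -- values on `Γ` lie in `Y₁`
  have hmem₁ : ∀ γ ∈ Γ, ∀ w : W, ξ γ w ∈ Y₁ := by
    intro γ hγ
    have hγ' : γ ∈ Subgroup.closure (S : Set G) := by rw [hS]; exact hγ
    have hcl : ∀ x ∈ Subgroup.closure (S : Set G), x ∈ Γ := by
      intro x hx; rw [hS] at hx; exact hx
    induction hγ' using Subgroup.closure_induction with
    | mem a ha =>
      intro w
      exact Submodule.mem_iSup_of_mem a (Submodule.mem_iSup_of_mem ha ⟨w, rfl⟩)
    | one =>
      intro w
      rw [h1 w]
      exact Y₁.zero_mem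
    | mul a b ha hb iha ihb =>
      intro w
      rw [hξ a (hcl a ha) b w]
      exact Y₁.add_mem (iha (hcl a ha) _) (ihb (hcl b hb) _)
    | inv a ha iha =>
      intro w
      have h := hξ a (hcl a ha) a⁻¹ w
      rw [mul_inv_cancel, h1 w] at h
      have : ξ a⁻¹ w = - ξ a (a⁻¹ • w) := by
        rw [eq_neg_iff_add_eq_zero, add_comm]
        exact h.symm
      rw [this]
      exact Y₁.neg_mem (iha (hcl a ha) _)
  -- conclude
  refine hY.of_le ?_
  rw [Submodule.span_le]
  rintro m ⟨g, w, rfl⟩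
  -- write `g = γ * rep q`
  set q : G ⧸ Γ := (QuotientGroup.mk g⁻¹ : G ⧸ Γ) with hq
  have hγ : g * (Quotient.out q) ∈ Γ := by
    have h2 : (QuotientGroup.mk (Quotient.out q) : G ⧸ Γ) = QuotientGroup.mk g⁻¹ := by
      rw [hq]
      exact Quotient.out_eq _
    have h3 := QuotientGroup.eq.mp h2
    have h4 := Γ.inv_mem h3
    simpa [mul_inv_rev] using h4
  have hg : g = (g * Quotient.out q) * rep q := by
    simp [rep]
  rw [hg, hξ _ hγ (rep q) w]
  refine Submodule.add_mem _ (Submodule.mem_sup_left (hmem₁ _ hγ _)) (Submodule.mem_sup_right ?_)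
  exact Submodule.mem_iSup_of_mem q ⟨w, rfl⟩

/-- `SL(2, ℤ)` is finitely generated. -/
instance groupFG_SL2Z : Group.FG (Matrix.SpecialLinearGroup (Fin 2) ℤ) := by
  rw [Group.fg_iff]
  refine ⟨{ModularGroup.S, ModularGroup.T}, ?_, by simp⟩
  exact SpecialLinearGroup.SL2Z_generators

end Fermat.Agent.S22
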