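import Mathlib
import Fermat.Prelude.Def_ModularForm_HeckeOperator

/-!
# Hermite factorisation of integer `2 × 2` matrices of positive determinant

Every integer matrix `m` with `0 < det m` factors as `m = g' * !![a, b; 0, d]` with
`g' ∈ SL(2, ℤ)`, `0 < a`, `0 < d`.  We also give the version for the Hecke matrices of the Prelude
inside `GL (Fin 2) ℝ`.
-/

set_option autoImplicit false

open scoped MatrixGroups

namespace Fermat.Agent.S22

/-- The arithmetic core of the Hermite factorisation. -/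
theorem hermite_core (x y z w : ℤ) (h : 0 < x * w - y * z) :
    ∃ x' z' s t e b d : ℤ, x' * s + z' * t = 1 ∧ 0 < e ∧ 0 < d ∧ x = x' * e ∧ z = z' * e ∧
      y = x' * b - t * d ∧ w = z' * b + s * d ∧ e * d = x * w - y * z := by
  have hxz : x ≠ 0 ∨ z ≠ 0 := by
    by_contra hcon
    rw [not_or, not_not, not_not] at hcon
    rw [hcon.1, hcon.2] at h
    simp at h
  have he_pos : (0 : ℤ) < (Int.gcd x z : ℤ) := by
    have : 0 < Int.gcd x z := Int.gcd_pos_iff.mpr hxz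
    exact_mod_cast this
  obtain ⟨x', hx'⟩ : (Int.gcd x z : ℤ) ∣ x := Int.gcd_dvd_left x z
  obtain ⟨z', hz'⟩ : (Int.gcd x z : ℤ) ∣ z := Int.gcd_dvd_right x z
  have hbez : (Int.gcd x z : ℤ) = x * Int.gcdA x z + z * Int.gcdB x z := Int.gcd_eq_gcd_ab x z
  generalize (Int.gcd x z : ℤ) = e at he_pos hx' hz' hbez
  generalize Int.gcdA x z = s at hbez
  generalize Int.gcdB x z = t at hbez
  have hbez' : x' * s + z' * t = 1 := by
    have h1 : e * (x' * s + z' * t) = e * 1 := by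
      rw [mul_one]
      conv_rhs => rw [hbez, hx', hz']
      ring
    exact mul_left_cancel₀ he_pos.ne' h1
  have hdet : e * (x' * w - z' * y) = x * w - y * z := by
    rw [hx', hz']; ring
  have hd_pos : 0 < x' * w - z' * y := by
    have : 0 < e * (x' * w - z' * y) := by rw [hdet]; exact h
    exact (mul_pos_iff_of_pos_left he_pos).mp this
  refine ⟨x', z', s, t, e, s * y + t * w, x' * w - z' * y, hbez', he_pos, hd_pos, ?_, ?_, ?_, ?_,
    hdet⟩
  · rw [hx']; ring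
  · rw [hz']; ring
  · linear_combination (-y) * hbez'
  · linear_combination (-w) * hbez'

/-- Hermite normal form for `2 × 2` integer matrices with positive determinant. -/
theorem exists_SL2Z_mul_upper (m : Matrix (Fin 2) (Fin 2) ℤ) (hm : 0 < m.det) :
    ∃ (g' : SL(2, ℤ)) (a b d : ℤ), 0 < a ∧ 0 < d ∧ a * d = m.det ∧
      m = (g' : Matrix (Fin 2) (Fin 2) ℤ) * !![a, b; 0, d] := by
  have hdet : m.det = m 0 0 * m 1 1 - m 0 1 * m 1 0 := Matrix.det_fin_two m
  rw [hdet] at hm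
  obtain ⟨x', z', s, t, e, b, d, hbez, he, hd, hx, hz, hy, hw, hed⟩ :=
    hermite_core (m 0 0) (m 0 1) (m 1 0) (m 1 1) hm
  refine ⟨⟨!![x', -t; z', s], ?_⟩, e, b, d, he, hd, ?_, ?_⟩
  · rw [Matrix.det_fin_two_of]
    linear_combination hbez
  · rw [hdet, hed]
  · ext i j
    fin_cases i <;> fin_cases j
    · simp [Matrix.mul_apply, Fin.sum_univ_two, hx]
    · simp [Matrix.mul_apply, Fin.sum_univ_two, hy]; ring
    · simp [Matrix.mul_apply, Fin.sum_univ_two, hz]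
    · simp [Matrix.mul_apply, Fin.sum_univ_two, hw]

/-- An integer matrix of positive determinant, as an element of `GL (Fin 2) ℝ`. -/
noncomputable def intMatGL (m : Matrix (Fin 2) (Fin 2) ℤ) (hm : 0 < m.det) : GL (Fin 2) ℝ :=
  Matrix.GeneralLinearGroup.mkOfDetNeZero (m.map (Int.castRingHom ℝ)) (by
    have : (m.map (Int.castRingHom ℝ)).det = ((m.det : ℤ) : ℝ) := by
      rw [← RingHom.mapMatrix_apply, ← RingHom.map_det]; rfl
    rw [this]
    exact_mod_cast hm.ne')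

@[simp] theorem val_intMatGL (m : Matrix (Fin 2) (Fin 2) ℤ) (hm : 0 < m.det) :
    ((intMatGL m hm : GL (Fin 2) ℝ) : Matrix (Fin 2) (Fin 2) ℝ) = m.map (Int.castRingHom ℝ) := rfl

theorem det_intMatGL (m : Matrix (Fin 2) (Fin 2) ℤ) (hm : 0 < m.det) :
    (intMatGL m hm : GL (Fin 2) ℝ).val.det = ((m.det : ℤ) : ℝ) := by
  rw [val_intMatGL, ← RingHom.mapMatrix_apply, ← RingHom.map_det]; rfl

/-- Hermite factorisation inside `GL (Fin 2) ℝ`: an integer matrix of positive determinant is an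
element of `SL(2, ℤ)` times an upper triangular integer matrix with positive diagonal. -/
theorem intMatGL_eq_SL_mul_upper (m : Matrix (Fin 2) (Fin 2) ℤ) (hm : 0 < m.det) :
    ∃ (g' : SL(2, ℤ)) (a b d : ℤ) (_ : 0 < a) (_ : 0 < d) (had : ((a : ℝ) * (d : ℝ)) ≠ 0),
      a * d = m.det ∧
      intMatGL m hm = (g' : GL (Fin 2) ℝ) * ModularForm.upperTriangularGL a b d had := by
  obtain ⟨g', a, b, d, ha, hd, had, hmg⟩ := exists_SL2Z_mul_upper m hm
  have had' : ((a : ℝ) * (d : ℝ)) ≠ 0 := by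
    have : (0 : ℝ) < (a : ℝ) * (d : ℝ) := by
      have := mul_pos ha hd
      exact_mod_cast this
    exact this.ne'
  refine ⟨g', a, b, d, ha, hd, had', had, ?_⟩
  apply Matrix.GeneralLinearGroup.ext
  intro i j
  have h1 : ((intMatGL m hm : GL (Fin 2) ℝ) : Matrix (Fin 2) (Fin 2) ℝ) i j = ((m i j : ℤ) : ℝ) := by
    simp
  rw [h1, hmg]
  simp only [Units.val_mul, ModularForm.val_upperTriangularGL, Matrix.mul_apply,
    Fin.sum_univ_two]
  fin_cases i <;> fin_cases j <;> simp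

/-- Product of an upper triangular integer matrix of positive determinant with an element of
`SL(2, ℤ)`, refactored as an element of `SL(2, ℤ)` times an upper triangular integer matrix. -/
theorem upper_mul_SL_eq (a₀ b₀ d₀ : ℤ) (h₀ : 0 < a₀ * d₀) (had₀ : ((a₀ : ℝ) * (d₀ : ℝ)) ≠ 0)
    (g : SL(2, ℤ)) :
    ∃ (g' : SL(2, ℤ)) (a b d : ℤ) (_ : 0 < a) (_ : 0 < d) (had : ((a : ℝ) * (d : ℝ)) ≠ 0),
      a * d = a₀ * d₀ ∧
      ModularForm.upperTriangularGL a₀ b₀ d₀ had₀ * (g : GL (Fin 2) ℝ) =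
        (g' : GL (Fin 2) ℝ) * ModularForm.upperTriangularGL a b d had := by
  have hdet : (!![a₀, b₀; 0, d₀] * (g : Matrix (Fin 2) (Fin 2) ℤ)).det = a₀ * d₀ := by
    rw [Matrix.det_mul, Matrix.det_fin_two_of, g.det_coe]
    ring
  have hm : 0 < (!![a₀, b₀; 0, d₀] * (g : Matrix (Fin 2) (Fin 2) ℤ)).det := by
    rw [hdet]; exact h₀
  obtain ⟨g', a, b, d, ha, hd, had, hadm, hmg⟩ := intMatGL_eq_SL_mul_upper _ hm
  refine ⟨g', a, b, d, ha, hd, had, by rw [hadm, hdet], ?_⟩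
  rw [← hmg]
  apply Matrix.GeneralLinearGroup.ext
  intro i j
  simp only [Units.val_mul, ModularForm.val_upperTriangularGL, val_intMatGL, Matrix.map_apply,
    Matrix.mul_apply, Fin.sum_univ_two]
  fin_cases i <;> fin_cases j <;> simp

/-- Refactoring `heckeMatrix p j * g` for `g ∈ SL(2, ℤ)`. -/
theorem heckeMatrix_mul_SL (p j : ℕ) (hp : p ≠ 0) (g : SL(2, ℤ)) :
    ∃ (g' : SL(2, ℤ)) (a b d : ℤ) (_ : 0 < a) (_ : 0 < d) (had : ((a : ℝ) * (d : ℝ)) ≠ 0),
      a * d = p ∧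
      ModularForm.heckeMatrix p j * (g : GL (Fin 2) ℝ) =
        (g' : GL (Fin 2) ℝ) * ModularForm.upperTriangularGL a b d had := by
  have hp' : 0 < ((1 : ℤ) * (p : ℤ)) := by
    rw [one_mul]; exact_mod_cast Nat.pos_of_ne_zero hp
  have had₀ : (((1 : ℤ) : ℝ) * ((p : ℤ) : ℝ)) ≠ 0 := by
    have : (0 : ℝ) < ((1 : ℤ) : ℝ) * ((p : ℤ) : ℝ) := by exact_mod_cast hp'
    exact this.ne'
  obtain ⟨g', a, b, d, ha, hd, had, hadp, h⟩ := upper_mul_SL_eq 1 j p hp' had₀ g
  refine ⟨g', a, b, d, ha, hd, had, by rw [hadp, one_mul], ?_⟩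
  rw [← h]
  congr 1
  apply Matrix.GeneralLinearGroup.ext
  intro i k
  rw [ModularForm.val_heckeMatrix hp, ModularForm.val_upperTriangularGL]
  fin_cases i <;> fin_cases k <;> simp

/-- Refactoring `heckeDiagMatrix p * g` for `g ∈ SL(2, ℤ)`. -/
theorem heckeDiagMatrix_mul_SL (p : ℕ) (hp : p ≠ 0) (g : SL(2, ℤ)) :
    ∃ (g' : SL(2, ℤ)) (a b d : ℤ) (_ : 0 < a) (_ : 0 < d) (had : ((a : ℝ) * (d : ℝ)) ≠ 0),
      a * d = p ∧
      ModularForm.heckeDiagMatrix p * (g : GL (Fin 2) ℝ) =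
        (g' : GL (Fin 2) ℝ) * ModularForm.upperTriangularGL a b d had := by
  have hp' : 0 < ((p : ℤ) * (1 : ℤ)) := by
    rw [mul_one]; exact_mod_cast Nat.pos_of_ne_zero hp
  have had₀ : (((p : ℤ) : ℝ) * ((1 : ℤ) : ℝ)) ≠ 0 := by
    have : (0 : ℝ) < ((p : ℤ) : ℝ) * ((1 : ℤ) : ℝ) := by exact_mod_cast hp'
    exact this.ne'
  obtain ⟨g', a, b, d, ha, hd, had, hadp, h⟩ := upper_mul_SL_eq p 0 1 hp' had₀ g
  refine ⟨g', a, b, d, ha, hd, had, by rw [hadp, mul_one], ?_⟩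
  rw [← h]
  congr 1
  apply Matrix.GeneralLinearGroup.ext
  intro i k
  rw [ModularForm.val_heckeDiagMatrix hp, ModularForm.val_upperTriangularGL]
  fin_cases i <;> fin_cases k <;> simp

end Fermat.Agent.S22
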