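import Mathlib

/-!
# Finite generation of the join of a "cocycle-like" family of submodules

`iSup_fg_of_cocycle`: let `Γ` be a finite index subgroup of a finitely generated group `G` and
let `X : G → Submodule ℤ M` be a family of finitely generated submodules with `X 1 = ⊥`,
`X γ⁻¹ ≤ X γ` and `X (γ * h) ≤ X γ ⊔ X h` for `γ ∈ Γ`.  Then `⨆ g, X g` is finitely generated.
-/

set_option autoImplicit false

namespace Fermat.Agent.S22

/-- On a subgroup `Γ` generated by a finite set `S`, a family `X` of submodules satisfying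
`X 1 = ⊥`, `X γ⁻¹ ≤ X γ` and `X (γ * h) ≤ X γ ⊔ X h` (for `γ ∈ Γ`) is bounded by the join over
the generators. -/
theorem le_biSup_gens_of_cocycle {G : Type} [Group G] (Γ : Subgroup G) (S : Finset G)
    (hS : Subgroup.closure (S : Set G) = Γ) {M : Type} [AddCommGroup M]
    (X : G → Submodule ℤ M) (hone : X 1 = ⊥) (hinv : ∀ γ ∈ Γ, X γ⁻¹ ≤ X γ)
    (hmul : ∀ γ ∈ Γ, ∀ h : G, X (γ * h) ≤ X γ ⊔ X h) :
    ∀ γ ∈ Γ, X γ ≤ ⨆ a ∈ S, X a := by
  intro γ hγ
  have hγ' : γ ∈ Subgroup.closure (S : Set G) := by rw [hS]; exact hγ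
  have hcl : ∀ x ∈ Subgroup.closure (S : Set G), x ∈ Γ := by
    intro x hx; rw [hS] at hx; exact hx
  induction hγ' using Subgroup.closure_induction with
  | mem a ha =>
    exact le_biSup (f := fun a => X a) (Finset.mem_coe.mp ha)
  | one =>
    rw [hone]; exact bot_le
  | mul a b ha hb iha ihb =>
    exact (hmul a (hcl a ha) b).trans (sup_le (iha (hcl a ha)) (ihb (hcl b hb)))
  | inv a ha iha =>
    exact (hinv a (hcl a ha)).trans (iha (hcl a ha))

/-- **Finite generation of the join of a cocycle-like family.**  Pure algebra: no group action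
is needed, only the three inequalities `X 1 = ⊥`, `X γ⁻¹ ≤ X γ`, `X (γ * h) ≤ X γ ⊔ X h`
for `γ` in a finite index subgroup `Γ` of the finitely generated group `G`. -/
theorem iSup_fg_of_cocycle {G : Type} [Group G] [Group.FG G] (Γ : Subgroup G) [Γ.FiniteIndex]
    {M : Type} [AddCommGroup M] (X : G → Submodule ℤ M) (hfg : ∀ g, (X g).FG)
    (hone : X 1 = ⊥) (hinv : ∀ γ ∈ Γ, X γ⁻¹ ≤ X γ)
    (hmul : ∀ γ ∈ Γ, ∀ h : G, X (γ * h) ≤ X γ ⊔ X h) : (⨆ g, X g).FG := by
  classical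
  -- `Γ` is finitely generated
  have hΓfg : Group.FG Γ := Subgroup.fg_of_index_ne_zero Γ
  obtain ⟨S, hS⟩ := (Group.fg_iff_subgroup_fg Γ).mp hΓfg
  -- finitely many right cosets
  have hfinq : Finite (G ⧸ Γ) := Subgroup.finite_quotient_of_finiteIndex
  let rep : G ⧸ Γ → G := fun q => (Quotient.out q)⁻¹
  have hY₁ : (⨆ a ∈ S, X a).FG := Submodule.fg_biSup S _ fun a _ => hfg a
  have hY₂ : (⨆ q : G ⧸ Γ, X (rep q)).FG := Submodule.fg_iSup _ fun q => hfg _
  have hY : ((⨆ a ∈ S, X a) ⊔ (⨆ q : G ⧸ Γ, X (rep q))).FG := hY₁.sup hY₂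
  have hΓle : ∀ γ ∈ Γ, X γ ≤ ⨆ a ∈ S, X a :=
    le_biSup_gens_of_cocycle Γ S hS X hone hinv hmul
  -- the join equals the finite join
  have heq : (⨆ g, X g) = (⨆ a ∈ S, X a) ⊔ (⨆ q : G ⧸ Γ, X (rep q)) := by
    apply le_antisymm
    · refine iSup_le fun g => ?_
      -- write `g = γ * rep q` with `γ ∈ Γ`
      set q : G ⧸ Γ := ((g⁻¹ : G) : G ⧸ Γ) with hq
      have hmem : (Quotient.out q)⁻¹ * g⁻¹ ∈ Γ := by
        have h1 : ((Quotient.out q : G) : G ⧸ Γ) = ((g⁻¹ : G) : G ⧸ Γ) := by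
          rw [hq]; exact Quotient.out_eq' _
        exact QuotientGroup.eq.mp h1
      have hγ : g * Quotient.out q ∈ Γ := by
        have := Γ.inv_mem hmem
        simpa [mul_inv_rev] using this
      have hg : g = (g * Quotient.out q) * rep q := by
        simp [rep]
      calc X g = X ((g * Quotient.out q) * rep q) := by rw [← hg]
        _ ≤ X (g * Quotient.out q) ⊔ X (rep q) := hmul _ hγ _
        _ ≤ (⨆ a ∈ S, X a) ⊔ (⨆ q : G ⧸ Γ, X (rep q)) :=
          sup_le_sup (hΓle _ hγ) (le_iSup (fun q => X (rep q)) q)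
    · refine sup_le ?_ ?_
      · exact iSup₂_le fun a _ => le_iSup X a
      · exact iSup_le fun q => le_iSup X (rep q)
  rw [heq]
  exact hY

end Fermat.Agent.S22
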