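import Mathlib
import Fermat.Agent.S22.PeriodDefs

/-!
# The integral action of integer matrices on polynomials of degree `≤ n` (S22, WP2)
-/

set_option autoImplicit false

open UpperHalfPlane hiding I
open Complex Filter Function Topology Polynomial
open scoped Manifold MatrixGroups ModularForm Real

namespace Fermat.Agent.S22

noncomputable section

theorem polyAct_add (n : ℕ) (a b c d : ℤ) (P Q : ℂ[X]) :
    polyAct n a b c d (P + Q) = polyAct n a b c d P + polyAct n a b c d Q := by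
  simp only [polyAct, Polynomial.coeff_add, Polynomial.C_add, add_mul, Finset.sum_add_distrib]

theorem polyAct_smul (n : ℕ) (a b c d : ℤ) (r : ℂ) (P : ℂ[X]) :
    polyAct n a b c d (r • P) = r • polyAct n a b c d P := by
  simp only [polyAct, Polynomial.coeff_smul, smul_eq_mul, Polynomial.C_mul, Finset.smul_sum]
  refine Finset.sum_congr rfl fun i _ => ?_
  rw [Polynomial.smul_eq_C_mul]
  ring

theorem polyAct_zero (n : ℕ) (a b c d : ℤ) : polyAct n a b c d 0 = 0 := by
  simp [polyAct]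

theorem polyAct_neg (n : ℕ) (a b c d : ℤ) (P : ℂ[X]) :
    polyAct n a b c d (-P) = -polyAct n a b c d P := by
  have := polyAct_smul n a b c d (-1) P
  simpa using this

theorem polyAct_sub (n : ℕ) (a b c d : ℤ) (P Q : ℂ[X]) :
    polyAct n a b c d (P - Q) = polyAct n a b c d P - polyAct n a b c d Q := by
  rw [sub_eq_add_neg, polyAct_add, polyAct_neg, ← sub_eq_add_neg]

theorem polyAct_sum {ι : Type*} (s : Finset ι) (n : ℕ) (a b c d : ℤ) (P : ι → ℂ[X]) :
    polyAct n a b c d (∑ i ∈ s, P i) = ∑ i ∈ s, polyAct n a b c d (P i) := by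
  classical
  induction s using Finset.induction_on with
  | empty => simp [polyAct_zero]
  | insert i s hi ih => rw [Finset.sum_insert hi, Finset.sum_insert hi, polyAct_add, ih]

/-- The basic building block `(aX+b)^i (cX+d)^(n-i)` as an integer polynomial. -/
def polyActBasis (n : ℕ) (a b c d : ℤ) (i : ℕ) : ℤ[X] :=
  (C a * X + C b) ^ i * (C c * X + C d) ^ (n - i)

theorem polyActBasis_map (n : ℕ) (a b c d : ℤ) (i : ℕ) :
    (polyActBasis n a b c d i).map (Int.castRingHom ℂ) =
      (C (a : ℂ) * X + C (b : ℂ)) ^ i * (C (c : ℂ) * X + C (d : ℂ)) ^ (n - i) := by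
  simp [polyActBasis, Polynomial.map_mul, Polynomial.map_pow, Polynomial.map_add]

theorem polyAct_eq_sum_basis (n : ℕ) (a b c d : ℤ) (P : ℂ[X]) :
    polyAct n a b c d P = ∑ i ∈ Finset.range (n + 1),
      C (P.coeff i) * (polyActBasis n a b c d i).map (Int.castRingHom ℂ) := by
  simp only [polyAct, polyActBasis_map, mul_assoc]

theorem natDegree_linear_pow_le (a b : ℂ) (i : ℕ) : ((C a * X + C b) ^ i).natDegree ≤ i := by
  refine (Polynomial.natDegree_pow_le).trans ?_
  have : (C a * X + C b).natDegree ≤ 1 := Polynomial.natDegree_linear_le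
  calc i * (C a * X + C b).natDegree ≤ i * 1 := Nat.mul_le_mul_left i this
    _ = i := mul_one i

theorem polyAct_natDegree_le (n : ℕ) (a b c d : ℤ) (P : ℂ[X]) :
    (polyAct n a b c d P).natDegree ≤ n := by
  unfold polyAct
  refine Polynomial.natDegree_sum_le_of_forall_le _ _ fun i hi => ?_
  have hi' : i ≤ n := Nat.lt_succ_iff.mp (Finset.mem_range.mp hi)
  rw [mul_assoc]
  refine (Polynomial.natDegree_C_mul_le _ _).trans ?_
  refine Polynomial.natDegree_mul_le.trans ?_
  have h1 := natDegree_linear_pow_le (a : ℂ) (b : ℂ) i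
  have h2 := natDegree_linear_pow_le (c : ℂ) (d : ℂ) (n - i)
  omega

theorem polyAct_coeff (n : ℕ) (a b c d : ℤ) :
    ∃ m : ℕ → ℕ → ℤ, ∀ (P : ℂ[X]) (i : ℕ),
      (polyAct n a b c d P).coeff i = ∑ l ∈ Finset.range (n + 1), (m i l : ℂ) * P.coeff l := by
  refine ⟨fun i l => (polyActBasis n a b c d l).coeff i, fun P i => ?_⟩
  rw [polyAct_eq_sum_basis, Polynomial.finsetSum_coeff]
  refine Finset.sum_congr rfl fun l _ => ?_
  rw [Polynomial.coeff_C_mul, Polynomial.coeff_map, mul_comm]
  simp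

theorem wslash_apply (n : ℕ) (F : ℍ → ℂ) {g : GL (Fin 2) ℝ} (hg : 0 < g.val.det) (z : ℍ) :
    wslash n F g z = F (g • z) * denom g z ^ n := by
  have hdet : g.det.val = g.val.det := Matrix.GeneralLinearGroup.val_det_apply g
  have hdetℂ : (g.val.det : ℂ) ≠ 0 := Complex.ofReal_ne_zero.mpr hg.ne'
  simp only [wslash, Pi.smul_apply, smul_eq_mul, ModularForm.slash_apply, hdet, abs_of_pos hg,
    σ_eq_of_det_pos hg]
  rw [show (-(n : ℤ) - 1) = -((n + 1 : ℕ) : ℤ) by push_cast; ring, zpow_neg, zpow_natCast,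
    neg_neg, zpow_natCast]
  field_simp

theorem wslash_polyFun (n : ℕ) {g : GL (Fin 2) ℝ} (hg : 0 < g.val.det) {a b c d : ℤ}
    (hgm : g.val = !![(a : ℝ), (b : ℝ); (c : ℝ), (d : ℝ)]) (P : ℂ[X]) (hP : P.natDegree ≤ n) :
    wslash n (h20_polyFun P) g = h20_polyFun (polyAct n a b c d P) := by
  ext z
  rw [wslash_apply n _ hg]
  have hden : denom g z = (c : ℂ) * z + d := by
    simp [UpperHalfPlane.denom, hgm]
  have hz := denom_ne_zero g z
  have hnum : ((g • z : ℍ) : ℂ) = ((a : ℂ) * z + b) / ((c : ℂ) * z + d) := by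
    have hg' : 0 < (g.det : ℝ) := by rwa [Matrix.GeneralLinearGroup.val_det_apply]
    rw [UpperHalfPlane.coe_smul_of_det_pos hg']
    simp [UpperHalfPlane.num, UpperHalfPlane.denom, hgm]
  rw [hden] at hz ⊢
  simp only [h20_polyFun_apply, polyAct, Polynomial.eval_finsetSum, Polynomial.eval_mul,
    Polynomial.eval_pow, Polynomial.eval_add, Polynomial.eval_C, Polynomial.eval_X]
  rw [hnum, Polynomial.eval_eq_sum_range' (Nat.lt_succ_of_le hP), Finset.sum_mul]
  refine Finset.sum_congr rfl fun i hi => ?_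
  have hi' : i ≤ n := Nat.lt_succ_iff.mp (Finset.mem_range.mp hi)
  have : ((c : ℂ) * z + d) ^ n = ((c : ℂ) * z + d) ^ i * ((c : ℂ) * z + d) ^ (n - i) := by
    rw [← pow_add, Nat.add_sub_cancel' hi']
  rw [this, div_pow]
  have hzi : ((c : ℂ) * z + d) ^ i ≠ 0 := pow_ne_zero _ hz
  generalize ((c : ℂ) * z + d) ^ i = Y at hzi
  generalize ((c : ℂ) * z + d) ^ (n - i) = Y'
  generalize ((a : ℂ) * z + b) ^ i = X'
  field_simp

end

end Fermat.Agent.S22
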