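import Mathlib
import Fermat.Prelude.Def_CuspForm_HeckeAlgebra
import Fermat.Agent.S22.Alg
import Fermat.Agent.S22.Period
import Fermat.Agent.S22.PolyAct
import Fermat.Agent.S22.CocycleFG

/-!
# The period lattice (S22, WP7, helper94)

`periodCoeff γ i : f ↦ coeff_i (periodPoly n f γ)` are `ℂ`-linear functionals on
`S_{n+2}(Γ₀(N))`; their `ℤ`-span `periodLattice` is finitely generated (cocycle relation), and it
separates points as soon as the period functions do.  The main result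
`moduleFinite_heckeAlgebra_of_periods` reduces S22 (in weight `n + 2`) to

* `hcusp`   (WP1): every cusp form is `IsCuspAll`;
* `hnondeg` (WP5): a cusp form all of whose period functions vanish is zero;
* `hHecke`  (WP6): the transposes of the Hecke generators preserve the lattice.
-/

set_option autoImplicit false

open UpperHalfPlane hiding I
open Complex Filter Function Topology Polynomial
open scoped Manifold MatrixGroups ModularForm Real

namespace Fermat.Agent.S22

noncomputable section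

variable {n : ℕ}

/-- The cocycle relation for period polynomials. -/
theorem h94_periodPoly_mul {f : ℍ → ℂ} (hf : IsCuspAll n f) {g h : GL (Fin 2) ℝ}
    (hg : IsIntPos g) (hh : IsIntPos h) {a b c d : ℤ}
    (hhm : h.val = !![(a : ℝ), (b : ℝ); (c : ℝ), (d : ℝ)]) :
    periodPoly n f (g * h) =
      polyAct n a b c d (periodPoly n f g) + periodPoly n (f ∣[(n : ℤ) + 2] g) h := by
  refine periodPoly_eq_of hf (hg.mul hh) ?_
  rw [periodFun_mul hf hg hh, h20_polyFun_add,
    ← wslash_polyFun n hh.1 hhm _ (periodPoly_natDegree_le hf hg), polyFun_periodPoly hf hg,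
    polyFun_periodPoly (hf.slash hg) hh]

/-- The entries of the image of `γ ∈ SL(2, ℤ)` in `GL (Fin 2) ℝ`. -/
theorem h94_val_mapGL (γ : SL(2, ℤ)) :
    ((Matrix.SpecialLinearGroup.mapGL ℝ γ : GL (Fin 2) ℝ) : Matrix (Fin 2) (Fin 2) ℝ) =
      !![((γ 0 0 : ℤ) : ℝ), ((γ 0 1 : ℤ) : ℝ); ((γ 1 0 : ℤ) : ℝ), ((γ 1 1 : ℤ) : ℝ)] := by
  ext i j
  fin_cases i <;> fin_cases j <;> simp

/-- The coefficient functionals of the period polynomials. -/
def periodCoeff (N : ℕ) (n : ℕ)
    (hcusp : ∀ f : CuspForm (CongruenceSubgroup.Gamma0 N) ((n : ℤ) + 2), IsCuspAll n ⇑f)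
    (γ : SL(2, ℤ)) (i : ℕ) :
    Module.Dual ℂ (CuspForm (CongruenceSubgroup.Gamma0 N) ((n : ℤ) + 2)) where
  toFun f := (periodPoly n ⇑f (Matrix.SpecialLinearGroup.mapGL ℝ γ)).coeff i
  map_add' f g := by
    rw [FunLike.coe_add, periodPoly_add (hcusp f) (hcusp g) (IsIntPos.mapGL γ),
      Polynomial.coeff_add]
  map_smul' c f := by
    rw [FunLike.coe_smul, periodPoly_smul (hcusp f) c (IsIntPos.mapGL γ), Polynomial.coeff_smul]
    rfl

@[simp] theorem periodCoeff_apply (N : ℕ) (n : ℕ)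
    (hcusp : ∀ f : CuspForm (CongruenceSubgroup.Gamma0 N) ((n : ℤ) + 2), IsCuspAll n ⇑f)
    (γ : SL(2, ℤ)) (i : ℕ) (f : CuspForm (CongruenceSubgroup.Gamma0 N) ((n : ℤ) + 2)) :
    periodCoeff N n hcusp γ i f =
      (periodPoly n ⇑f (Matrix.SpecialLinearGroup.mapGL ℝ γ)).coeff i := rfl

/-- The `ℤ`-module spanned by the coefficient functionals along a fixed `γ`. -/
def periodLatticeAt (N : ℕ) (n : ℕ)
    (hcusp : ∀ f : CuspForm (CongruenceSubgroup.Gamma0 N) ((n : ℤ) + 2), IsCuspAll n ⇑f)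
    (γ : SL(2, ℤ)) :
    Submodule ℤ (Module.Dual ℂ (CuspForm (CongruenceSubgroup.Gamma0 N) ((n : ℤ) + 2))) :=
  Submodule.span ℤ (Set.range fun i : Fin (n + 1) => periodCoeff N n hcusp γ (i : ℕ))

/-- The period lattice. -/
def periodLattice (N : ℕ) (n : ℕ)
    (hcusp : ∀ f : CuspForm (CongruenceSubgroup.Gamma0 N) ((n : ℤ) + 2), IsCuspAll n ⇑f) :
    Submodule ℤ (Module.Dual ℂ (CuspForm (CongruenceSubgroup.Gamma0 N) ((n : ℤ) + 2))) :=
  ⨆ γ : SL(2, ℤ), periodLatticeAt N n hcusp γ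

section

variable (N : ℕ) (n : ℕ)
  (hcusp : ∀ f : CuspForm (CongruenceSubgroup.Gamma0 N) ((n : ℤ) + 2), IsCuspAll n ⇑f)

theorem periodCoeff_mem_periodLatticeAt (γ : SL(2, ℤ)) {i : ℕ} (hi : i < n + 1) :
    periodCoeff N n hcusp γ i ∈ periodLatticeAt N n hcusp γ :=
  Submodule.subset_span ⟨⟨i, hi⟩, rfl⟩

theorem periodCoeff_eq_zero_of_lt (γ : SL(2, ℤ)) {i : ℕ} (hi : n < i) :
    periodCoeff N n hcusp γ i = 0 := by
  ext f
  rw [periodCoeff_apply, LinearMap.zero_apply]
  exact Polynomial.coeff_eq_zero_of_natDegree_lt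
    (lt_of_le_of_lt (periodPoly_natDegree_le (hcusp f) (IsIntPos.mapGL γ)) hi)

theorem periodCoeff_mem_periodLatticeAt' (γ : SL(2, ℤ)) (i : ℕ) :
    periodCoeff N n hcusp γ i ∈ periodLatticeAt N n hcusp γ := by
  by_cases hi : i < n + 1
  · exact periodCoeff_mem_periodLatticeAt N n hcusp γ hi
  · rw [periodCoeff_eq_zero_of_lt N n hcusp γ (by omega)]
    exact Submodule.zero_mem _

theorem periodCoeff_mem_periodLattice (γ : SL(2, ℤ)) (i : ℕ) :
    periodCoeff N n hcusp γ i ∈ periodLattice N n hcusp :=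
  (le_iSup (fun γ => periodLatticeAt N n hcusp γ) γ) (periodCoeff_mem_periodLatticeAt' N n hcusp γ i)

theorem periodLatticeAt_fg (γ : SL(2, ℤ)) : (periodLatticeAt N n hcusp γ).FG :=
  Submodule.fg_span (Set.finite_range _)

/-- The cocycle relation on the level of coefficient functionals. -/
theorem periodCoeff_mul (γ : SL(2, ℤ)) (hγ : γ ∈ CongruenceSubgroup.Gamma0 N) (h : SL(2, ℤ)) :
    ∃ m : ℕ → ℕ → ℤ, ∀ i : ℕ,
      periodCoeff N n hcusp (γ * h) i =
        ∑ l ∈ Finset.range (n + 1), m i l • periodCoeff N n hcusp γ l +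
          periodCoeff N n hcusp h i := by
  obtain ⟨m, hm⟩ := polyAct_coeff n (h 0 0) (h 0 1) (h 1 0) (h 1 1)
  refine ⟨m, fun i => ?_⟩
  ext f
  have hinv : (⇑f : ℍ → ℂ) ∣[(n : ℤ) + 2] (Matrix.SpecialLinearGroup.mapGL ℝ γ) = ⇑f :=
    SlashInvariantFormClass.slash_action_eq f _ ⟨γ, hγ, rfl⟩
  simp only [periodCoeff_apply, LinearMap.add_apply, LinearMap.sum_apply, LinearMap.smul_apply,
    map_mul]
  rw [h94_periodPoly_mul (hcusp f) (IsIntPos.mapGL γ) (IsIntPos.mapGL h) (h94_val_mapGL h), hinv,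
    Polynomial.coeff_add, hm]
  congr 1
  refine Finset.sum_congr rfl fun l _ => ?_
  simp [zsmul_eq_mul]

theorem periodCoeff_one (i : ℕ) : periodCoeff N n hcusp 1 i = 0 := by
  ext f
  rw [periodCoeff_apply, LinearMap.zero_apply, map_one,
    periodPoly_upper (hcusp f) IsIntPos.one (by simp), Polynomial.coeff_zero]

theorem periodLatticeAt_one : periodLatticeAt N n hcusp 1 = ⊥ := by
  rw [periodLatticeAt, Submodule.span_eq_bot]
  rintro _ ⟨i, rfl⟩
  exact periodCoeff_one N n hcusp _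

theorem periodLatticeAt_mul_le (γ : SL(2, ℤ)) (hγ : γ ∈ CongruenceSubgroup.Gamma0 N)
    (h : SL(2, ℤ)) :
    periodLatticeAt N n hcusp (γ * h) ≤ periodLatticeAt N n hcusp γ ⊔ periodLatticeAt N n hcusp h := by
  obtain ⟨m, hm⟩ := periodCoeff_mul N n hcusp γ hγ h
  rw [periodLatticeAt, Submodule.span_le]
  rintro _ ⟨i, rfl⟩
  show periodCoeff N n hcusp (γ * h) i ∈ _
  rw [hm]
  refine Submodule.add_mem _ (Submodule.mem_sup_left ?_) (Submodule.mem_sup_right ?_)
  · refine Submodule.sum_mem _ fun l hl => Submodule.smul_mem _ _ ?_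
    exact periodCoeff_mem_periodLatticeAt N n hcusp γ (Finset.mem_range.mp hl)
  · exact periodCoeff_mem_periodLatticeAt' N n hcusp h _

theorem periodLatticeAt_inv_le (γ : SL(2, ℤ)) (hγ : γ ∈ CongruenceSubgroup.Gamma0 N) :
    periodLatticeAt N n hcusp γ⁻¹ ≤ periodLatticeAt N n hcusp γ := by
  obtain ⟨m, hm⟩ := periodCoeff_mul N n hcusp γ hγ γ⁻¹
  rw [periodLatticeAt, Submodule.span_le]
  rintro _ ⟨i, rfl⟩
  show periodCoeff N n hcusp γ⁻¹ i ∈ _
  have h1 := hm i
  rw [mul_inv_cancel, periodCoeff_one] at h1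
  have h2 : periodCoeff N n hcusp γ⁻¹ i =
      -∑ l ∈ Finset.range (n + 1), m i l • periodCoeff N n hcusp γ l :=
    eq_neg_of_add_eq_zero_right h1.symm
  rw [h2]
  refine Submodule.neg_mem _ (Submodule.sum_mem _ fun l hl => Submodule.smul_mem _ _ ?_)
  exact periodCoeff_mem_periodLatticeAt N n hcusp γ (Finset.mem_range.mp hl)

/-- The period lattice is finitely generated. -/
theorem periodLattice_fg [NeZero N] : (periodLattice N n hcusp).FG :=
  iSup_fg_of_cocycle (CongruenceSubgroup.Gamma0 N) (fun γ => periodLatticeAt N n hcusp γ)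
    (periodLatticeAt_fg N n hcusp) (periodLatticeAt_one N n hcusp)
    (periodLatticeAt_inv_le N n hcusp) (periodLatticeAt_mul_le N n hcusp)

/-- If all functionals of the period lattice vanish on `f`, all period functions of `f` vanish. -/
theorem periodFun_eq_zero_of_periodLattice
    (f : CuspForm (CongruenceSubgroup.Gamma0 N) ((n : ℤ) + 2))
    (h : ∀ ξ ∈ periodLattice N n hcusp, ξ f = 0) (γ : SL(2, ℤ)) :
    periodFun n ⇑f (Matrix.SpecialLinearGroup.mapGL ℝ γ) = 0 := by
  have h0 : periodPoly n ⇑f (Matrix.SpecialLinearGroup.mapGL ℝ γ) = 0 := by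
    ext i
    rw [Polynomial.coeff_zero]
    exact h _ (periodCoeff_mem_periodLattice N n hcusp γ i)
  rw [← polyFun_periodPoly (hcusp f) (IsIntPos.mapGL γ), h0]
  ext z
  simp

/-- Stability of the period lattice under a linear map, checked on the coefficient
functionals. -/
theorem periodLattice_comp_mem
    (t : Module.End ℂ (CuspForm (CongruenceSubgroup.Gamma0 N) ((n : ℤ) + 2)))
    (ht : ∀ (γ : SL(2, ℤ)) (i : ℕ), periodCoeff N n hcusp γ i ∘ₗ t ∈ periodLattice N n hcusp)
    {ξ : Module.Dual ℂ (CuspForm (CongruenceSubgroup.Gamma0 N) ((n : ℤ) + 2))}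
    (hξ : ξ ∈ periodLattice N n hcusp) : ξ ∘ₗ t ∈ periodLattice N n hcusp := by
  -- the set of `ξ` with `ξ ∘ t ∈ Λ` is a `ℤ`-submodule containing the generators
  let Y : Submodule ℤ (Module.Dual ℂ (CuspForm (CongruenceSubgroup.Gamma0 N) ((n : ℤ) + 2))) :=
    { carrier := {ξ | ξ ∘ₗ t ∈ periodLattice N n hcusp}
      add_mem' := by
        intro a b ha hb
        show (a + b) ∘ₗ t ∈ periodLattice N n hcusp
        rw [LinearMap.add_comp]
        exact Submodule.add_mem _ ha hb
      zero_mem' := by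
        show (0 : Module.Dual ℂ _) ∘ₗ t ∈ periodLattice N n hcusp
        rw [LinearMap.zero_comp]
        exact Submodule.zero_mem _
      smul_mem' := by
        intro r a ha
        show (r • a) ∘ₗ t ∈ periodLattice N n hcusp
        rw [LinearMap.smul_comp]
        exact Submodule.smul_mem _ r ha }
  have hle : periodLattice N n hcusp ≤ Y := by
    refine iSup_le fun γ => ?_
    rw [periodLatticeAt, Submodule.span_le]
    rintro _ ⟨i, rfl⟩
    exact ht γ i
  exact hle hξ

/-- **S22 in weight `n + 2`**, reduced to the three analytic/arithmetic inputs. -/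
theorem moduleFinite_heckeAlgebra_of_periods [NeZero N] (S : Set ℕ)
    (hnondeg : ∀ f : CuspForm (CongruenceSubgroup.Gamma0 N) ((n : ℤ) + 2),
      (∀ γ : SL(2, ℤ), periodFun n ⇑f (Matrix.SpecialLinearGroup.mapGL ℝ γ) = 0) → f = 0)
    (hHecke : ∀ t ∈ CuspForm.heckeGenerators N ((n : ℤ) + 2) S, ∀ (γ : SL(2, ℤ)) (i : ℕ),
      periodCoeff N n hcusp γ i ∘ₗ t ∈ periodLattice N n hcusp) :
    Module.Finite ℤ (CuspForm.heckeAlgebra N ((n : ℤ) + 2) S) := by
  refine moduleFinite_adjoin_of_lattice (CuspForm.heckeGenerators N ((n : ℤ) + 2) S)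
    (periodLattice N n hcusp) (periodLattice_fg N n hcusp) ?_ ?_
  · intro t ht ξ hξ
    exact periodLattice_comp_mem N n hcusp t (hHecke t ht) hξ
  · intro f hf
    exact hnondeg f (periodFun_eq_zero_of_periodLattice N n hcusp f hf)

end

end

end Fermat.Agent.S22
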