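import Mathlib
import Fermat.Prelude.Def_CuspForm_HeckeAlgebra
import Fermat.Agent.S22.Lattice
import Fermat.Agent.S22.Hermite

/-!
# Hecke stability of the period lattice (S22, WP6, helper94)
-/

set_option autoImplicit false

open UpperHalfPlane hiding I
open Complex Filter Function Topology Polynomial
open scoped Manifold MatrixGroups ModularForm Real

namespace Fermat.Agent.S22

noncomputable section

theorem isIntPos_upperTriangularGL (a b d : ℤ) (ha : 0 < a) (hd : 0 < d)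
    (had : ((a : ℝ) * (d : ℝ)) ≠ 0) : IsIntPos (ModularForm.upperTriangularGL a b d had) := by
  refine ⟨?_, fun i j => ?_⟩
  · rw [ModularForm.val_upperTriangularGL, Matrix.det_fin_two_of]
    have : (0 : ℝ) < (a : ℝ) * (d : ℝ) := by
      have := mul_pos ha hd
      exact_mod_cast this
    simpa using this
  · rw [ModularForm.val_upperTriangularGL]
    fin_cases i <;> fin_cases j
    · exact ⟨a, by simp⟩
    · exact ⟨b, by simp⟩
    · exact ⟨0, by simp⟩
    · exact ⟨d, by simp⟩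

theorem upperTriangularGL_one_zero (a b d : ℝ) (had : a * d ≠ 0) :
    (ModularForm.upperTriangularGL a b d had) 1 0 = 0 := by
  show ((ModularForm.upperTriangularGL a b d had : GL (Fin 2) ℝ) :
    Matrix (Fin 2) (Fin 2) ℝ) 1 0 = 0
  rw [ModularForm.val_upperTriangularGL]
  simp

theorem isIntPos_heckeMatrix {p : ℕ} (hp : p ≠ 0) (j : ℕ) :
    IsIntPos (ModularForm.heckeMatrix p j) := by
  refine ⟨?_, fun i k => ?_⟩
  · rw [← Matrix.GeneralLinearGroup.val_det_apply, ModularForm.det_heckeMatrix hp]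
    exact_mod_cast Nat.pos_of_ne_zero hp
  · rw [ModularForm.val_heckeMatrix hp]
    fin_cases i <;> fin_cases k
    · exact ⟨1, by simp⟩
    · exact ⟨j, by simp⟩
    · exact ⟨0, by simp⟩
    · exact ⟨p, by simp⟩

theorem isIntPos_heckeDiagMatrix {p : ℕ} (hp : p ≠ 0) :
    IsIntPos (ModularForm.heckeDiagMatrix p) := by
  refine ⟨?_, fun i k => ?_⟩
  · rw [← Matrix.GeneralLinearGroup.val_det_apply, ModularForm.det_heckeDiagMatrix hp]
    exact_mod_cast Nat.pos_of_ne_zero hp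
  · rw [ModularForm.val_heckeDiagMatrix hp]
    fin_cases i <;> fin_cases k
    · exact ⟨p, by simp⟩
    · exact ⟨0, by simp⟩
    · exact ⟨0, by simp⟩
    · exact ⟨1, by simp⟩

theorem heckeMatrix_one_zero {p : ℕ} (hp : p ≠ 0) (j : ℕ) :
    (ModularForm.heckeMatrix p j) 1 0 = 0 := by
  show ((ModularForm.heckeMatrix p j : GL (Fin 2) ℝ) : Matrix (Fin 2) (Fin 2) ℝ) 1 0 = 0
  rw [ModularForm.val_heckeMatrix hp]
  simp

theorem heckeDiagMatrix_one_zero {p : ℕ} (hp : p ≠ 0) :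
    (ModularForm.heckeDiagMatrix p) 1 0 = 0 := by
  show ((ModularForm.heckeDiagMatrix p : GL (Fin 2) ℝ) : Matrix (Fin 2) (Fin 2) ℝ) 1 0 = 0
  rw [ModularForm.val_heckeDiagMatrix hp]
  simp

variable {n : ℕ}

/-- The period polynomial of `f ∣ δ` along `γ`, for upper triangular `δ` and a factorisation
`δ * γ = γ' * u` with `u` upper triangular. -/
theorem periodPoly_slash_upper_eq {f : ℍ → ℂ} (hf : IsCuspAll n f) {δ : GL (Fin 2) ℝ}
    (hδ : IsIntPos δ) (hδ0 : δ 1 0 = 0) (γ γ' : SL(2, ℤ)) (a b d : ℤ) (ha : 0 < a) (hd : 0 < d)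
    (had : ((a : ℝ) * (d : ℝ)) ≠ 0)
    (hfact : δ * (Matrix.SpecialLinearGroup.mapGL ℝ γ : GL (Fin 2) ℝ) =
      (Matrix.SpecialLinearGroup.mapGL ℝ γ' : GL (Fin 2) ℝ) *
        ModularForm.upperTriangularGL a b d had) :
    periodPoly n (f ∣[(n : ℤ) + 2] δ) (Matrix.SpecialLinearGroup.mapGL ℝ γ) =
      polyAct n a b 0 d (periodPoly n f (Matrix.SpecialLinearGroup.mapGL ℝ γ')) := by
  have hu := isIntPos_upperTriangularGL a b d ha hd had
  have hu0 := upperTriangularGL_one_zero (a : ℝ) (b : ℝ) (d : ℝ) had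
  have h1 := h94_periodPoly_mul hf hδ (IsIntPos.mapGL γ) (h94_val_mapGL γ)
  rw [periodPoly_upper hf hδ hδ0, polyAct_zero, zero_add] at h1
  have hum : ((ModularForm.upperTriangularGL (a : ℝ) (b : ℝ) (d : ℝ) had : GL (Fin 2) ℝ) :
      Matrix (Fin 2) (Fin 2) ℝ) = !![(a : ℝ), (b : ℝ); ((0 : ℤ) : ℝ), (d : ℝ)] := by
    rw [ModularForm.val_upperTriangularGL]
    simp
  have h2 := h94_periodPoly_mul hf (IsIntPos.mapGL γ') hu hum
  rw [periodPoly_upper (hf.slash (IsIntPos.mapGL γ')) hu hu0, add_zero] at h2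
  rw [← h1, hfact, h2]

section

variable (N : ℕ) (n : ℕ)
  (hcusp : ∀ f : CuspForm (CongruenceSubgroup.Gamma0 N) ((n : ℤ) + 2), IsCuspAll n ⇑f)

/-- For upper triangular integral `δ` admitting a Hermite factorisation of `δ * γ`, the functional
`f ↦ coeff_i (periodPoly (f ∣ δ) γ)` belongs to the period lattice. -/
theorem exists_mem_periodLattice_slash {δ : GL (Fin 2) ℝ} (hδ : IsIntPos δ) (hδ0 : δ 1 0 = 0)
    (γ : SL(2, ℤ))
    (hfact : ∃ (γ' : SL(2, ℤ)) (a b d : ℤ) (_ : 0 < a) (_ : 0 < d)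
      (had : ((a : ℝ) * (d : ℝ)) ≠ 0),
      δ * (Matrix.SpecialLinearGroup.mapGL ℝ γ : GL (Fin 2) ℝ) =
        (Matrix.SpecialLinearGroup.mapGL ℝ γ' : GL (Fin 2) ℝ) *
          ModularForm.upperTriangularGL a b d had) (i : ℕ) :
    ∃ ξ ∈ periodLattice N n hcusp, ∀ f : CuspForm (CongruenceSubgroup.Gamma0 N) ((n : ℤ) + 2),
      ξ f = (periodPoly n ((⇑f : ℍ → ℂ) ∣[(n : ℤ) + 2] δ)
        (Matrix.SpecialLinearGroup.mapGL ℝ γ)).coeff i := by
  obtain ⟨γ', a, b, d, ha, hd, had, hfact⟩ := hfact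
  obtain ⟨m, hm⟩ := polyAct_coeff n a b 0 d
  refine ⟨∑ l ∈ Finset.range (n + 1), m i l • periodCoeff N n hcusp γ' l, ?_, fun f => ?_⟩
  · exact Submodule.sum_mem _ fun l _ =>
      Submodule.smul_mem _ _ (periodCoeff_mem_periodLattice N n hcusp γ' l)
  · rw [periodPoly_slash_upper_eq (hcusp f) hδ hδ0 γ γ' a b d ha hd had hfact, hm]
    simp only [LinearMap.sum_apply, LinearMap.smul_apply, periodCoeff_apply, zsmul_eq_mul]

/-- The functional `f ↦ coeff_i (periodPoly (heckeU f) γ)` belongs to the period lattice. -/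
theorem exists_mem_periodLattice_heckeU {p : ℕ} (hp : p ≠ 0) (γ : SL(2, ℤ)) (i : ℕ) :
    ∃ ξ ∈ periodLattice N n hcusp, ∀ f : CuspForm (CongruenceSubgroup.Gamma0 N) ((n : ℤ) + 2),
      ξ f = (periodPoly n (ModularForm.heckeU ((n : ℤ) + 2) p ⇑f)
        (Matrix.SpecialLinearGroup.mapGL ℝ γ)).coeff i := by
  have h : ∀ j : ℕ, ∃ ξ ∈ periodLattice N n hcusp,
      ∀ f : CuspForm (CongruenceSubgroup.Gamma0 N) ((n : ℤ) + 2),
      ξ f = (periodPoly n ((⇑f : ℍ → ℂ) ∣[(n : ℤ) + 2] ModularForm.heckeMatrix p j)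
        (Matrix.SpecialLinearGroup.mapGL ℝ γ)).coeff i := fun j =>
    exists_mem_periodLattice_slash N n hcusp (isIntPos_heckeMatrix hp j)
      (heckeMatrix_one_zero hp j) γ (by
        obtain ⟨g', a, b, d, ha, hd, had, -, h⟩ := heckeMatrix_mul_SL p j hp γ
        exact ⟨g', a, b, d, ha, hd, had, h⟩) i
  choose ξ hξmem hξ using h
  refine ⟨∑ j ∈ Finset.range p, ξ j, Submodule.sum_mem _ fun j _ => hξmem j, fun f => ?_⟩
  rw [ModularForm.heckeU_def,
    periodPoly_sum (Finset.range p)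
      (fun j _ => (hcusp f).slash (isIntPos_heckeMatrix hp j)) (IsIntPos.mapGL γ),
    Polynomial.finsetSum_coeff, LinearMap.sum_apply]
  exact Finset.sum_congr rfl fun j _ => hξ j f

/-- The functional `f ↦ coeff_i (periodPoly (heckeT f) γ)` belongs to the period lattice. -/
theorem exists_mem_periodLattice_heckeT {p : ℕ} (hp : p ≠ 0) (γ : SL(2, ℤ)) (i : ℕ) :
    ∃ ξ ∈ periodLattice N n hcusp, ∀ f : CuspForm (CongruenceSubgroup.Gamma0 N) ((n : ℤ) + 2),
      ξ f = (periodPoly n (ModularForm.heckeT ((n : ℤ) + 2) p ⇑f)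
        (Matrix.SpecialLinearGroup.mapGL ℝ γ)).coeff i := by
  obtain ⟨ξ₁, hξ₁mem, hξ₁⟩ := exists_mem_periodLattice_heckeU N n hcusp hp γ i
  obtain ⟨ξ₂, hξ₂mem, hξ₂⟩ := exists_mem_periodLattice_slash N n hcusp
    (isIntPos_heckeDiagMatrix hp) (heckeDiagMatrix_one_zero hp) γ (by
      obtain ⟨g', a, b, d, ha, hd, had, -, h⟩ := heckeDiagMatrix_mul_SL p hp γ
      exact ⟨g', a, b, d, ha, hd, had, h⟩) i
  refine ⟨ξ₁ + ξ₂, Submodule.add_mem _ hξ₁mem hξ₂mem, fun f => ?_⟩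
  have hU : IsCuspAll n (ModularForm.heckeU ((n : ℤ) + 2) p ⇑f) := by
    rw [ModularForm.heckeU_def]
    exact IsCuspAll.sum (Finset.range p)
      (fun j _ => (hcusp f).slash (isIntPos_heckeMatrix hp j))
  rw [ModularForm.heckeT_eq_heckeU_add,
    periodPoly_add hU ((hcusp f).slash (isIntPos_heckeDiagMatrix hp)) (IsIntPos.mapGL γ),
    Polynomial.coeff_add, LinearMap.add_apply, hξ₁ f, hξ₂ f]

/-- **Hecke stability** of the period lattice (WP6). -/
theorem periodCoeff_comp_heckeGenerator_mem [NeZero N] (S : Set ℕ) :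
    ∀ t ∈ CuspForm.heckeGenerators N ((n : ℤ) + 2) S, ∀ (γ : SL(2, ℤ)) (i : ℕ),
      periodCoeff N n hcusp γ i ∘ₗ t ∈ periodLattice N n hcusp := by
  rintro t (⟨ℓ, hℓ, hℓN, -, rfl⟩ | ⟨q, hqN, hq, -, rfl⟩) γ i
  · obtain ⟨ξ, hξmem, hξ⟩ := exists_mem_periodLattice_heckeT N n hcusp hℓ.ne_zero γ i
    have : periodCoeff N n hcusp γ i ∘ₗ CuspForm.heckeTLin ((n : ℤ) + 2) hℓ hℓN = ξ := by
      ext f
      rw [LinearMap.comp_apply, periodCoeff_apply, CuspForm.coe_heckeTLin_apply, hξ f]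
    rw [this]
    exact hξmem
  · obtain ⟨ξ, hξmem, hξ⟩ := exists_mem_periodLattice_heckeU N n hcusp hq.ne_zero γ i
    have : periodCoeff N n hcusp γ i ∘ₗ CuspForm.heckeULin ((n : ℤ) + 2) hqN = ξ := by
      ext f
      rw [LinearMap.comp_apply, periodCoeff_apply, CuspForm.coe_heckeULin_apply, hξ f]
    rw [this]
    exact hξmem

end

end

end Fermat.Agent.S22
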