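import Mathlib

/-!
# Vanishing of invariant functions of non-positive weight (helper20, for S22)

A holomorphic function on `ℍ`, slash-invariant of weight `-n ≤ 0` under an arithmetic subgroup,
all of whose `SL(2,ℤ)`-translates tend to `0` at `i∞`, vanishes identically.
-/

open UpperHalfPlane hiding I
open Real Complex
open scoped Manifold MatrixGroups ModularForm Topology

namespace Fermat.Agent.S22

noncomputable section

/-- package a bare function as a modular form -/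
def h20_mkModularForm {𝒢 : Subgroup (GL (Fin 2) ℝ)} [𝒢.IsArithmetic] (k : ℤ) (F : ℍ → ℂ)
    (hF : MDiff F) (hinv : ∀ γ ∈ 𝒢, F ∣[k] γ = F)
    (hbdd : ∀ g : SL(2, ℤ), IsBoundedAtImInfty (F ∣[k] g)) : ModularForm 𝒢 k where
  toFun := F
  slash_action_eq' := hinv
  holo' := hF
  bdd_at_cusps' := by
    intro c hc
    rw [Subgroup.IsArithmetic.isCusp_iff_isCusp_SL2Z] at hc
    rw [OnePoint.isBoundedAt_iff_forall_SL2Z hc]
    intro γ _
    exact hbdd γ

@[simp] theorem h20_coe_mkModularForm {𝒢 : Subgroup (GL (Fin 2) ℝ)} [𝒢.IsArithmetic] (k : ℤ)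
    (F : ℍ → ℂ) (hF : MDiff F) (hinv : ∀ γ ∈ 𝒢, F ∣[k] γ = F)
    (hbdd : ∀ g : SL(2, ℤ), IsBoundedAtImInfty (F ∣[k] g)) :
    ⇑(h20_mkModularForm k F hF hinv hbdd) = F := rfl

theorem h20_eq_zero_of_slashInvariant_nonpos_weight {𝒢 : Subgroup (GL (Fin 2) ℝ)}
    [𝒢.IsArithmetic] (n : ℕ) (F : ℍ → ℂ) (hF : MDiff F)
    (hinv : ∀ γ ∈ 𝒢, F ∣[-(n : ℤ)] γ = F)
    (hzero : ∀ g : SL(2, ℤ), IsZeroAtImInfty (F ∣[-(n : ℤ)] g)) : F = 0 := by
  have hbdd : ∀ g : SL(2, ℤ), IsBoundedAtImInfty (F ∣[-(n : ℤ)] g) :=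
    fun g => (hzero g).isBoundedAtImInfty
  set f := h20_mkModularForm (-(n : ℤ)) F hF hinv hbdd with hf
  rcases Nat.eq_zero_or_pos n with rfl | hn
  · -- weight 0: constant, and tends to zero
    have hf0 : ∃ c, (F : ℍ → ℂ) = Function.const ℍ c := by
      have := ModularForm.eq_const_of_weight_zero
        (h20_mkModularForm (𝒢 := 𝒢) 0 F hF (by simpa using hinv) (by simpa using hbdd))
      simpa using this
    obtain ⟨c, hc⟩ := hf0
    have h1 : IsZeroAtImInfty (F ∣[-((0 : ℕ) : ℤ)] (1 : SL(2, ℤ))) := hzero 1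
    rw [SlashAction.slash_one] at h1
    rw [hc] at h1
    have : c = 0 := by
      have h2 : Filter.Tendsto (Function.const ℍ c) atImInfty (𝓝 0) := h1
      have h3 : Filter.Tendsto (Function.const ℍ c) atImInfty (𝓝 c) := tendsto_const_nhds
      exact tendsto_nhds_unique h3 h2
    rw [hc, this]
    rfl
  · have hlt : (-(n : ℤ)) < 0 := by omega
    have h0 := ModularForm.isZero_of_neg_weight hlt f
    have : (f : ℍ → ℂ) = 0 := by rw [h0]; rfl
    simpa [hf] using this

end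

end Fermat.Agent.S22
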