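import Mathlib
import Fermat.Agent.S22.PeriodDefs
import Fermat.Agent.S22.H20Nondeg

/-!
# Nondegeneracy of period functions (helper20, S22 WP5)

If all period functions of a cusp form `f` of weight `n + 2` on `Γ₀(N)` along `SL(2,ℤ)` vanish,
then `f = 0`.
-/

set_option autoImplicit false

open UpperHalfPlane hiding I
open Complex Filter Function Topology Polynomial
open scoped Manifold MatrixGroups ModularForm Real

namespace Fermat.Agent.S22

noncomputable section

local notation "𝔻" => Derivative.normalizedDerivOfComplex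

theorem wslash_mapGL (n : ℕ) (F : ℍ → ℂ) (γ : SL(2, ℤ)) :
    wslash n F (Matrix.SpecialLinearGroup.mapGL ℝ γ) =
      F ∣[-(n : ℤ)] (Matrix.SpecialLinearGroup.mapGL ℝ γ) := by
  have hdet : ((Matrix.SpecialLinearGroup.mapGL ℝ γ : GL (Fin 2) ℝ) :
      Matrix (Fin 2) (Fin 2) ℝ).det = 1 := by
    rw [← Matrix.GeneralLinearGroup.val_det_apply]; simp
  rw [wslash, hdet]
  simp

theorem eq_zero_of_periodFun_eq_zero (N : ℕ) [NeZero N] (n : ℕ)
    (f : CuspForm (CongruenceSubgroup.Gamma0 N) ((n : ℤ) + 2)) (hf : IsCuspAll n ⇑f)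
    (h : ∀ γ : SL(2, ℤ), periodFun n ⇑f (Matrix.SpecialLinearGroup.mapGL ℝ γ) = 0) : f = 0 := by
  -- `f` itself is cusp-like (take `g = 1`)
  have hf1 : IsCuspLike (⇑f) := by
    have := hf 1 IsIntPos.one
    simpa using this
  set F : ℍ → ℂ := prim^[n + 1] ⇑f with hF
  have hFc : IsCuspLike F := iterate_prim_isCuspLike hf1 (n + 1)
  -- the key identity
  have key : ∀ γ : SL(2, ℤ), F ∣[-(n : ℤ)] (Matrix.SpecialLinearGroup.mapGL ℝ γ) =
      prim^[n + 1] (⇑f ∣[(n : ℤ) + 2] (Matrix.SpecialLinearGroup.mapGL ℝ γ)) := by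
    intro γ
    have := h γ
    rw [periodFun, wslash_mapGL, sub_eq_zero] at this
    exact this
  -- invariance under `Γ₀(N)`
  have hinv : ∀ γ ∈ ((CongruenceSubgroup.Gamma0 N : Subgroup SL(2, ℤ)) :
      Subgroup (GL (Fin 2) ℝ)), F ∣[-(n : ℤ)] γ = F := by
    rintro _ ⟨γ, hγ, rfl⟩
    have h1 := key γ
    have h2 : ⇑f ∣[(n : ℤ) + 2] (Matrix.SpecialLinearGroup.mapGL ℝ γ) = ⇑f :=
      SlashInvariantFormClass.slash_action_eq f _ ⟨γ, hγ, rfl⟩
    rw [h2] at h1
    exact h1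
  -- zero at all cusps
  have hzero : ∀ g : SL(2, ℤ), IsZeroAtImInfty (F ∣[-(n : ℤ)] g) := by
    intro γ
    have h1 := key γ
    have h3 : IsCuspLike (prim^[n + 1] (⇑f ∣[(n : ℤ) + 2] (Matrix.SpecialLinearGroup.mapGL ℝ γ))) :=
      iterate_prim_isCuspLike (hf _ (IsIntPos.mapGL γ)) (n + 1)
    have h4 : F ∣[-(n : ℤ)] γ = F ∣[-(n : ℤ)] (Matrix.SpecialLinearGroup.mapGL ℝ γ) := rfl
    rw [h4, h1]
    exact h3.zero
  have hF0 : F = 0 :=
    h20_eq_zero_of_slashInvariant_nonpos_weight n F hFc.holo hinv hzero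
  have hfD : 𝔻^[n + 1] F = ⇑f := iterate_normalizedDeriv_iterate_prim hf1 (n + 1)
  have hD0 : ∀ m : ℕ, 𝔻^[m] (0 : ℍ → ℂ) = 0 := by
    intro m
    induction m with
    | zero => rfl
    | succ m ih =>
      rw [Function.iterate_succ_apply', ih]
      have := Derivative.normalizedDerivOfComplex_const (0 : ℂ)
      exact this
  have : (⇑f : ℍ → ℂ) = 0 := by rw [← hfD, hF0, hD0]
  exact DFunLike.coe_injective this

end

end Fermat.Agent.S22
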