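import Mathlib

/-!
# Bol's identity

For `F : ℍ → ℂ` holomorphic and `g ∈ GL(2, ℝ)` with positive determinant,
`D^n (F ∣[1 - n] g) = det(g)^(-n) • (D^n F) ∣[1 + n] g`, where `D = (2πi)⁻¹ d/dz`.
-/

set_option autoImplicit false

open UpperHalfPlane hiding I
open Real Complex
open scoped Manifold MatrixGroups ModularForm Topology
open Derivative

namespace Fermat.Agent.S22

/-- Iterates of `D` preserve holomorphy. -/
theorem mdiff_iterate_D {F : ℍ → ℂ} (hF : MDiff F) (n : ℕ) : MDiff (D^[n] F) := by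
  induction n with
  | zero => simpa using hF
  | succ n ih =>
    rw [Function.iterate_succ_apply']
    exact normalizedDerivOfComplex_mdifferentiable ih

/-- Iterates of `D` commute with scalar multiplication. -/
theorem iterate_D_smul (c : ℂ) {F : ℍ → ℂ} (hF : MDiff F) (n : ℕ) :
    D^[n] (c • F) = c • D^[n] F := by
  induction n with
  | zero => rfl
  | succ n ih =>
    rw [Function.iterate_succ_apply', Function.iterate_succ_apply', ih,
      normalizedDerivOfComplex_smul c _ (mdiff_iterate_D hF n)]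

/-- Iterates of `D` are additive. -/
theorem iterate_D_add {F G : ℍ → ℂ} (hF : MDiff F) (hG : MDiff G) (n : ℕ) :
    D^[n] (F + G) = D^[n] F + D^[n] G := by
  induction n with
  | zero => rfl
  | succ n ih =>
    rw [Function.iterate_succ_apply', Function.iterate_succ_apply', Function.iterate_succ_apply',
      ih, normalizedDerivOfComplex_add _ _ (mdiff_iterate_D hF n) (mdiff_iterate_D hG n)]

/-- Iterates of `D` commute with subtraction. -/
theorem iterate_D_sub {F G : ℍ → ℂ} (hF : MDiff F) (hG : MDiff G) (n : ℕ) :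
    D^[n] (F - G) = D^[n] F - D^[n] G := by
  induction n with
  | zero => rfl
  | succ n ih =>
    rw [Function.iterate_succ_apply', Function.iterate_succ_apply', Function.iterate_succ_apply',
      ih, normalizedDerivOfComplex_sub _ _ (mdiff_iterate_D hF n) (mdiff_iterate_D hG n)]

theorem mdiff_smul_fun (c : ℂ) {F : ℍ → ℂ} (hF : MDiff F) : MDiff (c • F) := by
  have : MDiff (fun z => c * F z) := MDifferentiable.mul mdifferentiable_const hF
  exact this

/-- Raising the weight by one: `(g 1 0 / denom g z) * (F ∣[k] g) z` is a multiple of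
`(F ∣[k + 1] g) z`. -/
theorem slash_succ_eq (k : ℤ) (F : ℍ → ℂ) {g : GL (Fin 2) ℝ} (hg : 0 < g.val.det) (z : ℍ) :
    (F ∣[k + 1] g) z = (g.val.det : ℂ) * (denom g z)⁻¹ * (F ∣[k] g) z := by
  have hdet : g.det.val = g.val.det := Matrix.GeneralLinearGroup.val_det_apply g
  have hdetℂ : (g.val.det : ℂ) ≠ 0 := Complex.ofReal_ne_zero.mpr hg.ne'
  have hz := denom_ne_zero g z
  simp only [ModularForm.slash_apply, hdet, abs_of_pos hg]
  rw [show k + 1 - 1 = (k - 1) + 1 by ring, show -(k + 1) = -k + -1 by ring,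
    zpow_add₀ hdetℂ, zpow_add₀ hz, zpow_one, zpow_neg_one]
  ring

/-- Mathlib's formula for `D (F ∣[k] g)`, rewritten with constant coefficients. -/
theorem D_slash_eq {k : ℤ} {F : ℍ → ℂ} (hF : MDiff F) {g : GL (Fin 2) ℝ} (hg : 0 < g.val.det) :
    D (F ∣[k] g) = (g.val.det : ℂ)⁻¹ • (D F ∣[k + 2] g) -
      ((k : ℂ) * (2 * π * I)⁻¹ * (g 1 0 : ℂ) * (g.val.det : ℂ)⁻¹) • (F ∣[k + 1] g) := by
  have hdetℂ : (g.val.det : ℂ) ≠ 0 := Complex.ofReal_ne_zero.mpr hg.ne'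
  rw [normalizedDerivOfComplex_slash hF hg]
  ext z
  simp only [Pi.sub_apply, Pi.smul_apply, smul_eq_mul]
  rw [slash_succ_eq k F hg z]
  field_simp

/-- **Bol's identity**, in the two-step inductive form. -/
theorem bol_aux {g : GL (Fin 2) ℝ} (hg : 0 < g.val.det) (n : ℕ) :
    (∀ F : ℍ → ℂ, MDiff F →
      D^[n] (F ∣[(1 : ℤ) - n] g) = ((g.val.det : ℂ)⁻¹ ^ n) • ((D^[n] F) ∣[(1 : ℤ) + n] g)) ∧
    (∀ F : ℍ → ℂ, MDiff F →
      D^[n + 1] (F ∣[(1 : ℤ) - (n + 1 : ℕ)] g) =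
        ((g.val.det : ℂ)⁻¹ ^ (n + 1)) • ((D^[n + 1] F) ∣[(1 : ℤ) + (n + 1 : ℕ)] g)) := by
  have hdetℂ : (g.val.det : ℂ) ≠ 0 := Complex.ofReal_ne_zero.mpr hg.ne'
  have hσ (x : ℂ) : σ g x = x := by
    rw [σ, if_pos (by rwa [Matrix.GeneralLinearGroup.val_det_apply])]
    rfl
  induction n with
  | zero =>
    refine ⟨fun F _ => ?_, fun F hF => ?_⟩
    · simp
    · simp only [zero_add, Function.iterate_one, Nat.cast_one, sub_self, pow_one]
      rw [D_slash_eq hF hg]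
      simp
  | succ n ih =>
    obtain ⟨ih0, ih1⟩ := ih
    refine ⟨ih1, fun F hF => ?_⟩
    -- abbreviations
    set δ : ℂ := (g.val.det : ℂ)⁻¹ with hδ
    set κ : ℂ := (2 * π * I)⁻¹ * (g 1 0 : ℂ) with hκ
    have hk1 : ((1 : ℤ) - ((n + 1 + 1 : ℕ) : ℤ)) + 2 = (1 : ℤ) - n := by push_cast; ring
    have hk2 : ((1 : ℤ) - ((n + 1 + 1 : ℕ) : ℤ)) + 1 = (1 : ℤ) - ((n + 1 : ℕ) : ℤ) := by
      push_cast; ring
    have hDF : MDiff (D F) := normalizedDerivOfComplex_mdifferentiable hF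
    -- first step: one derivative
    have step1 : D (F ∣[(1 : ℤ) - ((n + 1 + 1 : ℕ) : ℤ)] g) =
        δ • (D F ∣[(1 : ℤ) - n] g) +
          (((n + 1 : ℕ) : ℂ) * κ * δ) • (F ∣[(1 : ℤ) - ((n + 1 : ℕ) : ℤ)] g) := by
      rw [D_slash_eq hF hg, hk1, hk2]
      ext z
      simp only [Pi.sub_apply, Pi.add_apply, Pi.smul_apply, smul_eq_mul]
      push_cast
      ring
    have hA : MDiff (D F ∣[(1 : ℤ) - n] g) := hDF.slash _ _
    have hB : MDiff (F ∣[(1 : ℤ) - ((n + 1 : ℕ) : ℤ)] g) := hF.slash _ _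
    have e1 : D^[n + 1 + 1] (F ∣[(1 : ℤ) - ((n + 1 + 1 : ℕ) : ℤ)] g) =
        D^[n + 1] (D (F ∣[(1 : ℤ) - ((n + 1 + 1 : ℕ) : ℤ)] g)) := by
      rw [Function.iterate_succ_apply]
    rw [e1, step1, iterate_D_add (mdiff_smul_fun _ hA) (mdiff_smul_fun _ hB),
      iterate_D_smul _ hA, iterate_D_smul _ hB, ih1 F hF]
    -- the term with `D F`
    have e2 : D^[n + 1] (D F ∣[(1 : ℤ) - n] g) =
        D (D^[n] (D F ∣[(1 : ℤ) - n] g)) := by
      rw [Function.iterate_succ_apply']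
    have hC : MDiff (D^[n + 1] F) := mdiff_iterate_D hF _
    have hk3 : ((1 : ℤ) + n) + 2 = (1 : ℤ) + ((n + 1 + 1 : ℕ) : ℤ) := by push_cast; ring
    have hk4 : ((1 : ℤ) + n) + 1 = (1 : ℤ) + ((n + 1 : ℕ) : ℤ) := by push_cast; ring
    rw [e2, ih0 (D F) hDF, ← Function.iterate_succ_apply (f := D),
      normalizedDerivOfComplex_smul _ _ (hC.slash _ _), D_slash_eq hC hg, hk3, hk4,
      ← Function.iterate_succ_apply' (f := D)]
    ext z
    simp only [Pi.sub_apply, Pi.add_apply, Pi.smul_apply, smul_eq_mul]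
    push_cast
    ring

/-- **Bol's identity**: `D^n (F ∣[1 - n] g) = det(g)^(-n) • (D^n F) ∣[1 + n] g`. -/
theorem bol_identity {F : ℍ → ℂ} (hF : MDiff F) (n : ℕ) {g : GL (Fin 2) ℝ}
    (hg : 0 < g.val.det) :
    D^[n] (F ∣[(1 : ℤ) - n] g) = ((g.val.det : ℂ)⁻¹ ^ n) • ((D^[n] F) ∣[(1 : ℤ) + n] g) :=
  (bol_aux hg n).1 F hF

/-- **Bol's identity** for `SL(2, ℤ)`. -/
theorem bol_identity_SL {F : ℍ → ℂ} (hF : MDiff F) (n : ℕ) (γ : SL(2, ℤ)) :
    D^[n] (F ∣[(1 : ℤ) - n] γ) = (D^[n] F) ∣[(1 : ℤ) + n] γ := by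
  have hdet : (γ : GL (Fin 2) ℝ).val.det = 1 := by
    rw [← Matrix.GeneralLinearGroup.val_det_apply]; simp
  have := bol_identity hF n (g := (γ : GL (Fin 2) ℝ)) (by rw [hdet]; exact one_pos)
  rw [hdet] at this
  simpa [ModularForm.SL_slash] using this

end Fermat.Agent.S22
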