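import Mathlib
import Fermat.Agent.S22.Period
import Fermat.Agent.S22.PolyAct
import Fermat.Agent.S22.Hermite

/-!
# Hecke stability of the period lattice (S22, WP6, helper49)

For a function `f` all of whose integral translates are cusp-like (`IsCuspAll n f`), the period
polynomial of `f ∣ δ` along `γ ∈ SL(2, ℤ)`, `δ` one of the Hecke matrices of the Prelude, is the
image under an integral matrix action of a period polynomial of `f` along another element of
`SL(2, ℤ)`.  Consequently the coefficients of the period polynomials of `heckeU f` and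
`heckeT f` are integral combinations, with coefficients independent of `f`, of the coefficients of
the period polynomials of `f`.
-/

set_option autoImplicit false

open UpperHalfPlane hiding I
open Complex Filter Function Topology Polynomial
open scoped Manifold MatrixGroups ModularForm Real

namespace Fermat.Agent.S22

noncomputable section

variable {n : ℕ}

/-- The cocycle relation for period polynomials. -/
theorem h49_periodPoly_mul {f : ℍ → ℂ} (hf : IsCuspAll n f) {g h : GL (Fin 2) ℝ}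
    (hg : IsIntPos g) (hh : IsIntPos h) {a b c d : ℤ}
    (hhm : h.val = !![(a : ℝ), (b : ℝ); (c : ℝ), (d : ℝ)]) :
    periodPoly n f (g * h) =
      polyAct n a b c d (periodPoly n f g) + periodPoly n (f ∣[(n : ℤ) + 2] g) h := by
  refine periodPoly_eq_of hf (hg.mul hh) ?_
  rw [periodFun_mul hf hg hh, h20_polyFun_add,
    ← wslash_polyFun n hh.1 hhm _ (periodPoly_natDegree_le hf hg), polyFun_periodPoly hf hg,
    polyFun_periodPoly (hf.slash hg) hh]

/-- The entries of an integral matrix. -/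
theorem h49_isIntPos_entries {g : GL (Fin 2) ℝ} (hg : IsIntPos g) :
    ∃ a b c d : ℤ, g.val = !![(a : ℝ), (b : ℝ); (c : ℝ), (d : ℝ)] := by
  obtain ⟨a, ha⟩ := hg.2 0 0
  obtain ⟨b, hb⟩ := hg.2 0 1
  obtain ⟨c, hc⟩ := hg.2 1 0
  obtain ⟨d, hd⟩ := hg.2 1 1
  refine ⟨a, b, c, d, ?_⟩
  ext i j
  fin_cases i <;> fin_cases j
  · simpa using ha
  · simpa using hb
  · simpa using hc
  · simpa using hd

/-- Slashing by an upper triangular matrix first: the period polynomial along `g` of `f ∣ δ` is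
the period polynomial of `f` along `δ * g`. -/
theorem h49_periodPoly_slash_upper {f : ℍ → ℂ} (hf : IsCuspAll n f) {δ : GL (Fin 2) ℝ}
    (hδ : IsIntPos δ) (hδ0 : δ 1 0 = 0) {g : GL (Fin 2) ℝ} (hg : IsIntPos g) :
    periodPoly n (f ∣[(n : ℤ) + 2] δ) g = periodPoly n f (δ * g) := by
  obtain ⟨a, b, c, d, hgm⟩ := h49_isIntPos_entries hg
  rw [h49_periodPoly_mul hf hδ hg hgm, periodPoly_upper hf hδ hδ0, polyAct_zero, zero_add]

/-- Upper triangular integral matrices with positive determinant. -/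
theorem h49_isIntPos_upperTriangularGL (a b d : ℤ) (had : ((a : ℝ) * (d : ℝ)) ≠ 0)
    (hpos : 0 < a * d) : IsIntPos (ModularForm.upperTriangularGL a b d had) := by
  refine ⟨?_, fun i j => ?_⟩
  · rw [ModularForm.val_upperTriangularGL, Matrix.det_fin_two_of, mul_zero, sub_zero]
    exact_mod_cast hpos
  · rw [ModularForm.val_upperTriangularGL]
    fin_cases i <;> fin_cases j
    · exact ⟨a, by simp⟩
    · exact ⟨b, by simp⟩
    · exact ⟨0, by simp⟩
    · exact ⟨d, by simp⟩

/-- Multiplying by an upper triangular matrix on the right acts on the period polynomial through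
the integral polynomial action. -/
theorem h49_periodPoly_mul_upper {f : ℍ → ℂ} (hf : IsCuspAll n f) {g : GL (Fin 2) ℝ}
    (hg : IsIntPos g) (a b d : ℤ) (had : ((a : ℝ) * (d : ℝ)) ≠ 0) (hpos : 0 < a * d) :
    periodPoly n f (g * ModularForm.upperTriangularGL a b d had) =
      polyAct n a b 0 d (periodPoly n f g) := by
  have hu := h49_isIntPos_upperTriangularGL a b d had hpos
  have hum : (ModularForm.upperTriangularGL a b d had).val =
      !![(a : ℝ), (b : ℝ); ((0 : ℤ) : ℝ), (d : ℝ)] := by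
    rw [ModularForm.val_upperTriangularGL]; simp
  have hu0 : (ModularForm.upperTriangularGL (a : ℝ) b d had) 1 0 = 0 := by
    show (ModularForm.upperTriangularGL (a : ℝ) b d had).val 1 0 = 0
    rw [ModularForm.val_upperTriangularGL]; simp
  rw [h49_periodPoly_mul hf hg hu hum, periodPoly_upper (hf.slash hg) hu hu0, add_zero]

/-- **Key step of Hecke stability**: if `δ` is upper triangular and `δ * γ = γ' * u` with
`γ, γ' ∈ SL(2, ℤ)` and `u = !![a, b; 0, d]`, then the period polynomial of `f ∣ δ` along `γ` is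
the image of the period polynomial of `f` along `γ'` under the integral action of `u`. -/
theorem h49_periodPoly_slash_of_factor {f : ℍ → ℂ} (hf : IsCuspAll n f) {δ : GL (Fin 2) ℝ}
    (hδ : IsIntPos δ) (hδ0 : δ 1 0 = 0) (γ γ' : SL(2, ℤ)) (a b d : ℤ)
    (had : ((a : ℝ) * (d : ℝ)) ≠ 0) (hpos : 0 < a * d)
    (hfac : δ * (γ : GL (Fin 2) ℝ) =
      (γ' : GL (Fin 2) ℝ) * ModularForm.upperTriangularGL a b d had) :
    periodPoly n (f ∣[(n : ℤ) + 2] δ) (Matrix.SpecialLinearGroup.mapGL ℝ γ) =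
      polyAct n a b 0 d (periodPoly n f (Matrix.SpecialLinearGroup.mapGL ℝ γ')) := by
  have h1 := h49_periodPoly_slash_upper hf hδ hδ0 (IsIntPos.mapGL γ)
  have h2 := h49_periodPoly_mul_upper hf (IsIntPos.mapGL γ') a b d had hpos
  rw [h1, ← h2]
  exact congrArg (periodPoly n f) hfac

/-! ### The Hecke matrices of the Prelude -/

theorem h49_isIntPos_heckeMatrix {p : ℕ} (hp : p ≠ 0) (j : ℕ) :
    IsIntPos (ModularForm.heckeMatrix p j) := by
  refine ⟨?_, fun i k => ?_⟩
  · rw [ModularForm.val_heckeMatrix hp, Matrix.det_fin_two_of]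
    have : (0 : ℝ) < p := by exact_mod_cast Nat.pos_of_ne_zero hp
    simpa using this
  · rw [ModularForm.val_heckeMatrix hp]
    fin_cases i <;> fin_cases k
    · exact ⟨1, by simp⟩
    · exact ⟨j, by simp⟩
    · exact ⟨0, by simp⟩
    · exact ⟨p, by simp⟩

theorem h49_isIntPos_heckeDiagMatrix {p : ℕ} (hp : p ≠ 0) :
    IsIntPos (ModularForm.heckeDiagMatrix p) := by
  refine ⟨?_, fun i k => ?_⟩
  · rw [ModularForm.val_heckeDiagMatrix hp, Matrix.det_fin_two_of]
    have : (0 : ℝ) < p := by exact_mod_cast Nat.pos_of_ne_zero hp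
    simpa using this
  · rw [ModularForm.val_heckeDiagMatrix hp]
    fin_cases i <;> fin_cases k
    · exact ⟨p, by simp⟩
    · exact ⟨0, by simp⟩
    · exact ⟨0, by simp⟩
    · exact ⟨1, by simp⟩

theorem h49_heckeMatrix_lower {p : ℕ} (hp : p ≠ 0) (j : ℕ) :
    (ModularForm.heckeMatrix p j) 1 0 = 0 := by
  show (ModularForm.heckeMatrix p j).val 1 0 = 0
  rw [ModularForm.val_heckeMatrix hp]; simp

theorem h49_heckeDiagMatrix_lower {p : ℕ} (hp : p ≠ 0) :
    (ModularForm.heckeDiagMatrix p) 1 0 = 0 := by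
  show (ModularForm.heckeDiagMatrix p).val 1 0 = 0
  rw [ModularForm.val_heckeDiagMatrix hp]; simp

/-- Period polynomials of `f ∣ heckeMatrix p j`: the data `γ', a, b, d` do not depend on `f`. -/
theorem h49_periodPoly_slash_heckeMatrix (n : ℕ) {p : ℕ} (hp : p ≠ 0) (j : ℕ) (γ : SL(2, ℤ)) :
    ∃ (γ' : SL(2, ℤ)) (a b d : ℤ), ∀ f : ℍ → ℂ, IsCuspAll n f →
      periodPoly n (f ∣[(n : ℤ) + 2] ModularForm.heckeMatrix p j)
          (Matrix.SpecialLinearGroup.mapGL ℝ γ) =
        polyAct n a b 0 d (periodPoly n f (Matrix.SpecialLinearGroup.mapGL ℝ γ')) := by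
  obtain ⟨γ', a, b, d, ha, hd, had, -, hfac⟩ := heckeMatrix_mul_SL p j hp γ
  exact ⟨γ', a, b, d, fun f hf =>
    h49_periodPoly_slash_of_factor hf (h49_isIntPos_heckeMatrix hp j)
      (h49_heckeMatrix_lower hp j) γ γ' a b d had (mul_pos ha hd) hfac⟩

/-- Period polynomials of `f ∣ heckeDiagMatrix p`: the data `γ', a, b, d` do not depend on
`f`. -/
theorem h49_periodPoly_slash_heckeDiagMatrix (n : ℕ) {p : ℕ} (hp : p ≠ 0) (γ : SL(2, ℤ)) :
    ∃ (γ' : SL(2, ℤ)) (a b d : ℤ), ∀ f : ℍ → ℂ, IsCuspAll n f →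
      periodPoly n (f ∣[(n : ℤ) + 2] ModularForm.heckeDiagMatrix p)
          (Matrix.SpecialLinearGroup.mapGL ℝ γ) =
        polyAct n a b 0 d (periodPoly n f (Matrix.SpecialLinearGroup.mapGL ℝ γ')) := by
  obtain ⟨γ', a, b, d, ha, hd, had, -, hfac⟩ := heckeDiagMatrix_mul_SL p hp γ
  exact ⟨γ', a, b, d, fun f hf =>
    h49_periodPoly_slash_of_factor hf (h49_isIntPos_heckeDiagMatrix hp)
      (h49_heckeDiagMatrix_lower hp) γ γ' a b d had (mul_pos ha hd) hfac⟩

/-! ### The operators `heckeU` and `heckeT` -/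

theorem h49_isCuspAll_heckeU {f : ℍ → ℂ} (hf : IsCuspAll n f) {p : ℕ} (hp : p ≠ 0) :
    IsCuspAll n (ModularForm.heckeU ((n : ℤ) + 2) p f) := by
  rw [ModularForm.heckeU_def]
  exact IsCuspAll.sum _ fun j _ => hf.slash (h49_isIntPos_heckeMatrix hp j)

theorem h49_isCuspAll_heckeT {f : ℍ → ℂ} (hf : IsCuspAll n f) {p : ℕ} (hp : p ≠ 0) :
    IsCuspAll n (ModularForm.heckeT ((n : ℤ) + 2) p f) := by
  rw [ModularForm.heckeT_eq_heckeU_add]
  exact (h49_isCuspAll_heckeU hf hp).add (hf.slash (h49_isIntPos_heckeDiagMatrix hp))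

/-- **Hecke stability, `U_p`** (polynomial form).  The data `γ', a, b, d` are independent of
`f`. -/
theorem h49_periodPoly_heckeU (n : ℕ) {p : ℕ} (hp : p ≠ 0) (γ : SL(2, ℤ)) :
    ∃ (γ' : ℕ → SL(2, ℤ)) (a b d : ℕ → ℤ), ∀ f : ℍ → ℂ, IsCuspAll n f →
      periodPoly n (ModularForm.heckeU ((n : ℤ) + 2) p f)
          (Matrix.SpecialLinearGroup.mapGL ℝ γ) =
        ∑ j ∈ Finset.range p, polyAct n (a j) (b j) 0 (d j)
          (periodPoly n f (Matrix.SpecialLinearGroup.mapGL ℝ (γ' j))) := by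
  choose γ' a b d h using fun j : ℕ => h49_periodPoly_slash_heckeMatrix n hp j γ
  refine ⟨γ', a, b, d, fun f hf => ?_⟩
  rw [ModularForm.heckeU_def,
    periodPoly_sum _ (fun j _ => hf.slash (h49_isIntPos_heckeMatrix hp j)) (IsIntPos.mapGL γ)]
  exact Finset.sum_congr rfl fun j _ => h j f hf

/-- **Hecke stability, `T_p`** (polynomial form).  The data `γ', a, b, d` are independent of
`f`; the index `p` corresponds to the diagonal matrix. -/
theorem h49_periodPoly_heckeT (n : ℕ) {p : ℕ} (hp : p ≠ 0) (γ : SL(2, ℤ)) :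
    ∃ (γ' : ℕ → SL(2, ℤ)) (a b d : ℕ → ℤ), ∀ f : ℍ → ℂ, IsCuspAll n f →
      periodPoly n (ModularForm.heckeT ((n : ℤ) + 2) p f)
          (Matrix.SpecialLinearGroup.mapGL ℝ γ) =
        ∑ j ∈ Finset.range (p + 1), polyAct n (a j) (b j) 0 (d j)
          (periodPoly n f (Matrix.SpecialLinearGroup.mapGL ℝ (γ' j))) := by
  obtain ⟨γ', a, b, d, h⟩ := h49_periodPoly_heckeU n hp γ
  obtain ⟨γ₀, a₀, b₀, d₀, h₀⟩ := h49_periodPoly_slash_heckeDiagMatrix n hp γ
  refine ⟨fun j => if j < p then γ' j else γ₀, fun j => if j < p then a j else a₀,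
    fun j => if j < p then b j else b₀, fun j => if j < p then d j else d₀, fun f hf => ?_⟩
  have e1 : ∑ j ∈ Finset.range p, polyAct n (a j) (b j) 0 (d j)
        (periodPoly n f (Matrix.SpecialLinearGroup.mapGL ℝ (γ' j))) =
      ∑ j ∈ Finset.range p, polyAct n (if j < p then a j else a₀) (if j < p then b j else b₀) 0
        (if j < p then d j else d₀)
        (periodPoly n f (Matrix.SpecialLinearGroup.mapGL ℝ (if j < p then γ' j else γ₀))) := by
    refine Finset.sum_congr rfl fun j hj => ?_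
    simp only [if_pos (Finset.mem_range.mp hj)]
  have e2 : polyAct n a₀ b₀ 0 d₀ (periodPoly n f (Matrix.SpecialLinearGroup.mapGL ℝ γ₀)) =
      polyAct n (if p < p then a p else a₀) (if p < p then b p else b₀) 0
        (if p < p then d p else d₀)
        (periodPoly n f (Matrix.SpecialLinearGroup.mapGL ℝ (if p < p then γ' p else γ₀))) := by
    simp only [lt_irrefl, if_false]
  rw [ModularForm.heckeT_eq_heckeU_add,
    periodPoly_add (h49_isCuspAll_heckeU hf hp) (hf.slash (h49_isIntPos_heckeDiagMatrix hp))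
      (IsIntPos.mapGL γ), h f hf, h₀ f hf, Finset.sum_range_succ, e1, e2]

/-- Coefficients of a sum of integral polynomial actions. -/
theorem h49_coeff_sum_polyAct (n : ℕ) (s : Finset ℕ) (a b c d : ℕ → ℤ) :
    ∃ m : ℕ → ℕ → ℕ → ℤ, ∀ (P : ℕ → ℂ[X]) (i : ℕ),
      (∑ j ∈ s, polyAct n (a j) (b j) (c j) (d j) (P j)).coeff i =
        ∑ j ∈ s, ∑ l ∈ Finset.range (n + 1), (m j i l : ℂ) * (P j).coeff l := by
  choose m hm using fun j : ℕ => polyAct_coeff n (a j) (b j) (c j) (d j)
  refine ⟨m, fun P i => ?_⟩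
  rw [Polynomial.finsetSum_coeff]
  exact Finset.sum_congr rfl fun j _ => hm j (P j) i

/-- **Hecke stability, `U_p`** (coefficient form): every coefficient of a period polynomial of
`heckeU f` is an integral combination, independent of `f`, of coefficients of period polynomials
of `f`. -/
theorem h49_coeff_periodPoly_heckeU (n : ℕ) {p : ℕ} (hp : p ≠ 0) (γ : SL(2, ℤ)) :
    ∃ (γ' : ℕ → SL(2, ℤ)) (m : ℕ → ℕ → ℕ → ℤ), ∀ f : ℍ → ℂ, IsCuspAll n f → ∀ i : ℕ,
      (periodPoly n (ModularForm.heckeU ((n : ℤ) + 2) p f)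
          (Matrix.SpecialLinearGroup.mapGL ℝ γ)).coeff i =
        ∑ j ∈ Finset.range p, ∑ l ∈ Finset.range (n + 1),
          (m j i l : ℂ) * (periodPoly n f (Matrix.SpecialLinearGroup.mapGL ℝ (γ' j))).coeff l := by
  obtain ⟨γ', a, b, d, h⟩ := h49_periodPoly_heckeU n hp γ
  obtain ⟨m, hm⟩ := h49_coeff_sum_polyAct n (Finset.range p) a b (fun _ => 0) d
  exact ⟨γ', m, fun f hf i => by rw [h f hf, hm]⟩

/-- **Hecke stability, `T_p`** (coefficient form): every coefficient of a period polynomial of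
`heckeT f` is an integral combination, independent of `f`, of coefficients of period polynomials
of `f`. -/
theorem h49_coeff_periodPoly_heckeT (n : ℕ) {p : ℕ} (hp : p ≠ 0) (γ : SL(2, ℤ)) :
    ∃ (γ' : ℕ → SL(2, ℤ)) (m : ℕ → ℕ → ℕ → ℤ), ∀ f : ℍ → ℂ, IsCuspAll n f → ∀ i : ℕ,
      (periodPoly n (ModularForm.heckeT ((n : ℤ) + 2) p f)
          (Matrix.SpecialLinearGroup.mapGL ℝ γ)).coeff i =
        ∑ j ∈ Finset.range (p + 1), ∑ l ∈ Finset.range (n + 1),
          (m j i l : ℂ) * (periodPoly n f (Matrix.SpecialLinearGroup.mapGL ℝ (γ' j))).coeff l := by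
  obtain ⟨γ', a, b, d, h⟩ := h49_periodPoly_heckeT n hp γ
  obtain ⟨m, hm⟩ := h49_coeff_sum_polyAct n (Finset.range (p + 1)) a b (fun _ => 0) d
  exact ⟨γ', m, fun f hf i => by rw [h f hf, hm]⟩

end

end Fermat.Agent.S22
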