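import Mathlib

set_option autoImplicit false
set_option linter.style.haveILetI false

/-!
# Primitives of cusp-like functions (the "E-operator")

For a holomorphic `h`-periodic function `F` on the upper half plane tending to `0` at `i∞`
we construct the unique holomorphic `h`-periodic function `G` tending to `0` at `i∞` with
`D G = F`, where `D = (2πi)⁻¹ d/dz`.
-/

namespace Fermat.Agent.S22

open UpperHalfPlane hiding I
open Real Complex Filter Function
open scoped Manifold MatrixGroups ModularForm Topology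
open Derivative

/-- Holomorphic, `h`-periodic functions on the upper half plane tending to `0` at `i∞`. -/
structure H49CuspLike (h : ℝ) (F : ℍ → ℂ) : Prop where
  mdiff : MDiff F
  periodic : Function.Periodic (F ∘ ofComplex) h
  zero : IsZeroAtImInfty F

theorem H49CuspLike.bdd {h : ℝ} {F : ℍ → ℂ} (hF : H49CuspLike h F) : IsBoundedAtImInfty F :=
  hF.zero.isBoundedAtImInfty

theorem h49_qParam_add_period {h : ℝ} (hh : h ≠ 0) (w : ℂ) :
    Function.Periodic.qParam h (w + h) = Function.Periodic.qParam h w := by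
  have hh' : (h : ℂ) ≠ 0 := by exact_mod_cast hh
  simp only [Function.Periodic.qParam]
  have : 2 * π * I * (w + h) / h = 2 * π * I * w / h + 2 * π * I := by
    field_simp
  rw [this, Complex.exp_add, Complex.exp_two_pi_mul_I, mul_one]

/-- The `q`-parameter composed with a primitive on the disc is periodic. -/
theorem h49_periodic_comp_qParam {h : ℝ} (hh : h ≠ 0) (ψ : ℂ → ℂ) (c : ℂ) :
    Function.Periodic ((fun τ : ℍ => c * ψ (Function.Periodic.qParam h (τ : ℂ))) ∘ ofComplex) h := by
  intro w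
  by_cases! hw : 0 < im w
  · have hw' : 0 < im (w + h) := by simp [hw]
    simp only [comp_apply, ofComplex_apply_of_im_pos hw', ofComplex_apply_of_im_pos hw]
    congr 2
    exact h49_qParam_add_period hh w
  · have hw' : im (w + h) ≤ 0 := by simpa using hw
    simp [ofComplex_apply_of_im_nonpos hw', ofComplex_apply_of_im_nonpos hw]

theorem h49_exists_primitive {h : ℝ} (hh : 0 < h) {F : ℍ → ℂ} (hF : H49CuspLike h F) :
    ∃ G : ℍ → ℂ, H49CuspLike h G ∧ D G = F := by
  -- the cusp function and its divided difference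
  set φ : ℂ → ℂ := cuspFunction h F with hφ
  have hφdiff : DifferentiableOn ℂ φ (Metric.ball 0 1) :=
    differentiableOn_cuspFunction_ball hh hF.periodic hF.mdiff hF.bdd
  have hφ0 : φ 0 = 0 := by
    have h1 := cuspFunction_apply_zero hh
      (analyticAt_cuspFunction_zero hh hF.periodic hF.mdiff hF.bdd) hF.periodic
    rw [hφ, h1]
    exact hF.zero.valueAtInfty_eq_zero
  have hball : Metric.ball (0 : ℂ) 1 ∈ 𝓝 (0 : ℂ) := Metric.ball_mem_nhds 0 one_pos
  have hgdiff : DifferentiableOn ℂ (dslope φ 0) (Metric.ball 0 1) :=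
    (Complex.differentiableOn_dslope hball).2 hφdiff
  obtain ⟨ψ, hψ0, hψ⟩ := hgdiff.isExactOn_ball.with_val_at 0 0
  have hq_mem : ∀ z : ℂ, 0 < z.im → Function.Periodic.qParam h z ∈ Metric.ball (0 : ℂ) 1 := by
    intro z hz
    rw [mem_ball_zero_iff]
    exact Function.Periodic.norm_qParam_lt_one hh hz
  have hqg : ∀ q : ℂ, q * dslope φ 0 q = φ q := by
    intro q
    rcases eq_or_ne q 0 with rfl | hq
    · rw [zero_mul, hφ0]
    · rw [dslope_of_ne _ hq, slope_def_field, hφ0, sub_zero, sub_zero]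
      field_simp
  refine ⟨fun τ => (h : ℂ) * ψ (Function.Periodic.qParam h (τ : ℂ)), ⟨?_, ?_, ?_⟩, ?_⟩
  · -- holomorphic
    rw [UpperHalfPlane.mdifferentiable_iff]
    have h1 : DifferentiableOn ℂ (fun z : ℂ => (h : ℂ) * ψ (Function.Periodic.qParam h z))
        upperHalfPlaneSet := by
      intro z hz
      have hψd : DifferentiableAt ℂ ψ (Function.Periodic.qParam h z) :=
        (hψ _ (hq_mem z hz)).differentiableAt
      have hqd : DifferentiableAt ℂ (Function.Periodic.qParam h) z :=
        (Function.Periodic.differentiable_qParam (h := h)) z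
      exact ((hψd.comp z hqd).const_mul _).differentiableWithinAt
    refine h1.congr ?_
    intro z hz
    simp [Function.comp_apply, ofComplex_apply_of_im_pos hz]
  · exact h49_periodic_comp_qParam hh.ne' ψ h
  · -- zero at infinity
    have hcont : ContinuousAt ψ 0 := (hψ 0 (Metric.mem_ball_self one_pos)).continuousAt
    have h1 : Tendsto (fun τ : ℍ => ψ (Function.Periodic.qParam h (τ : ℂ))) atImInfty (𝓝 (ψ 0)) :=
      hcont.tendsto.comp (qParam_tendsto_atImInfty hh)
    rw [hψ0] at h1
    have h2 := h1.const_mul (h : ℂ)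
    rw [mul_zero] at h2
    exact h2
  · -- derivative
    ext τ
    have hτ : 0 < (τ : ℂ).im := τ.im_pos
    have hev : ((fun τ : ℍ => (h : ℂ) * ψ (Function.Periodic.qParam h (τ : ℂ))) ∘ ofComplex)
        =ᶠ[𝓝 (τ : ℂ)] fun z : ℂ => (h : ℂ) * ψ (Function.Periodic.qParam h z) := by
      filter_upwards [isOpen_upperHalfPlaneSet.mem_nhds hτ] with z hz
      simp [Function.comp_apply, ofComplex_apply_of_im_pos hz]
    have hqderiv : HasDerivAt (Function.Periodic.qParam h)
        (Function.Periodic.qParam h (τ : ℂ) * (2 * π * I / h)) (τ : ℂ) := by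
      have h1 : HasDerivAt (fun z : ℂ => 2 * π * I * z / h) (2 * π * I / h) (τ : ℂ) := by
        have := ((hasDerivAt_id (τ : ℂ)).const_mul (2 * π * I)).div_const (h : ℂ)
        simpa using this
      have h2 := h1.cexp
      exact h2
    have hψderiv := hψ _ (hq_mem (τ : ℂ) hτ)
    have hcomp : HasDerivAt (fun z : ℂ => (h : ℂ) * ψ (Function.Periodic.qParam h z))
        ((h : ℂ) * (dslope φ 0 (Function.Periodic.qParam h (τ : ℂ)) *
          (Function.Periodic.qParam h (τ : ℂ) * (2 * π * I / h)))) (τ : ℂ) :=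
      (hψderiv.comp (τ : ℂ) hqderiv).const_mul _
    have hderiv : deriv ((fun τ : ℍ => (h : ℂ) * ψ (Function.Periodic.qParam h (τ : ℂ))) ∘
        ofComplex) (τ : ℂ) = (h : ℂ) * (dslope φ 0 (Function.Periodic.qParam h (τ : ℂ)) *
          (Function.Periodic.qParam h (τ : ℂ) * (2 * π * I / h))) := by
      rw [hev.deriv_eq]
      exact hcomp.deriv
    have hFτ : F τ = φ (Function.Periodic.qParam h (τ : ℂ)) :=
      (eq_cuspFunction τ hh.ne' hF.periodic).symm
    simp only [normalizedDerivOfComplex]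
    rw [hderiv, hFτ, ← hqg (Function.Periodic.qParam h (τ : ℂ))]
    have hh' : (h : ℂ) ≠ 0 := by exact_mod_cast hh.ne'
    have hpi : (2 * π * I : ℂ) ≠ 0 := by
      simp [Real.pi_ne_zero, Complex.I_ne_zero]
    field_simp

/-- A holomorphic function on the upper half plane with `D G = 0` tending to zero at `i∞`
vanishes. -/
theorem h49_eq_zero_of_D_eq_zero {G : ℍ → ℂ} (hG : MDiff G) (hz : IsZeroAtImInfty G)
    (hD : D G = 0) : G = 0 := by
  have hdiff : DifferentiableOn ℂ (G ∘ ofComplex) upperHalfPlaneSet :=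
    UpperHalfPlane.mdifferentiable_iff.1 hG
  have hderiv : upperHalfPlaneSet.EqOn (deriv (G ∘ ofComplex)) 0 := by
    intro z hz'
    have h1 := congrFun hD ⟨z, hz'⟩
    simp only [normalizedDerivOfComplex, Pi.zero_apply] at h1
    have hpi : ((2 * π * I : ℂ))⁻¹ ≠ 0 := by
      simp [Real.pi_ne_zero, Complex.I_ne_zero]
    rcases mul_eq_zero.1 h1 with h2 | h2
    · exact absurd h2 hpi
    · simpa using h2
  have hconn : IsPreconnected upperHalfPlaneSet := by
    have hconv : Convex ℝ upperHalfPlaneSet := by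
      have : upperHalfPlaneSet = Complex.im ⁻¹' Set.Ioi 0 := by
        ext z; simp [upperHalfPlaneSet]
      rw [this]
      exact (convex_Ioi 0).linear_preimage Complex.imLm
    exact hconv.isPreconnected
  have hconst : ∀ τ τ' : ℍ, G τ = G τ' := by
    intro τ τ'
    have := isOpen_upperHalfPlaneSet.is_const_of_deriv_eq_zero hconn hdiff hderiv
      τ.im_pos τ'.im_pos
    simpa [Function.comp_apply, ofComplex_apply] using this
  funext τ
  have hlim : Tendsto G atImInfty (𝓝 (G τ)) := by
    have : G = fun _ => G τ := funext fun τ' => hconst τ' τ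
    rw [this]
    exact tendsto_const_nhds
  exact tendsto_nhds_unique hlim hz

theorem h49_primitive_unique {G₁ G₂ : ℍ → ℂ} (h₁ : MDiff G₁) (h₂ : MDiff G₂)
    (z₁ : IsZeroAtImInfty G₁) (z₂ : IsZeroAtImInfty G₂) (hD : D G₁ = D G₂) : G₁ = G₂ := by
  have h3 : G₁ - G₂ = 0 := by
    apply h49_eq_zero_of_D_eq_zero (h₁.sub h₂)
    · have := z₁.sub z₂
      simp only [sub_zero] at this
      exact this
    · rw [normalizedDerivOfComplex_sub _ _ h₁ h₂, hD, sub_self]
  exact sub_eq_zero.1 h3

/-! ### Closure properties of the class -/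

theorem H49CuspLike.zero_fun (h : ℝ) : H49CuspLike h (0 : ℍ → ℂ) where
  mdiff := mdifferentiable_const
  periodic := fun _ => rfl
  zero := tendsto_const_nhds

theorem H49CuspLike.add {h : ℝ} {F G : ℍ → ℂ} (hF : H49CuspLike h F) (hG : H49CuspLike h G) :
    H49CuspLike h (F + G) where
  mdiff := hF.mdiff.add hG.mdiff
  periodic := by
    intro w
    have h1 := hF.periodic w
    have h2 := hG.periodic w
    simp only [Function.comp_apply, Pi.add_apply] at h1 h2 ⊢
    rw [h1, h2]
  zero := hF.zero.add hG.zero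

theorem H49CuspLike.smul {h : ℝ} {F : ℍ → ℂ} (c : ℂ) (hF : H49CuspLike h F) :
    H49CuspLike h (c • F) where
  mdiff := by
    have : MDiff (fun z => c * F z) := mdifferentiable_const.mul hF.mdiff
    exact this
  periodic := by
    intro w
    have h1 : F (ofComplex (w + h)) = F (ofComplex w) := hF.periodic w
    show c • F (ofComplex (w + h)) = c • F (ofComplex w)
    rw [h1]
  zero := by
    have := hF.zero.const_mul c
    simp only [mul_zero] at this
    exact this

theorem H49CuspLike.neg {h : ℝ} {F : ℍ → ℂ} (hF : H49CuspLike h F) : H49CuspLike h (-F) := by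
  have := hF.smul (-1)
  simpa using this

theorem H49CuspLike.sub {h : ℝ} {F G : ℍ → ℂ} (hF : H49CuspLike h F) (hG : H49CuspLike h G) :
    H49CuspLike h (F - G) := by
  rw [sub_eq_add_neg]
  exact hF.add hG.neg

/-- A function of period `h` also has period `m * h`. -/
theorem H49CuspLike.nat_mul {h : ℝ} {F : ℍ → ℂ} (hF : H49CuspLike h F) (m : ℕ) :
    H49CuspLike (m * h) F where
  mdiff := hF.mdiff
  periodic := by
    have := hF.periodic.nat_mul m
    intro w
    have h1 := this w
    simp only [Function.comp_apply] at h1 ⊢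
    rw [← h1]
    congr 2
    push_cast
    ring
  zero := hF.zero

/-! ### The primitive operator -/

open Classical in
/-- The primitive operator `E`: for a cusp-like `F` of period `h > 0`, the unique cusp-like
`G` with `D G = F`; junk value `0` otherwise. -/
noncomputable def h49_E (h : ℝ) (F : ℍ → ℂ) : ℍ → ℂ :=
  if hF : 0 < h ∧ H49CuspLike h F then Classical.choose (h49_exists_primitive hF.1 hF.2) else 0

theorem h49_E_cuspLike {h : ℝ} (hh : 0 < h) {F : ℍ → ℂ} (hF : H49CuspLike h F) :
    H49CuspLike h (h49_E h F) := by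
  rw [h49_E, dif_pos ⟨hh, hF⟩]
  exact (Classical.choose_spec (h49_exists_primitive hh hF)).1

theorem h49_D_E {h : ℝ} (hh : 0 < h) {F : ℍ → ℂ} (hF : H49CuspLike h F) :
    D (h49_E h F) = F := by
  rw [h49_E, dif_pos ⟨hh, hF⟩]
  exact (Classical.choose_spec (h49_exists_primitive hh hF)).2

/-- Characterisation of `E F`. -/
theorem h49_E_eq {h : ℝ} (hh : 0 < h) {F G : ℍ → ℂ} (hF : H49CuspLike h F) (hG : MDiff G)
    (hGz : IsZeroAtImInfty G) (hD : D G = F) : h49_E h F = G :=
  h49_primitive_unique (h49_E_cuspLike hh hF).mdiff hG (h49_E_cuspLike hh hF).zero hGz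
    ((h49_D_E hh hF).trans hD.symm)

/-- `E` does not depend on the period. -/
theorem h49_E_eq_of_periods {h h' : ℝ} (hh : 0 < h) (hh' : 0 < h') {F : ℍ → ℂ}
    (hF : H49CuspLike h F) (hF' : H49CuspLike h' F) : h49_E h F = h49_E h' F :=
  h49_E_eq hh hF (h49_E_cuspLike hh' hF').mdiff (h49_E_cuspLike hh' hF').zero (h49_D_E hh' hF')

theorem h49_E_add {h : ℝ} (hh : 0 < h) {F G : ℍ → ℂ} (hF : H49CuspLike h F)
    (hG : H49CuspLike h G) : h49_E h (F + G) = h49_E h F + h49_E h G := by
  have hEF := h49_E_cuspLike hh hF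
  have hEG := h49_E_cuspLike hh hG
  refine h49_E_eq hh (hF.add hG) (hEF.add hEG).mdiff (hEF.add hEG).zero ?_
  rw [normalizedDerivOfComplex_add _ _ hEF.mdiff hEG.mdiff, h49_D_E hh hF, h49_D_E hh hG]

theorem h49_E_smul {h : ℝ} (hh : 0 < h) (c : ℂ) {F : ℍ → ℂ} (hF : H49CuspLike h F) :
    h49_E h (c • F) = c • h49_E h F := by
  have hEF := h49_E_cuspLike hh hF
  refine h49_E_eq hh (hF.smul c) (hEF.smul c).mdiff (hEF.smul c).zero ?_
  rw [normalizedDerivOfComplex_smul _ _ hEF.mdiff, h49_D_E hh hF]

theorem h49_E_zero {h : ℝ} (hh : 0 < h) : h49_E h (0 : ℍ → ℂ) = 0 := by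
  refine h49_E_eq hh (H49CuspLike.zero_fun h) mdifferentiable_const tendsto_const_nhds ?_
  exact normalizedDerivOfComplex_const 0

theorem h49_E_sub {h : ℝ} (hh : 0 < h) {F G : ℍ → ℂ} (hF : H49CuspLike h F)
    (hG : H49CuspLike h G) : h49_E h (F - G) = h49_E h F - h49_E h G := by
  have hEF := h49_E_cuspLike hh hF
  have hEG := h49_E_cuspLike hh hG
  refine h49_E_eq hh (hF.sub hG) (hEF.sub hEG).mdiff (hEF.sub hEG).zero ?_
  rw [normalizedDerivOfComplex_sub _ _ hEF.mdiff hEG.mdiff, h49_D_E hh hF, h49_D_E hh hG]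

/-! ### Iterates -/

theorem h49_E_iterate_cuspLike {h : ℝ} (hh : 0 < h) {F : ℍ → ℂ} (hF : H49CuspLike h F) (n : ℕ) :
    H49CuspLike h ((h49_E h)^[n] F) := by
  induction n with
  | zero => exact hF
  | succ n ih =>
    rw [Function.iterate_succ_apply']
    exact h49_E_cuspLike hh ih

theorem h49_D_iterate_E_iterate {h : ℝ} (hh : 0 < h) {F : ℍ → ℂ} (hF : H49CuspLike h F) (n : ℕ) :
    D^[n] ((h49_E h)^[n] F) = F := by
  induction n with
  | zero => rfl
  | succ n ih =>
    have h1 : (h49_E h)^[n + 1] F = h49_E h ((h49_E h)^[n] F) :=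
      Function.iterate_succ_apply' _ _ _
    have h2 : D^[n + 1] (h49_E h ((h49_E h)^[n] F)) = D^[n] (D (h49_E h ((h49_E h)^[n] F))) :=
      Function.iterate_succ_apply _ _ _
    rw [h1, h2, h49_D_E hh (h49_E_iterate_cuspLike hh hF n), ih]

theorem h49_E_iterate_add {h : ℝ} (hh : 0 < h) {F G : ℍ → ℂ} (hF : H49CuspLike h F)
    (hG : H49CuspLike h G) (n : ℕ) :
    (h49_E h)^[n] (F + G) = (h49_E h)^[n] F + (h49_E h)^[n] G := by
  induction n with
  | zero => rfl
  | succ n ih =>
    rw [Function.iterate_succ_apply', Function.iterate_succ_apply', Function.iterate_succ_apply',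
      ih, h49_E_add hh (h49_E_iterate_cuspLike hh hF n) (h49_E_iterate_cuspLike hh hG n)]

theorem h49_E_iterate_smul {h : ℝ} (hh : 0 < h) (c : ℂ) {F : ℍ → ℂ} (hF : H49CuspLike h F)
    (n : ℕ) : (h49_E h)^[n] (c • F) = c • (h49_E h)^[n] F := by
  induction n with
  | zero => rfl
  | succ n ih =>
    rw [Function.iterate_succ_apply', Function.iterate_succ_apply', ih,
      h49_E_smul hh c (h49_E_iterate_cuspLike hh hF n)]

theorem h49_E_iterate_eq_of_periods {h h' : ℝ} (hh : 0 < h) (hh' : 0 < h') {F : ℍ → ℂ}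
    (hF : H49CuspLike h F) (hF' : H49CuspLike h' F) (n : ℕ) :
    (h49_E h)^[n] F = (h49_E h')^[n] F := by
  induction n with
  | zero => rfl
  | succ n ih =>
    rw [Function.iterate_succ_apply', Function.iterate_succ_apply', ih]
    exact h49_E_eq_of_periods hh hh' (ih ▸ h49_E_iterate_cuspLike hh hF n)
      (h49_E_iterate_cuspLike hh' hF' n)

end Fermat.Agent.S22
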